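import Mathlib.LinearAlgebra.Matrix.Charpoly.Eigs
import Mathlib.LinearAlgebra.Matrix.ToLinearEquiv
import Mathlib.NumberTheory.Padics.Complex

/-!
# Determinants of endomorphisms with two eigenvalues modulo a prime power

If `(Y - 1) (Y - q)` vanishes modulo `p ^ (2 m)` then the determinant of `Y` is congruent to a
power of `q` modulo `p ^ m` (`exists_det_sub_pow_dvd`).
-/

noncomputable section

namespace Fermat.Agent.LevelLowering.MonodromyExact

variable (p : ℕ) [hp : Fact p.Prime]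

theorem norm_intCast_le_iff (z : ℤ) (m : ℕ) :
    ‖(z : PadicAlgCl p)‖ ≤ ((p : ℝ) ^ m)⁻¹ ↔ ((p : ℤ) ^ m) ∣ z := by
  rw [← map_intCast (algebraMap ℚ_[p] (PadicAlgCl p)) z, PadicAlgCl.norm_extends,
    show ((p : ℝ) ^ m)⁻¹ = (p : ℝ) ^ (-(m : ℤ)) by rw [zpow_neg, zpow_natCast],
    Padic.norm_int_le_pow_iff_dvd]

theorem norm_intCast_le_one (z : ℤ) : ‖(z : PadicAlgCl p)‖ ≤ 1 := by
  simpa using (norm_intCast_le_iff p z 0).mpr (by simp)

/-- A product of elements each within `ε` of `1` or of `Q` is within `ε` of a power of `Q`. -/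
theorem exists_pow_near {ε : ℝ} {L : Type*} [NormedField L] [IsUltrametricDist L] {Q : L}
    (hQ : ‖Q‖ ≤ 1) (hε : ε ≤ 1) (hε0 : 0 ≤ ε) (s : Multiset L)
    (h : ∀ x ∈ s, ‖x - 1‖ ≤ ε ∨ ‖x - Q‖ ≤ ε) :
    ∃ j ≤ s.card, ‖s.prod - Q ^ j‖ ≤ ε ∧ ‖s.prod‖ ≤ 1 := by
  induction s using Multiset.induction with
  | empty => exact ⟨0, le_rfl, by simp [hε0], by simp⟩
  | cons x s ih =>
    obtain ⟨j, hjc, hj, hs⟩ := ih fun y hy => h y (Multiset.mem_cons_of_mem hy)
    have key : ∀ (j' : ℕ), j' ≤ 1 → ‖x - Q ^ j'‖ ≤ ε →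
        ∃ j ≤ (x ::ₘ s).card, ‖(x ::ₘ s).prod - Q ^ j‖ ≤ ε ∧ ‖(x ::ₘ s).prod‖ ≤ 1 := by
      intro j' hj' hx
      have hQ' : ∀ i : ℕ, ‖Q ^ i‖ ≤ 1 := fun i => by
        rw [norm_pow]; exact pow_le_one₀ (norm_nonneg _) hQ
      have hx1 : ‖x‖ ≤ 1 := by
        calc ‖x‖ = ‖(x - Q ^ j') + Q ^ j'‖ := by rw [sub_add_cancel]
          _ ≤ max ‖x - Q ^ j'‖ ‖Q ^ j'‖ := IsUltrametricDist.norm_add_le_max _ _
          _ ≤ 1 := max_le (hx.trans hε) (hQ' j')
      refine ⟨j' + j, by rw [Multiset.card_cons]; omega, ?_, ?_⟩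
      · rw [Multiset.prod_cons, pow_add, show x * s.prod - Q ^ j' * Q ^ j =
          (x - Q ^ j') * s.prod + Q ^ j' * (s.prod - Q ^ j) by ring]
        refine (IsUltrametricDist.norm_add_le_max _ _).trans (max_le ?_ ?_)
        · rw [norm_mul]
          exact (mul_le_mul hx hs (norm_nonneg _) hε0).trans (le_of_eq (mul_one _))
        · rw [norm_mul]
          exact (mul_le_mul (hQ' j') hj (norm_nonneg _) zero_le_one).trans (le_of_eq (one_mul _))
      · rw [Multiset.prod_cons, norm_mul]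
        exact mul_le_one₀ hx1 (norm_nonneg _) hs
    rcases h x (Multiset.mem_cons_self x s) with hx | hx
    · exact key 0 zero_le_one (by rwa [pow_zero])
    · exact key 1 le_rfl (by rwa [pow_one])

/-- An integral matrix killed modulo `p ^ (2 m)` by `(X - 1)(X - q)` has determinant a power of
`q` modulo `p ^ m`. -/
theorem exists_det_sub_pow_dvd {ι : Type*} [Fintype ι] [DecidableEq ι] (Y : Matrix ι ι ℤ) (q : ℤ)
    (m : ℕ) (h : ∀ i j, ((p : ℤ) ^ (2 * m)) ∣ ((Y - 1) * (Y - q • 1)) i j) :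
    ∃ k ≤ Fintype.card ι, ((p : ℤ) ^ m) ∣ Y.det - q ^ k := by
  classical
  set L := PadicAlgCl p
  set ψ := Int.castRingHom L
  set YL := ψ.mapMatrix Y
  set ε := ((p : ℝ) ^ m)⁻¹ with hεdef
  have hp1 : (1 : ℝ) ≤ p := by exact_mod_cast hp.out.one_lt.le
  have hε0 : 0 ≤ ε := by positivity
  have hε : ε ≤ 1 := inv_le_one_of_one_le₀ (one_le_pow₀ hp1)
  have hroot : ∀ x ∈ YL.charpoly.roots, ‖x - 1‖ ≤ ε ∨ ‖x - (q : L)‖ ≤ ε := by
    intro x hx
    have hdet : (Matrix.scalar ι x - YL).det = 0 := by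
      rw [← Matrix.eval_charpoly]
      exact (Polynomial.mem_roots (Matrix.charpoly_monic YL).ne_zero).mp hx
    obtain ⟨v, hv0, hv⟩ := Matrix.exists_mulVec_eq_zero_iff.mpr hdet
    have hev : YL.mulVec v = x • v := by
      rw [Matrix.sub_mulVec, sub_eq_zero] at hv
      rw [← hv]; ext i; simp [Matrix.scalar_apply, Matrix.mulVec_diagonal]
    have hne : Nonempty ι := by
      by_contra hh
      exact hv0 (funext fun i => absurd ⟨i⟩ hh)
    obtain ⟨i₀, -, hmax⟩ := Finset.univ.exists_max_image (fun i => ‖v i‖) Finset.univ_nonempty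
    have hvi : v i₀ ≠ 0 := fun h0 => hv0 (funext fun i => norm_le_zero_iff.mp
      ((hmax i (Finset.mem_univ i)).trans (le_of_eq (by rw [h0, norm_zero]))))
    have hZ : (ψ.mapMatrix ((Y - 1) * (Y - q • 1))).mulVec v =
        ((x - 1) * (x - (q : L))) • v := by
      rw [map_mul, map_sub, map_sub, map_one, map_zsmul, map_one, ← Matrix.mulVec_mulVec,
        Matrix.sub_mulVec, Matrix.sub_mulVec, hev, Matrix.one_mulVec, Matrix.smul_mulVec,
        Matrix.one_mulVec, Matrix.mulVec_sub, Matrix.mulVec_smul, hev, ← Int.cast_smul_eq_zsmul L,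
        Matrix.mulVec_smul, hev]
      module
    have hb : ‖(x - 1) * (x - (q : L))‖ * ‖v i₀‖ ≤ ε * ε * ‖v i₀‖ := by
      rw [← norm_mul, ← smul_eq_mul, ← Pi.smul_apply, ← hZ]
      refine IsUltrametricDist.norm_sum_le_of_forall_le_of_nonneg (by positivity) fun j _ => ?_
      refine (norm_mul_le _ _).trans (mul_le_mul ?_ (hmax j (Finset.mem_univ j)) (norm_nonneg _)
        (by positivity))
      rw [hεdef, ← mul_inv, ← pow_add, ← two_mul]
      exact (norm_intCast_le_iff p _ _).mpr (h i₀ j)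
    have h2 : ‖x - 1‖ * ‖x - (q : L)‖ ≤ ε * ε := by
      rw [← norm_mul]
      exact le_of_mul_le_mul_right hb (norm_pos_iff.mpr hvi)
    by_contra hcon
    push Not at hcon
    have h3 : ε * ε < ‖x - 1‖ * ‖x - (q : L)‖ :=
      mul_lt_mul'' hcon.1 hcon.2 hε0 hε0
    exact absurd h2 (not_le.mpr h3)
  obtain ⟨j, hjc, hj, -⟩ := exists_pow_near (norm_intCast_le_one p q) hε hε0
    YL.charpoly.roots hroot
  refine ⟨j, hjc.trans ((YL.charpoly.card_roots').trans
    (le_of_eq (Matrix.charpoly_natDegree_eq_dim YL))),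
    (norm_intCast_le_iff p _ _).mp (le_of_eq_of_le ?_ hj)⟩
  rw [← Matrix.det_eq_prod_roots_charpoly, show YL.det = ψ Y.det from (RingHom.map_det ψ Y).symm]
  simp [ψ, L]

end Fermat.Agent.LevelLowering.MonodromyExact
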