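import Mathlib.Algebra.Field.ZMod
import Mathlib.Algebra.Module.ZMod
import Mathlib.LinearAlgebra.Dimension.Finite
import Mathlib.LinearAlgebra.FiniteDimensional.Lemmas
import Mathlib.LinearAlgebra.Matrix.NonsingularInverse
import Mathlib.LinearAlgebra.Matrix.SchurComplement
import Fermat.Agent.LevelLowering.MonodromyExact.Det

/-!
# Exactness of the monodromy on the `p`-torsion

If the kernel of the monodromy `N` on `V 1` lifts to every level into the eigenspace `r²` of
`φ²`, and `det φ = r ^ h` on every level (rank `2 h`), then that kernel is the image of `N`.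
-/

noncomputable section

open Matrix

namespace Fermat.Agent.LevelLowering.MonodromyExact

variable {p : ℕ} [hp : Fact p.Prime]

theorem isUnit_of_cast_ne_zero {n : ℕ} (hn : 1 ≤ n) {a : ZMod (p ^ n)}
    (h : ZMod.castHom (dvd_pow_self p (by omega)) (ZMod p) a ≠ 0) : IsUnit a := by
  have : NeZero (p ^ n) := ⟨pow_ne_zero _ hp.out.ne_zero⟩
  rw [ZMod.castHom_apply, ← ZMod.natCast_val, Ne, ZMod.natCast_eq_zero_iff] at h
  rw [← ZMod.natCast_zmod_val a, ZMod.isUnit_iff_coprime]
  exact (hp.out.coprime_iff_not_dvd.mpr h).symm.pow_right n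

/-- If `(X - 1) (X - q) = 0` modulo `p ^ (2 m)`, a family of `d` residually independent
`q`-eigenvectors forces `det X = q ^ (d + k)` modulo `p ^ m` for some `k ≤ D`. -/
theorem exists_pow_modEq_det {D d m : ℕ} (hm : 1 ≤ m)
    (X : Matrix (Fin D) (Fin D) (ZMod (p ^ (2 * m)))) (q : ℕ)
    (z : Fin d → Fin D → ZMod (p ^ (2 * m)))
    (hz : ∀ i, X *ᵥ z i = (q : ZMod (p ^ (2 * m))) • z i)
    (hind : LinearIndependent (ZMod p) fun i a =>
      ZMod.castHom (dvd_pow_self p (show 2 * m ≠ 0 by omega)) (ZMod p) (z i a))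
    (hrel : (X - 1) * (X - (q : ZMod (p ^ (2 * m))) • 1) = 0) :
    ∃ k ≤ D, ZMod.castHom (pow_dvd_pow p (show m ≤ 2 * m by omega)) (ZMod (p ^ m)) X.det =
      (q : ZMod (p ^ m)) ^ (d + k) := by
  classical
  set c := ZMod.castHom (dvd_pow_self p (show 2 * m ≠ 0 by omega)) (ZMod p)
  set zb : Fin d → Fin D → ZMod p := fun i a => c (z i a)
  let b := Module.Basis.sumExtend hind
  have hb : ∀ i, b (Sum.inl i) = zb i := fun i => by
    simp [b, Module.Basis.sumExtend]; rfl
  have : Fintype (Module.Basis.sumExtendIndex hind) :=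
    Fintype.ofInjective
      (fun x => (Module.Basis.indexEquiv b (Pi.basisFun (ZMod p) (Fin D))) (Sum.inr x))
      fun x y hxy => Sum.inr_injective ((Module.Basis.indexEquiv b _).injective hxy)
  let I := Fin d ⊕ Module.Basis.sumExtendIndex hind
  let g : I ≃ Fin D := Module.Basis.indexEquiv b (Pi.basisFun (ZMod p) (Fin D))
  let col : I → Fin D → ZMod (p ^ (2 * m)) :=
    Sum.elim z fun x a => ((b (Sum.inr x) a).val : ZMod (p ^ (2 * m)))
  have hcol : ∀ j a, c (col j a) = b j a := by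
    rintro (i | x) a
    · rw [hb]; rfl
    · simp [col, c]
  let P : Matrix I I (ZMod (p ^ (2 * m))) := Matrix.of fun a j => col j (g a)
  have hP : IsUnit P.det := by
    refine isUnit_of_cast_ne_zero (show 1 ≤ 2 * m by omega) ?_
    rw [RingHom.map_det]
    refine (Matrix.isUnit_iff_isUnit_det _).mp ?_ |>.ne_zero
    rw [show c.mapMatrix P = ((Pi.basisFun (ZMod p) (Fin D)).reindex g.symm).toMatrix b from ?_]
    · exact (Module.Basis.invertibleToMatrix _ b) |> fun i => @isUnit_of_invertible _ _ _ i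
    · ext a j
      simp [P, hcol, Module.Basis.toMatrix_apply]
  set Xs : Matrix I I (ZMod (p ^ (2 * m))) := Matrix.reindexAlgEquiv (ZMod (p ^ (2 * m))) _ g.symm X
    with hXs
  set X' := P⁻¹ * Xs * P with hX'
  have hcolX : ∀ (i : Fin d) (a : I), X' a (Sum.inl i) =
      if a = Sum.inl i then (q : ZMod (p ^ (2 * m))) else 0 := by
    intro i a
    have h1 : ∀ a, (Xs * P) a (Sum.inl i) = q * P a (Sum.inl i) := by
      intro a
      have := congrFun (hz i) (g a)
      rw [Pi.smul_apply, smul_eq_mul] at this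
      refine Eq.trans ?_ this
      rw [Matrix.mul_apply, Matrix.mulVec, dotProduct, ← g.sum_comp]
      simp [hXs, P, col]
    rw [hX', Matrix.mul_assoc, Matrix.mul_apply]
    simp only [h1]
    rw [show (∑ x, P⁻¹ a x * ((q : ZMod (p ^ (2 * m))) * P x (Sum.inl i))) =
      q * (P⁻¹ * P) a (Sum.inl i) by
        rw [Matrix.mul_apply, Finset.mul_sum]; exact Finset.sum_congr rfl fun x _ => by ring,
      Matrix.nonsing_inv_mul _ hP, Matrix.one_apply]
    split <;> simp
  set Y := X'.toBlocks₂₂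
  have hblock : X' = Matrix.fromBlocks ((q : ZMod (p ^ (2 * m))) • 1) X'.toBlocks₁₂ 0 Y := by
    conv_lhs => rw [← Matrix.fromBlocks_toBlocks X']
    congr 1
    · ext a i
      rcases eq_or_ne a i with rfl | hai
      · simp [Matrix.toBlocks₁₁, hcolX]
      · simp [Matrix.toBlocks₁₁, hcolX, hai,
          (Sum.inl_injective (β := Module.Basis.sumExtendIndex hind)).ne hai]
    · ext a i
      simp [Matrix.toBlocks₂₁, hcolX]
  have hdet : X.det = (q : ZMod (p ^ (2 * m))) ^ d * Y.det := by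
    have h1 : X'.det = X.det := by
      rw [hX', Matrix.det_mul, Matrix.det_mul, mul_right_comm, ← Matrix.det_mul,
        Matrix.nonsing_inv_mul _ hP, Matrix.det_one, one_mul, hXs, Matrix.det_reindexAlgEquiv]
    rw [← h1, hblock, Matrix.det_fromBlocks_zero₂₁, Matrix.det_smul, Matrix.det_one, mul_one,
      Fintype.card_fin]
  have hrel' : (Y - 1) * (Y - (q : ZMod (p ^ (2 * m))) • 1) = 0 := by
    have h0 : (X' - 1) * (X' - (q : ZMod (p ^ (2 * m))) • 1) = 0 := by
      have hs : (Xs - 1) * (Xs - (q : ZMod (p ^ (2 * m))) • 1) = 0 := by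
        rw [hXs]
        simpa only [map_mul, map_sub, map_one, map_smul, map_zero] using
          congrArg (Matrix.reindexAlgEquiv (ZMod (p ^ (2 * m))) _ g.symm) hrel
      have e : ∀ t : ZMod (p ^ (2 * m)), X' - t • 1 = P⁻¹ * (Xs - t • 1) * P := fun t => by
        rw [hX', Matrix.mul_sub, Matrix.sub_mul, Matrix.mul_smul, Matrix.mul_one, Matrix.smul_mul,
          Matrix.nonsing_inv_mul _ hP]
      rw [show X' - 1 = X' - (1 : ZMod (p ^ (2 * m))) • 1 by rw [one_smul], e, e, one_smul,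
        show ∀ A B : Matrix I I (ZMod (p ^ (2 * m))),
          P⁻¹ * A * P * (P⁻¹ * B * P) = P⁻¹ * (A * (P * P⁻¹) * B) * P from
            fun A B => by simp only [Matrix.mul_assoc],
        Matrix.mul_nonsing_inv _ hP, Matrix.mul_one, hs, Matrix.mul_zero, Matrix.zero_mul]
    rw [hblock, ← Matrix.fromBlocks_one, Matrix.fromBlocks_smul, sub_eq_add_neg, sub_eq_add_neg,
      Matrix.fromBlocks_neg, Matrix.fromBlocks_neg, Matrix.fromBlocks_add, Matrix.fromBlocks_add,
      Matrix.fromBlocks_multiply] at h0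
    have h22 := congrArg Matrix.toBlocks₂₂ h0
    rw [Matrix.toBlocks_fromBlocks₂₂] at h22
    simp only [smul_zero, neg_zero, add_zero, zero_add, Matrix.zero_mul,
      ← sub_eq_add_neg] at h22
    exact h22
  have : NeZero (p ^ (2 * m)) := ⟨pow_ne_zero _ hp.out.ne_zero⟩
  let Yz : Matrix (Module.Basis.sumExtendIndex hind) (Module.Basis.sumExtendIndex hind) ℤ :=
    Y.map fun a => (a.val : ℤ)
  set ψ := Int.castRingHom (ZMod (p ^ (2 * m)))
  have hYz : ψ.mapMatrix Yz = Y := by ext; simp [Yz, ψ]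
  obtain ⟨k, hk, hdvd⟩ := exists_det_sub_pow_dvd p Yz (q : ℤ) m fun a j => by
    have h := congrFun (congrFun hrel' a) j
    rw [← hYz, ← map_one ψ.mapMatrix, show (q : ZMod (p ^ (2 * m))) • ψ.mapMatrix 1 =
        ψ.mapMatrix ((q : ℤ) • 1) by
          rw [map_zsmul, ← Int.cast_smul_eq_zsmul (ZMod (p ^ (2 * m))), Int.cast_natCast],
      ← map_sub, ← map_sub, ← map_mul, RingHom.mapMatrix_apply, Matrix.map_apply] at h
    have := (ZMod.intCast_zmod_eq_zero_iff_dvd _ _).mp h
    exact_mod_cast this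
  have hkD : k ≤ D := by
    have h1 : Fintype.card (Module.Basis.sumExtendIndex hind) ≤ D := by
      have := Fintype.card_congr g
      rw [Fintype.card_sum, Fintype.card_fin, Fintype.card_fin] at this
      omega
    exact hk.trans h1
  refine ⟨k, hkD, ?_⟩
  have hd : (Yz.det : ZMod (p ^ m)) = (q : ZMod (p ^ m)) ^ k := by
    have h := (ZMod.intCast_eq_intCast_iff_dvd_sub (q ^ k : ℤ) Yz.det (p ^ m)).mpr
      (by exact_mod_cast hdvd)
    rw [Int.cast_pow, Int.cast_natCast] at h
    exact h.symm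
  rw [hdet, map_mul, map_pow, map_natCast, pow_add, ← hYz, ← RingHom.map_det]
  congr 1
  rw [show ψ Yz.det = (Yz.det : ZMod (p ^ (2 * m))) from rfl, map_intCast, hd]

variable {J : Type*} [AddCommGroup J]

/-- **Exactness.** -/
theorem exists_preimage_of_liftable {D h r : ℕ} (hD : D = 2 * h) (hr : 2 ≤ r)
    (V : ℕ → AddSubgroup J) (e : ∀ n, (Fin D → ZMod (p ^ n)) →+ J)
    (hinj : ∀ n, 1 ≤ n → Function.Injective (e n)) (hrange : ∀ n, 1 ≤ n → (e n).range = V n)
    (φ : J →+ J) (Φ : ∀ n, Matrix (Fin D) (Fin D) (ZMod (p ^ n)))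
    (hΦ : ∀ n, 1 ≤ n → ∀ x, φ (e n x) = e n (Φ n *ᵥ x))
    (hdet : ∀ n, 1 ≤ n → (Φ n).det = (r : ZMod (p ^ n)) ^ h)
    (hrel : ∀ n, 1 ≤ n → ∀ x ∈ V n, φ (φ (φ (φ x) - x)) = r ^ 2 • (φ (φ x) - x))
    (N : J →+ J) (hNV : ∀ x ∈ V 1, N x ∈ V 1) (hN2 : ∀ x ∈ V 1, N (N x) = 0)
    (hlift : ∀ y ∈ V 1, N y = 0 → ∀ n, ∃ z ∈ V (n + 1), φ (φ z) = r ^ 2 • z ∧ p ^ n • z = y)
    {y : J} (hy : y ∈ V 1) (hNy : N y = 0) : ∃ x ∈ V 1, N x = y := by
  classical
  let c1 : ZMod p ≃+* ZMod (p ^ 1) := ZMod.ringEquivCongr (pow_one p).symm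
  let e1 : (Fin D → ZMod p) →+ J :=
    (e 1).comp (AddMonoidHom.compLeft c1.toAddMonoidHom (Fin D))
  have he1 : Function.Injective e1 := fun a b hab =>
    funext fun i => c1.injective (congrFun (hinj 1 le_rfl hab) i)
  have hmem1 : ∀ x, e1 x ∈ V 1 := fun x => hrange 1 le_rfl ▸ ⟨_, rfl⟩
  have hsurj1 : ∀ w ∈ V 1, ∃ x, e1 x = w := fun w hw => by
    rw [← hrange 1 le_rfl] at hw
    obtain ⟨x, rfl⟩ := hw
    exact ⟨fun i => c1.symm (x i), congrArg (e 1) (funext fun i => c1.apply_symm_apply _)⟩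
  choose N1 hN1 using fun x => hsurj1 _ (hNV _ (hmem1 x))
  let Na : (Fin D → ZMod p) →+ (Fin D → ZMod p) :=
    AddMonoidHom.mk' N1 fun a b => he1 (by simp [hN1])
  let Nl := Na.toZModLinearMap p
  have hNl : ∀ x, e1 (Nl x) = N (e1 x) := hN1
  have hle : LinearMap.range Nl ≤ LinearMap.ker Nl := by
    rintro _ ⟨x, rfl⟩
    refine LinearMap.mem_ker.mpr (he1 ?_)
    rw [hNl, hNl, hN2 _ (hmem1 x), map_zero]
  set d := Module.finrank (ZMod p) (LinearMap.ker Nl) with hd
  have hdh : d ≤ h := by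
    let yb := Module.finBasis (ZMod p) (LinearMap.ker Nl)
    have hy1 : ∀ i, N (e1 (yb i : Fin D → ZMod p)) = 0 := fun i => by
      rw [← hNl, LinearMap.mem_ker.mp (yb i).2, map_zero]
    set m := r ^ (4 * D) + 1 with hm
    obtain ⟨n', hn'⟩ : ∃ n', 2 * m = n' + 1 := ⟨2 * m - 1, by omega⟩
    choose z hzV hzφ hzy using fun i => hlift _ (hmem1 _) (hy1 i) n'
    have hsurjn : ∀ i, ∃ x, e (2 * m) x = z i := fun i => by
      have := hzV i
      rw [← hn', ← hrange (2 * m) (by omega)] at this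
      exact this
    choose x hx using hsurjn
    set X := Φ (2 * m) * Φ (2 * m) with hX
    have hXe : ∀ v, φ (φ (e (2 * m) v)) = e (2 * m) (X *ᵥ v) := fun v => by
      rw [hΦ _ (by omega), hΦ _ (by omega), hX, Matrix.mulVec_mulVec]
    have hsm : ∀ v : Fin D → ZMod (p ^ (2 * m)),
        ((r ^ 2 : ℕ) : ZMod (p ^ (2 * m))) • v = r ^ 2 • v := fun v => Nat.cast_smul_eq_nsmul _ _ _
    have hz : ∀ i, X *ᵥ x i = ((r ^ 2 : ℕ) : ZMod (p ^ (2 * m))) • x i := fun i => by
      refine hinj _ (by omega) ?_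
      rw [← hXe, hsm, map_nsmul, hx, hzφ]
    have hrelX : (X - 1) * (X - ((r ^ 2 : ℕ) : ZMod (p ^ (2 * m))) • 1) = 0 := by
      have hcomm : (X - 1) * (X - ((r ^ 2 : ℕ) : ZMod (p ^ (2 * m))) • 1) =
          (X - ((r ^ 2 : ℕ) : ZMod (p ^ (2 * m))) • 1) * (X - 1) := by
        simp [Matrix.mul_sub, Matrix.sub_mul, smul_sub]
        abel
      rw [hcomm]
      refine Matrix.ext_of_mulVec_single fun v => ?_
      refine hinj _ (by omega) ?_
      rw [Matrix.zero_mulVec, map_zero, ← Matrix.mulVec_mulVec, Matrix.sub_mulVec X (_ • 1),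
        Matrix.smul_mulVec, Matrix.one_mulVec, hsm, map_sub, ← hXe, map_nsmul, Matrix.sub_mulVec,
        Matrix.one_mulVec, map_sub, ← hXe, sub_eq_zero]
      exact hrel (2 * m) (by omega) _ (by rw [← hrange (2 * m) (by omega)]; exact ⟨_, rfl⟩)
    have hind : LinearIndependent (ZMod p) fun i a =>
        ZMod.castHom (dvd_pow_self p (show 2 * m ≠ 0 by omega)) (ZMod p) (x i a) := by
      rw [Fintype.linearIndependent_iff]
      intro a ha
      have : NeZero (p ^ (2 * m)) := ⟨pow_ne_zero _ hp.out.ne_zero⟩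
      have hdiv : ∀ t, ∃ w : ZMod (p ^ (2 * m)), (∑ i, (a i).val • x i) t = p • w := fun t => by
        have h0 := congrFun ha t
        simp only [Finset.sum_apply, Pi.smul_apply, smul_eq_mul, Pi.zero_apply] at h0
        have hc : ((∑ i, (a i).val • x i) t).val % p = 0 := by
          have : (((∑ i, (a i).val • x i) t).val : ZMod p) = 0 := by
            rw [ZMod.natCast_val, ← ZMod.castHom_apply (R := ZMod p)
                (h := dvd_pow_self p (show 2 * m ≠ 0 by omega)),
              Finset.sum_apply, map_sum, ← h0]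
            refine Finset.sum_congr rfl fun i _ => ?_
            rw [Pi.smul_apply, map_nsmul, nsmul_eq_mul, ZMod.natCast_zmod_val]
          rwa [ZMod.natCast_eq_zero_iff, Nat.dvd_iff_mod_eq_zero] at this
        refine ⟨(((∑ i, (a i).val • x i) t).val / p : ℕ), ?_⟩
        rw [nsmul_eq_mul, ← Nat.cast_mul, Nat.mul_div_cancel' (Nat.dvd_of_mod_eq_zero hc),
          ZMod.natCast_zmod_val]
      choose w hw using hdiv
      have hsum : ∑ i, (a i).val • (yb i : Fin D → ZMod p) = 0 := by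
        refine he1 ?_
        rw [map_zero, map_sum]
        simp only [map_nsmul, ← hzy, ← hx]
        simp only [← map_nsmul, ← map_sum]
        rw [← map_zero (e (2 * m))]
        congr 1
        calc ∑ i, (a i).val • p ^ n' • x i = p ^ n' • ∑ i, (a i).val • x i := by
              rw [Finset.smul_sum]; exact Finset.sum_congr rfl fun i _ => smul_comm _ _ _
          _ = p ^ n' • p • w := congrArg _ (funext fun t => by rw [hw t]; rfl)
          _ = 0 := by
              rw [smul_smul, ← pow_succ, ← hn', ← Nat.cast_smul_eq_nsmul (ZMod (p ^ (2 * m))),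
                ZMod.natCast_self, zero_smul]
      intro i
      refine Fintype.linearIndependent_iff.mp yb.linearIndependent a (Subtype.ext ?_) i
      rw [AddSubmonoidClass.coe_finsetSum, ZeroMemClass.coe_zero, ← hsum]
      refine Finset.sum_congr rfl fun i _ => ?_
      rw [SetLike.val_smul, ← Nat.cast_smul_eq_nsmul (ZMod p), ZMod.natCast_zmod_val]
    obtain ⟨k, hk, hkd⟩ := exists_pow_modEq_det (show 1 ≤ m by omega) X (r ^ 2) x hz hind hrelX
    rw [hX, Matrix.det_mul, hdet _ (by omega), map_mul, map_pow, map_natCast, Nat.cast_pow,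
      ← pow_add, ← pow_mul, ← Nat.cast_pow, ← Nat.cast_pow, ZMod.natCast_eq_natCast_iff'] at hkd
    have hdD : d ≤ D := by
      have := Submodule.finrank_le (LinearMap.ker Nl)
      rwa [Module.finrank_fin_fun] at this
    have hsmall : ∀ j, j ≤ 4 * D → r ^ j < p ^ m := fun j hj =>
      calc r ^ j ≤ r ^ (4 * D) := Nat.pow_le_pow_right (by omega) hj
        _ < m := by omega
        _ ≤ p ^ m := (Nat.lt_pow_self hp.out.one_lt).le
    rw [Nat.mod_eq_of_lt (hsmall _ (by omega)), Nat.mod_eq_of_lt (hsmall _ (by omega))] at hkd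
    have := Nat.pow_right_injective hr hkd
    omega
  have hrn := LinearMap.finrank_range_add_finrank_ker Nl
  rw [Module.finrank_fin_fun, ← hd] at hrn
  have heq : LinearMap.range Nl = LinearMap.ker Nl :=
    Submodule.eq_of_le_of_finrank_le hle (by omega)
  obtain ⟨v, rfl⟩ := hsurj1 y hy
  have hv : v ∈ LinearMap.range Nl := heq ▸ LinearMap.mem_ker.mpr (he1 (by
    rw [hNl, hNy, map_zero]))
  obtain ⟨u, rfl⟩ := hv
  exact ⟨e1 u, hmem1 u, (hNl u).symm⟩

end Fermat.Agent.LevelLowering.MonodromyExact
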