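import Fermat.Agent.LevelLowering.MonodromyExact.Coords
import Fermat.Agent.LevelLowering.MonodromyExact.Exact

/-!
# The kernel of the monodromy on the `θ`-part is its image

Inputs about the semistable reduction at `r` are packed into `ToricInputs`: a family of toric
subgroups of the torsion on which Frobenius squared is `r²`, whose `p`-torsion is divisible, and
which absorb `φ² - 1` and the monodromy on the `θ`-part and contain its fixed points.
-/

noncomputable section

namespace Fermat.Agent.LevelLowering.MonodromyExact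

open Attach ModularCurve

local notation "Qbar" => AlgebraicClosure ℚ
local notation "GQ" => (AlgebraicClosure ℚ ≃ₐ[ℚ] AlgebraicClosure ℚ)

variable {N : ℕ} [NeZero N] {p : ℕ} [hp : Fact p.Prime] (M : TorsionModel N p)
  {S : Finset ℕ} (hNS : ∀ q, q.Prime → q ∣ N → q ∈ (↑S : Set ℕ))
  {k : Type} [Field k] (θ : CuspForm.heckeAlgebra N 2 (↑S : Set ℕ) →+* k)

/-- What the semistable reduction at `r` gives, for a Frobenius `φ` and an inertia element `σ`. -/
structure ToricInputs (r : ℕ) (φ σ : GQ) where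
  /-- The toric classes killed by `p ^ n`. -/
  toric : ℕ → AddSubgroup (JZero N)
  torsion : ∀ n, ∀ x ∈ toric n, p ^ n • x = 0
  frob_sq : ∀ n, ∀ x ∈ toric n, φ • φ • x = r ^ 2 • x
  divisible : ∀ n, ∀ y ∈ toric 1, ∃ z ∈ toric (n + 1), p ^ n • z = y
  slope : ∀ n, ∀ x ∈ thetaPts M hNS θ n, φ • φ • x - x ∈ toric n
  mono : ∀ x ∈ thetaPts M hNS θ 1, σ • x - x ∈ toric 1
  fixed_le : ∀ x ∈ thetaPts M hNS θ 1, σ • x = x → x ∈ toric 1
  le_fixed : ∀ x ∈ toric 1, σ • x = x

/-- **Exactness of the monodromy.** On the `θ`-part of `J[p]` every fixed point of the monodromy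
is in its image. -/
theorem exists_preimage_monodromy [Finite k] [CharP k p] (hp2 : p ≠ 2) (hG : TorsionGalois N p)
    (hpS : p ∈ S) {V : Type} [AddCommGroup V] [Module k V] (hV : Module.finrank k V = 2)
    (ρ : GQ →* Module.End k V)
    (hfin : ∃ L : IntermediateField ℚ Qbar, FiniteDimensional ℚ L ∧
      ∀ g : GQ, (∀ x ∈ L, g x = x) → ρ g = 1)
    (hirr : ∀ W : Submodule k V, (∀ g, ∀ x ∈ W, ρ g x ∈ W) → W = ⊥ ∨ W = ⊤)
    (hfrob : ∀ (ℓ : ℕ) (hℓ : ℓ.Prime) (hℓN : ¬ ℓ ∣ N) (hℓS : ℓ ∉ (↑S : Set ℕ)),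
      ∀ A : ValuationSubring Qbar, A.LiesOverPrime ℓ → ∀ g : GQ, A.IsFrobeniusAt g ℓ →
        LinearMap.trace k V (ρ g) = θ (CuspForm.heckeAlgebra.T hℓ hℓN hℓS) ∧
          LinearMap.det (ρ g) = (ℓ : k))
    {r : ℕ} (hr : 2 ≤ r) {φ σ : GQ} (hcyc : ∀ n, cyc p n φ = (r : ZMod (p ^ n)))
    (I : ToricInputs M hNS θ r φ σ) {y : JZero N} (hy : y ∈ thetaPts M hNS θ 1)
    (hσy : σ • y = y) : ∃ x ∈ thetaPts M hNS θ 1, σ • x - x = y := by
  classical
  set D := Module.finrank (ZMod (p ^ 1)) (eigenPart M hNS θ 1) with hD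
  rcases subsingleton_or_nontrivial (eigenPart M hNS θ 1) with h0 | h0
  · obtain ⟨w, hw, rfl⟩ := hy
    have hw0 : w = 0 := congrArg Subtype.val (Subsingleton.elim (⟨w, hw⟩ : eigenPart M hNS θ 1) 0)
    refine ⟨0, zero_mem _, ?_⟩
    rw [hw0, map_zero]
    exact (sub_zero _).trans (map_zero (DistribSMul.toAddMonoidHom (JZero N) σ))
  -- the rank
  have : NeZero (p ^ 1) := ⟨pow_ne_zero _ hp.out.ne_zero⟩
  have := isLocalRing_zmod_pow p (n := 1) le_rfl
  have := exists_basis_eigenPart M hNS θ (n := 1) le_rfl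
  obtain ⟨h, hh, -⟩ := det_galAct M hNS θ hp2 hG hpS le_rfl hV ρ hfin hirr hfrob
  have hDpos : 0 < D := by
    by_contra hD0
    let b := Module.finBasisOfFinrankEq (ZMod (p ^ 1)) (eigenPart M hNS θ 1)
      (show _ = 0 by omega)
    obtain ⟨x, hx⟩ := exists_ne (0 : eigenPart M hNS θ 1)
    exact hx (b.equivFun.injective (Subsingleton.elim _ _))
  have hnt : ∀ n, 1 ≤ n → Module.Free (ZMod (p ^ n)) (eigenPart M hNS θ n) ∧
      Nontrivial (eigenPart M hNS θ n) ∧
      Module.finrank (ZMod (p ^ n)) (eigenPart M hNS θ n) = D := fun n hn => by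
    obtain ⟨m, rfl⟩ : ∃ m, n = m + 1 := ⟨n - 1, by omega⟩
    have hfree := exists_basis_eigenPart M hNS θ hn
    have hrk : Module.finrank (ZMod (p ^ (m + 1))) (eigenPart M hNS θ (m + 1)) = D :=
      finrank_eigenPart M hNS θ m
    have := isLocalRing_zmod_pow p hn
    refine ⟨hfree, ?_, hrk⟩
    by_contra hs
    rw [not_nontrivial_iff_subsingleton] at hs
    rw [Module.finrank_zero_of_subsingleton] at hrk
    omega
  have hbasis : ∀ n, ∃ e : (Fin D → ZMod (p ^ n)) →+ JZero N, ∃ Φ : Matrix (Fin D) (Fin D)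
      (ZMod (p ^ n)), 1 ≤ n → Function.Injective e ∧ e.range = thetaPts M hNS θ n ∧
        (∀ x, φ • e x = e (Φ.mulVec x)) ∧ Φ.det = (r : ZMod (p ^ n)) ^ h := by
    intro n
    by_cases hn : 1 ≤ n
    swap
    · exact ⟨0, 0, fun h => absurd h hn⟩
    obtain ⟨hfree, hntn, hrk⟩ := hnt n hn
    have : NeZero (p ^ n) := ⟨pow_ne_zero _ hp.out.ne_zero⟩
    have := isLocalRing_zmod_pow p hn
    let b := Module.finBasisOfFinrankEq (ZMod (p ^ n)) (eigenPart M hNS θ n) hrk
    obtain ⟨h', hh', hdet⟩ := det_galAct M hNS θ hp2 hG hpS hn hV ρ hfin hirr hfrob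
    set F : Module.End (ZMod (p ^ n)) (eigenPart M hNS θ n) := (galAct M n φ).restrict fun _ hw =>
      eigenPart_stable M hNS θ _ (galAct_commute M hNS hG n φ) hw
    refine ⟨((coordPt M n).comp (eigenPart M hNS θ n).subtype.toAddMonoidHom).comp
      b.equivFun.symm.toLinearMap.toAddMonoidHom, LinearMap.toMatrix b b F,
      fun _ => ⟨?_, ?_, ?_, ?_⟩⟩
    · intro a a' haa
      exact b.equivFun.symm.injective (Subtype.ext (coordPt_injective M n haa))
    · refine le_antisymm ?_ ?_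
      · rintro _ ⟨a, rfl⟩
        exact ⟨_, (b.equivFun.symm a).2, rfl⟩
      · rintro _ ⟨w, hw, rfl⟩
        exact ⟨b.equivFun ⟨w, hw⟩, congrArg (coordPt M n)
          (congrArg Subtype.val (b.equivFun.symm_apply_apply ⟨w, hw⟩))⟩
    · intro a
      have hmat : (LinearMap.toMatrix b b F).mulVec a = b.equivFun (F (b.equivFun.symm a)) := by
        conv_lhs => rw [show a = b.equivFun (b.equivFun.symm a) from
          (b.equivFun.apply_symm_apply a).symm]
        exact LinearMap.toMatrix_mulVec_repr b b F _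
      show φ • coordPt M n (b.equivFun.symm a : Fin M.rk → ZMod (p ^ n)) =
        coordPt M n
          (b.equivFun.symm ((LinearMap.toMatrix b b F).mulVec a) : Fin M.rk → ZMod (p ^ n))
      rw [smul_coordPt, hmat, LinearEquiv.symm_apply_apply]
      rfl
    · rw [LinearMap.det_toMatrix, hdet φ, hcyc, show h' = h by omega]
  choose e Φ he using hbasis
  -- stability and squares
  have hstab : ∀ n (g : GQ), ∀ x ∈ thetaPts M hNS θ n, g • x ∈ thetaPts M hNS θ n := by
    rintro n g _ ⟨w, hw, rfl⟩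
    exact ⟨galAct M n g w, eigenPart_stable M hNS θ _ (galAct_commute M hNS hG n g) hw,
      (smul_coordPt M n g w).symm⟩
  refine exists_preimage_of_liftable (h := h) (r := r) (D := D) (by omega) hr
    (thetaPts M hNS θ) e (fun n hn => (he n hn).1) (fun n hn => (he n hn).2.1)
    (DistribSMul.toAddMonoidHom (JZero N) φ) Φ (fun n hn => (he n hn).2.2.1)
    (fun n hn => (he n hn).2.2.2)
    (fun n _ x hx => I.frob_sq n _ (I.slope n x hx))
    (DistribSMul.toAddMonoidHom (JZero N) σ - AddMonoidHom.id _)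
    (fun x hx => sub_mem (hstab 1 σ x hx) hx)
    (fun x hx => sub_eq_zero.mpr (I.le_fixed _ (I.mono x hx)))
    (fun w hw hNw n => ?_) hy (sub_eq_zero.mpr hσy)
  -- lifting fixed points
  obtain ⟨z, hz, hzw⟩ := I.divisible n w (I.fixed_le w hw (sub_eq_zero.mp hNw))
  obtain ⟨u, rfl⟩ := (mem_range_coordPt M (n + 1) z).mpr (I.torsion _ _ hz)
  obtain ⟨b, hb1, hb2⟩ := exists_projector M hNS θ (n + 1)
  refine ⟨coordPt M (n + 1) (heckeAct M hNS (n + 1) b u), ⟨_, hb1 u, rfl⟩, ?_, ?_⟩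
  · have h1 : galAct M (n + 1) φ (galAct M (n + 1) φ u) = r ^ 2 • u := by
      refine coordPt_injective M (n + 1) ?_
      rw [← smul_coordPt, ← smul_coordPt, map_nsmul]
      exact I.frob_sq _ _ hz
    show φ • φ • coordPt M (n + 1) _ = _
    have hcm : ∀ v, galAct M (n + 1) φ (heckeAct M hNS (n + 1) b v) =
        heckeAct M hNS (n + 1) b (galAct M (n + 1) φ v) := fun v =>
      LinearMap.congr_fun (galAct_commute M hNS hG (n + 1) φ b).eq v
    rw [smul_coordPt, smul_coordPt, hcm, hcm, h1, map_nsmul, map_nsmul]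
  · obtain ⟨w₁, hw₁, rfl⟩ := hw
    rw [← coordPt_shiftCoord M n, ← map_nsmul, (coordPt_injective M (n + 1)).eq_iff] at hzw
    rw [← coordPt_shiftCoord M n, ← map_nsmul, (coordPt_injective M (n + 1)).eq_iff, ← hzw,
      ← map_nsmul, hzw, hb2 _ ((mem_eigenPart_shiftCoord M hNS θ n w₁).mpr hw₁)]

end Fermat.Agent.LevelLowering.MonodromyExact
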