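import Fermat.Agent.LoweringAtP.HeckeCompat.RedHeckeAL
import Fermat.Agent.TwoComponent.Model

/-!
# The reductions to the components commute with the norms of `T_ℓ`

Norms from the level with the extra `ℓ` preserve integrality and commute with reduction to each
component (`normCompat_redC`).
-/

noncomputable section

open ModularCurve AlgebraicCurve Fermat.Agent.Red Fermat.Agent.TwoComponent
  Fermat.Agent.LoweringAtP.HeckeCompat

namespace Fermat.Agent.LevelLowering.MonodromyExact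

local notation "Qb" => AlgebraicClosure ℚ

variable (M q : ℕ) [hq : Fact q.Prime] [NeZero M] (hqM : ¬ q ∣ M)
variable {A : ValuationSubring (AlgebraicClosure ℚ)} {k : Type*} [Field k] {π : A →+* k}
variable [CharP k q] [IsAlgClosed k]

include hqM in
theorem intRed_mem_CK (hres : ResidueAt A q π) (y : intFns A (FN M q)) :
    intRed A π (FN M q) y ∈ CK M k := by
  have h := red_mem_CK M q hqM hres false ⟨(y : FN M q), intFns_le_gaussO A π (FN M q) y⟩
  rwa [show (redPair M q hqM hres false).red ⟨(y : FN M q), intFns_le_gaussO A π (FN M q) y⟩ =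
    intRed A π (FN M q) y from gaussRedHom_int A π (FN M q) y] at h

include hqM in
/-- The norm of `T_ℓ` of an integral function is integral and reduces to the norm of the
reduction. -/
theorem exists_intFns_norm {ℓ : ℕ} [NeZero ℓ] [Fact ℓ.Prime] (hres : ResidueAt A q π)
    (hℓN : ¬ ℓ ∣ M * q) (y : intFns A (FN M q)) :
    ∃ w : intFns A (FN M q), (w : FN M q) = normN Qb (M * q) ℓ (y : FN M q) ∧
      intRed A π (FN M q) w =
        (normC k M ℓ ⟨_, intRed_mem_CK M q hqM hres y⟩ : CK M k) := by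
  have hℓ : ℓ.Prime := Fact.out
  have hℓM : ¬ ℓ ∣ M := fun h => hℓN (h.mul_right q)
  have hℓk : (ℓ : k) ≠ 0 := fun h => hℓN (((CharP.cast_eq_zero_iff k q ℓ).mp h |>
    (Nat.prime_dvd_prime_iff_eq hq.out hℓ).mp) ▸ dvd_mul_left q M)
  have hK : ((M * ℓ : ℕ) : k) ≠ 0 := by
    rw [Nat.cast_mul]; exact mul_ne_zero (natCast_ne_zero_of_not_dvd M q hqM) hℓk
  have hy := coeffMap_liftSeries A (FN M q) y
  have hy' : coeffMap A.subtype (liftSeries A (FN M q) y) ∈
      laurentBaseChange Qb (modularFunctionFieldFull (M * q)) := by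
    rw [hy]; exact SetLike.coe_mem _
  have hk : coeffMap π (liftSeries A (FN M q) y) ∈ modularFunctionFieldFullC k M :=
    intRed_mem_CK M q hqM hres y
  obtain ⟨w, hw, hwπ⟩ := exists_norm_lift hℓN hℓM hK (liftSeries A (FN M q) y) hy' hk
  rw [show (⟨coeffMap A.subtype (liftSeries A (FN M q) y), hy'⟩ :
    laurentBaseChange Qb (modularFunctionFieldFull (M * q))) = (y : FN M q) from Subtype.ext hy]
    at hw
  exact ⟨⟨normN Qb (M * q) ℓ (y : FN M q), (mem_intFns A (FN M q)).mpr ⟨w, hw⟩⟩, rfl,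
    (intRed_eq A π (FN M q) (f := ⟨_, (mem_intFns A (FN M q)).mpr ⟨w, hw⟩⟩) hw).trans hwπ⟩

/-- The reduction of a quotient of integral functions. -/
theorem exists_red_eq_div (hres : ResidueAt A q π) {f : FN M q} {y z : intFns A (FN M q)}
    (hz : intRed A π (FN M q) z ≠ 0) (h : f * (z : FN M q) = y) {a b : CK M k}
    (ha : intRed A π (FN M q) y = a) (hb : intRed A π (FN M q) z = b) :
    ∃ hf : f ∈ (redC M q hqM hres false).O, (redC M q hqM hres false).red ⟨f, hf⟩ = a / b := by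
  refine ⟨(mem_gaussO A π (FN M q)).mpr ⟨y, z, hz, h⟩, Subtype.ext ?_⟩
  rw [IntermediateField.coe_div, ← ha, ← hb]
  exact gaussRedHom_eq A π (FN M q) (f := ⟨f, (mem_gaussO A π (FN M q)).mpr ⟨y, z, hz, h⟩⟩) hz h

/-- The reduction of expansions commutes with `N_α ∘ β`. -/
theorem exists_gauss_norm {ℓ : ℕ} [NeZero ℓ] [Fact ℓ.Prime] (hres : ResidueAt A q π)
    (hℓN : ¬ ℓ ∣ M * q) (u : (redC M q hqM hres false).O) :
    ∃ v : (redC M q hqM hres false).O, (v : FN M q) = normN Qb (M * q) ℓ (u : FN M q) ∧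
      (redC M q hqM hres false).red v = normC k M ℓ ((redC M q hqM hres false).red u) := by
  have hu := u.2
  obtain ⟨y, z, hz, hyz⟩ := (mem_gaussO A π (FN M q)).mp hu
  obtain ⟨Y, hY, hYr⟩ := exists_intFns_norm M q hqM hres hℓN y
  obtain ⟨Z, hZ, hZr⟩ := exists_intFns_norm M q hqM hres hℓN z
  obtain ⟨hm, e⟩ := exists_red_eq_div M q hqM hres hz hyz
    (a := ⟨_, intRed_mem_CK M q hqM hres y⟩) (b := ⟨_, intRed_mem_CK M q hqM hres z⟩) rfl rfl
  have hz0 : (⟨_, intRed_mem_CK M q hqM hres z⟩ : CK M k) ≠ 0 := fun h =>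
    hz (congrArg Subtype.val h)
  have hZ0 : intRed A π (FN M q) Z ≠ 0 := fun h => normC_ne_zero (ℓ := ℓ) hz0 (Subtype.ext
    (hZr.symm.trans h))
  have hmul : normN Qb (M * q) ℓ (u : FN M q) * (Z : FN M q) = Y := by
    rw [hY, hZ, ← map_mul, hyz]
  obtain ⟨hm', e'⟩ := exists_red_eq_div M q hqM hres hZ0 hmul hYr hZr
  refine ⟨⟨_, hm'⟩, rfl, ?_⟩
  rw [e']
  refine (div_eq_iff (normC_ne_zero hz0)).mpr ?_
  rw [← map_mul]
  refine congrArg (normC k M ℓ) ?_
  exact ((eq_div_iff hz0).mp e).symm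

/-- **Both reductions commute with the norms of `T_ℓ`.** -/
theorem normCompat_redC {ℓ : ℕ} [NeZero ℓ] [Fact ℓ.Prime] (hres : ResidueAt A q π)
    (hℓN : ¬ ℓ ∣ M * q) (i : Bool) : NormCompat M ℓ (redC M q hqM hres i) := by
  have hℓ : ℓ.Prime := Fact.out
  have hℓq : ℓ ≠ q := fun h => hℓN (h ▸ dvd_mul_left q M)
  intro u hu
  cases i
  · exact exists_gauss_norm M q hqM hres hℓN u
  · obtain ⟨v, hv, hvr⟩ := exists_gauss_norm M q hqM hres hℓN
      (⟨wAL M q hqM (u : FN M q), u.2⟩ : (redC M q hqM hres false).O)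
    have e : wAL M q hqM (normN Qb (M * q) ℓ (u : FN M q)) = (v : FN M q) := by
      rw [hv]; exact normN_wAL hqM hℓq _
    have hmem : normN Qb (M * q) ℓ (u : FN M q) ∈ (redC M q hqM hres true).O := by
      show wAL M q hqM _ ∈ (redC M q hqM hres false).O
      rw [e]; exact v.2
    refine ⟨⟨_, hmem⟩, rfl, ?_⟩
    exact (congrArg (redC M q hqM hres false).red
      (show (⟨_, hmem⟩ : (redC M q hqM hres false).O) = v from Subtype.ext e)).trans hvr

end Fermat.Agent.LevelLowering.MonodromyExact
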