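import Fermat.Agent.FF.Modular
import Fermat.Agent.LoweringAtP.HeckeCompat.EigenNorm
import Fermat.Agent.LoweringAtP.HeckeCompat.Lambda

/-!
# The slope of a torsion class and the Hecke operators

A class killed by `p` has slope `λ` modulo `m` if, where `j` is finite, `12` times the orders of its
reduction are `λ` times those of the unit modulo `m`; `T_ℓ` multiplies the slope by `ℓ + 1`.
-/

noncomputable section

open AlgebraicCurve ModularCurve Fermat.Agent.Red Fermat.Agent.TwoComponent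
  Fermat.Agent.LoweringAtP.HeckeCompat

namespace Fermat.Agent.LevelLowering.MonodromyExact

variable {L : Type*} [Field L] [Algebra ℚ L] [CharZero L] [IsAlgClosed L]
variable {A : ValuationSubring L} {k : Type*} [Field k] [IsAlgClosed k] {π : A →+* k}
variable {N M : ℕ} [NeZero N] [NeZero M]

/-- The class `x` killed by `p` has slope `lam` modulo `m`. -/
def SlopeIs (R : RedBase A π (laurentBaseChange L (modularFunctionFieldFull N))
      (modularFunctionFieldFullC k M))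
    (ub : modularFunctionFieldFullC k M) (p m : ℕ)
    (x : Pic0 L (laurentBaseChange L (modularFunctionFieldFull N))) (lam : ℤ) : Prop :=
  ∃ (D : Divisor.degZero (K := L) (F := laurentBaseChange L (modularFunctionFieldFull N)))
    (f : laurentBaseChange L (modularFunctionFieldFull N)), Pic0.mk D = x ∧ f ≠ 0 ∧
    (∀ P : Place L (laurentBaseChange L (modularFunctionFieldFull N)), P.ord f =
      (p : ℤ) * (D : Divisor L (laurentBaseChange L (modularFunctionFieldFull N))) P) ∧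
    ∀ Q : Place k (modularFunctionFieldFullC k M), 0 ≤ Q.ord (jC k M) →
      (m : ℤ) ∣ 12 * redOrd R f Q - lam * Q.ord ub

omit [CharZero L] [IsAlgClosed L] [IsAlgClosed k] [NeZero N] [NeZero M] in
theorem redOrd_zpow' (R : RedBase A π (laurentBaseChange L (modularFunctionFieldFull N))
      (modularFunctionFieldFullC k M))
    {f : laurentBaseChange L (modularFunctionFieldFull N)} (hf : f ≠ 0) (a : ℤ)
    (Q : Place k (modularFunctionFieldFullC k M)) :
    redOrd R (f ^ a) Q = a * redOrd R f Q := by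
  obtain ⟨n, rfl | rfl⟩ := Int.eq_nat_or_neg a
  · rw [zpow_natCast, redOrd_pow R hf]
  · rw [zpow_neg, zpow_natCast, redOrd_inv R (pow_ne_zero _ hf), redOrd_pow R hf, neg_mul]

variable {R : RedBase A π (laurentBaseChange L (modularFunctionFieldFull N))
    (modularFunctionFieldFullC k M)}
  {ub : modularFunctionFieldFullC k M} {p m : ℕ}

omit [CharZero L] [IsAlgClosed L] [IsAlgClosed k] [NeZero N] [NeZero M] in
theorem SlopeIs.sub_zsmul {x y : Pic0 L (laurentBaseChange L (modularFunctionFieldFull N))}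
    {lam mu : ℤ} (hx : SlopeIs R ub p m x lam)
    (hy : SlopeIs R ub p m y mu) (a : ℤ) : SlopeIs R ub p m (x - a • y) (lam - a * mu) := by
  obtain ⟨D, f, hD, hf, hdiv, hs⟩ := hx
  obtain ⟨D', f', hD', hf', hdiv', hs'⟩ := hy
  refine ⟨D - a • D', f * f' ^ (-a), ?_, mul_ne_zero hf (zpow_ne_zero _ hf'), fun P => ?_,
    fun Q hQ => ?_⟩
  · rw [← hD, ← hD']
    exact (map_sub (QuotientAddGroup.mk' _) D (a • D')).trans
      (congrArg _ (map_zsmul (QuotientAddGroup.mk' _) a D'))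
  · rw [P.ord_mul hf (zpow_ne_zero _ hf'), Place.ord_zpow, hdiv, hdiv', AddSubgroupClass.coe_sub,
      AddSubgroupClass.coe_zsmul, Finsupp.sub_apply, Finsupp.smul_apply, smul_eq_mul]
    ring
  · rw [redOrd_mul R hf (zpow_ne_zero _ hf'), redOrd_zpow' R hf']
    have h := dvd_sub (hs Q hQ) ((hs' Q hQ).mul_left a)
    refine (congrArg ((m : ℤ) ∣ ·) ?_).mp h
    ring

omit [CharZero L] [IsAlgClosed k] [NeZero M] in
/-- The function of a slope of the zero class has all its reduced orders divisible by `p`. -/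
theorem SlopeIs.exists_dvd_of_zero {lam : ℤ} (h : SlopeIs R ub p m 0 lam)
    {Q : Place k (modularFunctionFieldFullC k M)} (hQ : 0 ≤ Q.ord (jC k M)) :
    ∃ e : ℤ, (p : ℤ) ∣ e ∧ (m : ℤ) ∣ 12 * e - lam * Q.ord ub := by
  obtain ⟨D, f, hD, hf, hdiv, hs⟩ := h
  obtain ⟨g, hg0, hg⟩ :=
    AddSubgroup.mem_addSubgroupOf.mp ((QuotientAddGroup.eq_zero_iff D).mp hD)
  obtain ⟨c, hc, he⟩ :=
    (FF.divOf_eq_zero_iff (K := L) (div_ne_zero hf (pow_ne_zero p hg0))).mp <| by
      refine Finsupp.ext fun P => ?_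
      rw [FF.divOf_apply, FF.ord_div P hf (pow_ne_zero _ hg0), FF.ord_pow, hdiv, hg,
        Finsupp.zero_apply, sub_self]
  rw [div_eq_iff (pow_ne_zero _ hg0)] at he
  refine ⟨_, ?_, hs Q hQ⟩
  rw [he, redOrd_mul R ((map_ne_zero _).mpr hc) (pow_ne_zero _ hg0), redOrd_algebraMap R hc,
    zero_add, redOrd_pow R hg0]
  exact dvd_mul_right _ _

omit [CharZero L] [IsAlgClosed k] [NeZero M] in
/-- The slope modulo `p` of the zero class vanishes. -/
theorem SlopeIs.dvd_of_eq_zero (hp : p.Prime) {lam : ℤ} (h : SlopeIs R ub p p 0 lam)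
    {Q : Place k (modularFunctionFieldFullC k M)} (hQ : 0 ≤ Q.ord (jC k M))
    (hu : ¬ (p : ℤ) ∣ Q.ord ub) : (p : ℤ) ∣ lam := by
  obtain ⟨e, h1, h2⟩ := h.exists_dvd_of_zero hQ
  exact ((Nat.prime_iff_prime_int.mp hp).dvd_or_dvd
    ((dvd_sub_right (h1.mul_left 12)).mp h2)).resolve_right hu

omit [CharZero L] [IsAlgClosed k] [NeZero M] in
/-- The slope modulo `12 p` of the zero class vanishes where the unit has order `12`. -/
theorem SlopeIs.dvd_of_eq_zero_of_ord {lam : ℤ} (h : SlopeIs R ub p (12 * p) 0 lam)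
    {Q : Place k (modularFunctionFieldFullC k M)} (hQ : 0 ≤ Q.ord (jC k M)) (hu : Q.ord ub = 12) :
    (p : ℤ) ∣ lam := by
  obtain ⟨e, h1, h2⟩ := h.exists_dvd_of_zero hQ
  rw [hu, Nat.cast_mul, mul_comm lam, Nat.cast_ofNat, ← mul_sub] at h2
  exact (dvd_sub_right h1).mp (Int.dvd_of_mul_dvd_mul_left (by norm_num) h2)

variable {ℓ r : ℕ} [NeZero ℓ] [Fact ℓ.Prime] [NeZero r]

omit [CharZero L] in
/-- **`T_ℓ` multiplies slopes by `ℓ + 1`.** -/
theorem SlopeIs.hecke (hR : NormCompat M ℓ R) (hℓM : ¬ ℓ ∣ M) (hℓr : ¬ ℓ ∣ r)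
    (hK : ((M * ℓ : ℕ) : k) ≠ 0) (hub : (ub : LaurentSeries k) = unitSer k r)
    {x : Pic0 L (laurentBaseChange L (modularFunctionFieldFull N))} {lam : ℤ}
    (hx : SlopeIs R ub p m x lam) :
    SlopeIs R ub p m (heckeOperatorAlong L N ℓ x) (lam * ((ℓ : ℤ) + 1)) := by
  obtain ⟨D, f, hD, hf, hdiv, hs⟩ := hx
  set D' := Pic0.degZeroCorrespondence (heckeBetaBar L N ℓ) (heckeAlphaBar L N ℓ)
    (Hecke.betaIntegral L N ℓ) (Hecke.alphaIntegral L N ℓ)
    (Hecke.fundamentalIdentityAlong _ _) D with hD'def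
  have hmk : Pic0.mk D' = heckeOperatorAlong L N ℓ x := by
    rw [← hD, Hecke.heckeOperatorAlong_eq_pic0]
    rfl
  refine ⟨D', normN L N ℓ f, hmk, normN_ne_zero hf, fun P => ?_, fun Q hQ => ?_⟩
  · rw [← heckeDivBar_smul (ℓ := ℓ) hf hdiv P, hD'def, Pic0.coe_degZeroCorrespondence]
    rfl
  obtain ⟨c, hu, he⟩ := unitPart_spec R hf
  set u := unitPart R f
  set g := R.red u
  obtain ⟨v, hv, hvr⟩ := hR u hu
  have hv0 : R.red v ≠ 0 := by rw [hvr]; exact normC_ne_zero hu
  rw [redOrd_eq R (normN_ne_zero hf) hv0 (c := c ^ finrankAlong L (heckeAlphaBar L N ℓ)) (by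
    conv_lhs => rw [he]
    rw [map_mul, normN_algebraMap, ← hv]) Q, hvr]
  have hu0 : ub ≠ 0 := fun h0 => unitSer_ne_zero (k := k) r (by rw [← hub, h0]; rfl)
  obtain ⟨d, hd, hud⟩ := normC_unit hℓM hℓr hK hub
  set G := g ^ (12 : ℤ) * ub ^ (-lam) with hG
  have hG0 : G ≠ 0 := mul_ne_zero (zpow_ne_zero _ hu) (zpow_ne_zero _ hu0)
  have h1 : (m : ℤ) ∣ Q.ord (normC k M ℓ G) := by
    rw [← heckeDivC_div hG0 (D := FF.divOf G) (fun P => FF.divOf_apply _ P)]
    refine dvd_heckeDivC (fun P hP => ?_) hQ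
    rw [FF.divOf_apply, hG, P.ord_mul (zpow_ne_zero _ hu) (zpow_ne_zero _ hu0), Place.ord_zpow,
      Place.ord_zpow]
    refine (congrArg ((m : ℤ) ∣ ·) ?_).mp (hs P hP)
    rw [redOrd_eq R hf hu he P]
    ring
  rw [hG, map_mul, normC_zpow hu, normC_zpow hu0, hud,
    Q.ord_mul (zpow_ne_zero _ (normC_ne_zero hu))
      (zpow_ne_zero _ (mul_ne_zero (by simpa using hd) (pow_ne_zero _ hu0))),
    Place.ord_zpow, Place.ord_zpow, Q.ord_mul (by simpa using hd) (pow_ne_zero _ hu0),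
    FF.ord_algebraMap, FF.ord_pow] at h1
  refine (congrArg ((m : ℤ) ∣ ·) ?_).mp h1
  push_cast
  ring

end Fermat.Agent.LevelLowering.MonodromyExact
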