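import Fermat.Agent.LoweringAtP.HeckeCompat.RedClassHecke
import Fermat.Agent.TwoComponent.RedClass

/-!
# `T_ℓ` on classes of slope zero and their reductions

A reduction commuting with the norms of `T_ℓ` makes the classes of slope zero Hecke stable and
their reduction maps equivariant.
-/

noncomputable section

open AlgebraicCurve Fermat.Agent.Red Fermat.Agent.TwoComponent Fermat.Agent.LoweringAtP.HeckeCompat

namespace Fermat.Agent.LevelLowering.MonodromyExact

section abstract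

variable {K k F Fk : Type*} [Field K] [Field F] [Algebra K F] [Field k] [Field Fk] [Algebra k Fk]
variable {A : ValuationSubring K} {π : A →+* k} {S : Type*} [Fintype S]
variable {T : TwoRed A π F Fk S} {m : ℕ}

/-- The reduction class is read on any torsion data. -/
theorem redClass_eq_mk [IsAlgClosed K] (hm : 0 < m) (i : Bool) (y : T.T0 m)
    {D : Divisor.degZero (K := K) (F := F)} (hD : Pic0.mk D = (y : Pic0 K F)) {f : F} (hf : f ≠ 0)
    (hdiv : ∀ P : Place K F, P.ord f = (m : ℤ) * (D : Divisor K F) P)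
    {E : Divisor.degZero (K := k) (F := Fk)}
    (hE : ∀ Q, redOrd (T.R i) f Q = (m : ℤ) * (E : Divisor k Fk) Q) :
    T.redClass hm i y = Pic0.mk E := by
  obtain ⟨D', d, hD'⟩ := TwoRed.InT0.exists_data hm y.2
  rw [TwoRed.redClass_eq hm i d hD', TwoRed.NormalData.eClass]
  have hp : ((D - D' : Divisor.degZero (K := K) (F := F)) : Divisor K F) ∈
      Divisor.principal (K := K) (F := F) := by
    refine AddSubgroup.mem_addSubgroupOf.mp ((QuotientAddGroup.eq_zero_iff _).mp ?_)
    exact (map_sub (QuotientAddGroup.mk' _) D D').trans (sub_eq_zero.mpr (hD.trans hD'.symm))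
  obtain ⟨h, hh0, hh⟩ := hp
  obtain ⟨a, ha⟩ := T.rrF.eq_const_of_ord_nonneg (f := f / (d.f * h ^ m)) fun P => by
    have := hh P
    rw [AddSubgroupClass.coe_sub, Finsupp.sub_apply] at this
    rw [ord_div P hf (mul_ne_zero d.f_ne (pow_ne_zero _ hh0)),
      P.ord_mul d.f_ne (pow_ne_zero _ hh0), ord_pow, hdiv, d.div_f, ← this]
    ring_nf
    exact le_rfl
  rw [div_eq_iff (mul_ne_zero d.f_ne (pow_ne_zero _ hh0))] at ha
  have ha0 : a ≠ 0 := by
    rintro rfl
    rw [map_zero, zero_mul] at ha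
    exact hf ha
  obtain ⟨c, v, hv, hcv⟩ := (T.R i).scale h hh0
  symm
  rw [← sub_eq_zero]
  refine (map_sub (QuotientAddGroup.mk' _) E _).symm.trans ((QuotientAddGroup.eq_zero_iff _).mpr
    (AddSubgroup.mem_addSubgroupOf.mpr ⟨(T.R i).red v, hv, fun Q => ?_⟩))
  refine mul_left_cancel₀ (show (m : ℤ) ≠ 0 by omega) ?_
  have hc := d.c_ne i
  have he : redOrd (T.R i) d.f Q = Q.ord ((T.R i).red (d.e i)) :=
    redOrd_eq (T.R i) (c := (d.c i ^ m)⁻¹) d.f_ne (d.e_ne i) (by
      rw [d.e_eq, ← map_pow, ← mul_assoc, ← map_mul, inv_mul_cancel₀ (pow_ne_zero _ hc), map_one,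
        one_mul]) Q
  rw [AddSubgroupClass.coe_sub, Finsupp.sub_apply, mul_sub, ← hE, d.mul_E hm, ← he, ha,
    redOrd_mul _ ((map_ne_zero _).mpr ha0) (mul_ne_zero d.f_ne (pow_ne_zero _ hh0)),
    redOrd_algebraMap _ ha0, redOrd_mul _ d.f_ne (pow_ne_zero _ hh0), redOrd_pow _ hh0,
    redOrd_eq (T.R i) hh0 hv hcv]
  ring

end abstract

open ModularCurve

variable {L : Type*} [Field L] [Algebra ℚ L] [CharZero L] [IsAlgClosed L]
variable {A : ValuationSubring L} {k : Type*} [Field k] [IsAlgClosed k] {π : A →+* k}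
variable {N M ℓ : ℕ} [NeZero N] [NeZero M] [NeZero ℓ] {S : Type*} [Fintype S]
variable {T : TwoRed A π (laurentBaseChange L (modularFunctionFieldFull N))
  (modularFunctionFieldFullC k M) S}

omit [CharZero L] in
/-- **`T_ℓ` on `T⁰` and on the reductions.** -/
theorem hecke_mem_T0_redClass (hR : ∀ i, NormCompat M ℓ (T.R i)) {m : ℕ} (hm : 0 < m)
    (y : T.T0 m) :
    ∃ h : heckeOperatorAlong L N ℓ (y : Pic0 L (laurentBaseChange L (modularFunctionFieldFull N)))
        ∈ T.T0 m,
      ∀ i, T.redClass hm i ⟨_, h⟩ = heckeC k M ℓ (T.redClass hm i y) := by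
  obtain ⟨D, d, hD⟩ := TwoRed.InT0.exists_data hm y.2
  set D' := Pic0.degZeroCorrespondence (heckeBetaBar L N ℓ) (heckeAlphaBar L N ℓ)
    (Hecke.betaIntegral L N ℓ) (Hecke.alphaIntegral L N ℓ)
    (Hecke.fundamentalIdentityAlong _ _) D with hD'def
  have hmk : Pic0.mk D' =
      heckeOperatorAlong L N ℓ (y : Pic0 L (laurentBaseChange L (modularFunctionFieldFull N))) := by
    rw [← hD, Hecke.heckeOperatorAlong_eq_pic0]
    rfl
  have hN0 : normN L N ℓ d.f ≠ 0 := by
    let := algebraAlong (heckeAlphaBar L N ℓ)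
    have : Module.Finite (laurentBaseChange L (modularFunctionFieldFull N))
        (laurentBaseChange L (modularFunctionFieldFull (N * ℓ))) := Hecke.finiteAlong_alpha L N ℓ
    exact Algebra.norm_ne_zero_iff.mpr fun h0 =>
      d.f_ne ((heckeBetaBar L N ℓ).toRingHom.injective (h0.trans (map_zero _).symm))
  have hdiv : ∀ P, P.ord (normN L N ℓ d.f) =
      (m : ℤ) * (D' : Divisor L (laurentBaseChange L (modularFunctionFieldFull N))) P := fun P => by
    refine (EichlerShimura.heckeDivBar_div (Hecke.alphaIntegral L N ℓ) (Hecke.betaIntegral L N ℓ)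
      (Hecke.finiteAlong_alpha L N ℓ) (Hecke.normFormulaAlong _ _) d.f_ne
      (D := (m : ℤ) • (D : Divisor L (laurentBaseChange L (modularFunctionFieldFull N))))
      (fun P' => by rw [Finsupp.smul_apply, d.div_f, smul_eq_mul]) P).symm.trans ?_
    rw [map_zsmul, Finsupp.smul_apply, smul_eq_mul, hD'def, Pic0.coe_degZeroCorrespondence]
    rfl
  have hkey : ∀ i, ∃ E' : Divisor.degZero (K := k) (F := modularFunctionFieldFullC k M),
      heckeC k M ℓ (d.eClass hm i) = Pic0.mk E' ∧ ∀ Q, redOrd (T.R i) (normN L N ℓ d.f) Q =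
        (m : ℤ) * (E' : Divisor k (modularFunctionFieldFullC k M)) Q := by
    intro i
    obtain ⟨E', hE', hTE⟩ := coe_heckeC_mk (k := k) (M := M) (ℓ := ℓ)
      ⟨d.E i, Divisor.mem_degZero.mpr (d.degree_E hm i)⟩
    refine ⟨E', hTE, fun Q => ?_⟩
    obtain ⟨v, hv, hvr⟩ := hR i (d.e i) (d.e_ne i)
    have hv0 : (T.R i).red v ≠ 0 := by rw [hvr]; exact normC_ne_zero (d.e_ne i)
    rw [redOrd_eq (T.R i) (c := ((d.c i ^ m) ^ finrankAlong L (heckeAlphaBar L N ℓ))⁻¹) hN0 hv0 (by
      rw [hv, d.e_eq, map_mul, ← map_pow (algebraMap L _), normN_algebraMap, ← mul_assoc, ← map_mul,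
        inv_mul_cancel₀ (pow_ne_zero _ (pow_ne_zero _ (d.c_ne i))), map_one, one_mul]) Q, hvr,
      ← heckeDivC_div (d.e_ne i) (D := (m : ℤ) • d.E i)
        (fun Q' => by rw [Finsupp.smul_apply, smul_eq_mul, d.mul_E hm]) Q,
      map_zsmul, Finsupp.smul_apply, smul_eq_mul, hE']
  choose E' hE' hord using hkey
  have hT0 : heckeOperatorAlong L N ℓ
      (y : Pic0 L (laurentBaseChange L (modularFunctionFieldFull N))) ∈ T.T0 m :=
    ⟨D', normN L N ℓ d.f, hmk, hN0, hdiv, fun s i => ⟨_, hord i _⟩⟩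
  refine ⟨hT0, fun i => ?_⟩
  rw [TwoRed.redClass_eq hm i d hD]
  exact (redClass_eq_mk hm i ⟨_, hT0⟩ hmk hN0 hdiv (hord i)).trans (hE' i).symm

end Fermat.Agent.LevelLowering.MonodromyExact
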