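import Fermat.Agent.LevelLowering.MonodromyExact.Coords
import Fermat.Agent.LevelLowering.MonodromyExact.RedHecke

/-!
# The `θ`-part has no abelian part

If no eigenvector of the system `a` lives on the components, classes of slope zero in the `θ`-part
have trivial reduction.
-/

noncomputable section

open AlgebraicCurve ModularCurve Fermat.Agent.Red Fermat.Agent.TwoComponent
  Fermat.Agent.LoweringAtP.HeckeCompat

namespace Fermat.Agent.LevelLowering.MonodromyExact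

open Attach

local notation "Qb" => AlgebraicClosure ℚ

section comb

variable {G : Type*} [AddCommGroup G] {ι : Type*}

/-- A finite group on which all `T_i - a_i` are nilpotent, without common eigenvector, is zero. -/
theorem eq_bot_of_nilpotent (T : ι → G →+ G) (a : ι → ℤ) :
    ∀ H : AddSubgroup G, (H : Set G).Finite → (∀ i, ∀ x ∈ H, T i x ∈ H) →
      (∀ i j, ∀ x ∈ H, T i (T j x) = T j (T i x)) →
      (∀ i, ∀ x ∈ H, ∃ n : ℕ, (fun z => T i z - a i • z)^[n] x = 0) →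
      (∀ x ∈ H, (∀ i, T i x = a i • x) → x = 0) → H = ⊥ := by
  suffices key : ∀ (c : ℕ) (H : AddSubgroup G) (hfin : (H : Set G).Finite),
      hfin.toFinset.card ≤ c → (∀ i, ∀ x ∈ H, T i x ∈ H) →
      (∀ i j, ∀ x ∈ H, T i (T j x) = T j (T i x)) →
      (∀ i, ∀ x ∈ H, ∃ n : ℕ, (fun z => T i z - a i • z)^[n] x = 0) →
      (∀ x ∈ H, (∀ i, T i x = a i • x) → x = 0) → H = ⊥ from
    fun H hfin => key _ H hfin le_rfl
  intro c
  induction c with
  | zero =>
    intro H hfin hc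
    exfalso
    rw [Nat.le_zero, Finset.card_eq_zero] at hc
    have : (0 : G) ∈ hfin.toFinset := hfin.mem_toFinset.mpr H.zero_mem
    simp [hc] at this
  | succ c ih =>
    intro H hfin hc hst hcomm hnil hno
    by_cases hall : ∀ i, ∀ x ∈ H, T i x = a i • x
    · exact (AddSubgroup.eq_bot_iff_forall H).mpr fun x hx => hno x hx fun i => hall i x hx
    push Not at hall
    obtain ⟨i, x₀, hx₀, hne⟩ := hall
    let K : AddSubgroup G := H ⊓ (T i - a i • AddMonoidHom.id G).ker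
    have hmemK : ∀ x, x ∈ K ↔ x ∈ H ∧ T i x = a i • x := fun x => by
      simp [K, AddMonoidHom.mem_ker, sub_eq_zero]
    have hKfin : (K : Set G).Finite := hfin.subset fun x hx => ((hmemK x).mp hx).1
    have hlt : hKfin.toFinset.card < hfin.toFinset.card := by
      refine Finset.card_lt_card ⟨fun x hx => ?_, fun h => ?_⟩
      · rw [Set.Finite.mem_toFinset] at hx ⊢
        exact ((hmemK x).mp hx).1
      · exact hne ((hmemK _).mp (hKfin.mem_toFinset.mp (h (hfin.mem_toFinset.mpr hx₀)))).2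
    have hK : K = ⊥ := ih K hKfin (by omega)
      (fun j x hx => by
        obtain ⟨h1, h2⟩ := (hmemK x).mp hx
        exact (hmemK _).mpr ⟨hst j x h1, by rw [hcomm i j x h1, h2, map_zsmul]⟩)
      (fun j l x hx => hcomm j l x ((hmemK x).mp hx).1)
      (fun j x hx => hnil j x ((hmemK x).mp hx).1)
      (fun x hx => hno x ((hmemK x).mp hx).1)
    have hstep : ∀ n : ℕ, ∀ x ∈ H, (fun z => T i z - a i • z)^[n] x = 0 → x = 0 := by
      intro n
      induction n with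
      | zero => exact fun x _ h => h
      | succ n ihn =>
        intro x hx h
        rw [Function.iterate_succ_apply] at h
        have h1 := ihn _ (sub_mem (hst i x hx) (H.zsmul_mem hx _)) h
        have : x ∈ K := (hmemK x).mpr ⟨hx, sub_eq_zero.mp h1⟩
        rwa [hK, AddSubgroup.mem_bot] at this
    exact absurd (by rw [hstep _ x₀ hx₀ (hnil i x₀ hx₀).choose_spec, map_zero, zsmul_zero]) hne

end comb

variable {N M₀ : ℕ} [NeZero N] [NeZero M₀] {p : ℕ} [hp : Fact p.Prime] (M : TorsionModel N p)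
  {S : Finset ℕ} (hNS : ∀ q, q.Prime → q ∣ N → q ∈ (↑S : Set ℕ))
  {kk : Type} [Field kk] [CharP kk p]
  (θ : CuspForm.heckeAlgebra N 2 (↑S : Set ℕ) →+* kk) (a : ℕ → ℤ)

omit [CharP kk p] in
/-- `T_ℓ` stabilises the `θ`-part and `T_ℓ - a_ℓ` is nilpotent on it. -/
theorem hecke_thetaPts
    (hθ : ∀ (ℓ : ℕ) (hℓ : ℓ.Prime) (hℓN : ¬ ℓ ∣ N) (hℓS : ℓ ∉ (↑S : Set ℕ)),
      θ (CuspForm.heckeAlgebra.T hℓ hℓN hℓS) = (a ℓ : kk))
    (n : ℕ) {ℓ : ℕ} (hℓ : ℓ.Prime) (hℓN : ¬ ℓ ∣ N) (hℓS : ℓ ∉ (↑S : Set ℕ))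
    {x : JZero N} (hx : x ∈ thetaPts M hNS θ n) :
    heckeOperatorBar N ⟨ℓ, hℓ⟩ x ∈ thetaPts M hNS θ n ∧
      ∃ j : ℕ, (fun z => heckeOperatorBar N ⟨ℓ, hℓ⟩ z - a ℓ • z)^[j] x = 0 := by
  obtain ⟨w, hw, rfl⟩ := hx
  refine ⟨⟨_, eigenPart_stable M hNS θ _ (fun b => (Commute.all _ b).map (heckeAct M hNS n)) hw,
    (heckeOperatorBar_coordPt M hNS n hℓ hℓN hℓS w).symm⟩, ?_⟩
  set t := CuspForm.heckeAlgebra.T hℓ hℓN hℓS - ((a ℓ : ℤ) :
    CuspForm.heckeAlgebra N 2 (↑S : Set ℕ)) with ht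
  obtain ⟨j, hj⟩ := (mem_eigenPart M hNS θ).mp hw t (by rw [ht, map_sub, hθ, map_intCast, sub_self])
  refine ⟨j, ?_⟩
  have hstep : ∀ (i : ℕ) (v : Fin M.rk → ZMod (p ^ n)),
      (fun z => heckeOperatorBar N ⟨ℓ, hℓ⟩ z - a ℓ • z)^[i] (coordPt M n v) =
        coordPt M n ((heckeAct M hNS n t ^ i) v) := by
    intro i
    induction i with
    | zero => intro v; rfl
    | succ i ih =>
      intro v
      rw [Function.iterate_succ_apply', ih, pow_succ', Module.End.mul_apply,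
        heckeOperatorBar_coordPt M hNS n hℓ hℓN hℓS, ← map_zsmul, ← map_sub]
      refine congrArg (coordPt M n) ?_
      rw [ht, map_sub, map_intCast, LinearMap.sub_apply, Module.End.intCast_apply]
  show (fun z => heckeOperatorBar N ⟨ℓ, hℓ⟩ z - a ℓ • z)^[j] (coordPt M n w) = 0
  rw [hstep, hj, map_zero]

variable {A : ValuationSubring (AlgebraicClosure ℚ)} {k : Type*} [Field k] [IsAlgClosed k]
  {π : A →+* k} {St : Type*} [Fintype St]
  {T : TwoRed A π (laurentBaseChange Qb (modularFunctionFieldFull N))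
    (modularFunctionFieldFullC k M₀) St}

omit [CharP kk p] in
/-- **Classes of slope zero in the `θ`-part have trivial reduction.** -/
theorem inT00_of_mem_thetaPts
    (hθ : ∀ (ℓ : ℕ) (hℓ : ℓ.Prime) (hℓN : ¬ ℓ ∣ N) (hℓS : ℓ ∉ (↑S : Set ℕ)),
      θ (CuspForm.heckeAlgebra.T hℓ hℓN hℓS) = (a ℓ : kk))
    (hR : ∀ (ℓ : ℕ) [NeZero ℓ] [Fact ℓ.Prime], ¬ ℓ ∣ N → ∀ i, NormCompat M₀ ℓ (T.R i))
    (hno : ∀ C : JZeroC k M₀, p • C = 0 →
      (∀ (ℓ : ℕ) [NeZero ℓ] [Fact ℓ.Prime], ¬ ℓ ∣ N → ℓ ∉ S → heckeC k M₀ ℓ C = a ℓ • C) → C = 0)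
    (n : ℕ) {x : JZero N} (hx : x ∈ thetaPts M hNS θ n)
    (hx0 : x ∈ T.T0 (p ^ n)) : T.InT00 (p ^ n) x := by
  classical
  have hm : 0 < p ^ n := pow_pos hp.out.pos n
  let Good := {ℓ : Nat.Primes // ¬ (ℓ : ℕ) ∣ N ∧ (ℓ : ℕ) ∉ S}
  -- the classes concerned
  let P : AddSubgroup (T.T0 (p ^ n)) :=
    { carrier := {y | (y : JZero N) ∈ thetaPts M hNS θ n}
      zero_mem' := (thetaPts M hNS θ n).zero_mem
      add_mem' := fun ha hb => (thetaPts M hNS θ n).add_mem ha hb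
      neg_mem' := fun ha => (thetaPts M hNS θ n).neg_mem ha }
  have : Finite (thetaPts M hNS θ n) := by
    have : NeZero (p ^ n) := ⟨hm.ne'⟩
    refine Set.Finite.to_subtype ?_
    exact Set.Finite.image _ (Set.toFinite _)
  have hPfin : (P : Set (T.T0 (p ^ n))).Finite :=
    Set.Finite.of_finite_image (f := fun y => (y : JZero N))
      ((Set.toFinite (thetaPts M hNS θ n : Set (JZero N))).subset
        (by rintro _ ⟨y, hy, rfl⟩; exact hy))
      Subtype.val_injective.injOn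
  -- the action
  have hact : ∀ (l : Good) (y : T.T0 (p ^ n)), y ∈ P →
      ∃ y' : T.T0 (p ^ n), y' ∈ P ∧ (y' : JZero N) = heckeOperatorBar N l.1 (y : JZero N) ∧
        haveI : Fact ((l.1 : ℕ)).Prime := ⟨l.1.2⟩
        haveI : NeZero (l.1 : ℕ) := ⟨l.1.2.ne_zero⟩
        ∀ i, T.redClass hm i y' = heckeC k M₀ (l.1 : ℕ) (T.redClass hm i y) := by
    intro l y hy
    have : Fact ((l.1 : ℕ)).Prime := ⟨l.1.2⟩
    have : NeZero (l.1 : ℕ) := ⟨l.1.2.ne_zero⟩
    obtain ⟨h, he⟩ := hecke_mem_T0_redClass (T := T) (ℓ := (l.1 : ℕ)) (hR _ l.2.1) hm y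
    have e : heckeOperatorBar N l.1 (y : JZero N) =
        heckeOperatorAlong Qb N (l.1 : ℕ) (y : JZero N) := by rw [heckeOperatorBar_apply]
    have hth := (hecke_thetaPts M hNS θ a hθ n l.1.2 l.2.1
      (fun h => l.2.2 (Finset.mem_coe.mp h)) hy).1
    rw [show (⟨(l.1 : ℕ), l.1.2⟩ : Nat.Primes) = l.1 from rfl, e] at hth
    exact ⟨⟨_, h⟩, hth, e.symm, he⟩
  refine TwoRed.inT00_of_redClass_eq_zero hm ⟨x, hx0⟩ fun i => ?_
  let H : AddSubgroup (JZeroC k M₀) := P.map (T.redClass hm i)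
  let Tk : Good → JZeroC k M₀ →+ JZeroC k M₀ := fun l =>
    haveI : Fact ((l.1 : ℕ)).Prime := ⟨l.1.2⟩
    haveI : NeZero (l.1 : ℕ) := ⟨l.1.2.ne_zero⟩
    heckeC k M₀ (l.1 : ℕ)
  let H' : AddSubgroup (JZeroC k M₀) := H ⊓ (nsmulAddMonoidHom p).ker
  have hmem' : ∀ c, c ∈ H' ↔ c ∈ H ∧ p • c = 0 := fun c => by simp [H', AddMonoidHom.mem_ker]
  have hst : ∀ (l : Good), ∀ c ∈ H, Tk l c ∈ H := by
    rintro l _ ⟨y, hy, rfl⟩
    obtain ⟨y', hy', -, he⟩ := hact l y hy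
    exact ⟨y', hy', he i⟩
  have hH' : H' = ⊥ := by
    refine eq_bot_of_nilpotent Tk (fun l => a (l.1 : ℕ)) H'
      (((hPfin.image _).subset fun c hc => ((hmem' c).mp hc).1)) ?_ ?_ ?_ ?_
    · intro l c hc
      exact (hmem' _).mpr ⟨hst l c ((hmem' c).mp hc).1,
        by rw [← map_nsmul, ((hmem' c).mp hc).2, map_zero]⟩
    · intro l l' c hc
      obtain ⟨y, hy, rfl⟩ := ((hmem' c).mp hc).1
      obtain ⟨y₁, hy₁, e₁, r₁⟩ := hact l y hy
      obtain ⟨y₂, hy₂, e₂, r₂⟩ := hact l' y hy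
      obtain ⟨z₁, hz₁, e₁', r₁'⟩ := hact l y₂ hy₂
      obtain ⟨z₂, hz₂, e₂', r₂'⟩ := hact l' y₁ hy₁
      show Tk l (Tk l' _) = Tk l' (Tk l _)
      simp only [Tk]
      rw [← r₂ i, ← r₁ i, ← r₁' i, ← r₂' i]
      refine congrArg (T.redClass hm i) (Subtype.ext ?_)
      rw [e₁', e₂', e₁, e₂]
      obtain ⟨w, -, hw⟩ := hy
      rw [← hw]
      show heckeOperatorBar N l.1 (heckeOperatorBar N l'.1 (coordPt M n w)) =
        heckeOperatorBar N l'.1 (heckeOperatorBar N l.1 (coordPt M n w))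
      have hTc : ∀ (l : Good) v, heckeOperatorBar N l.1 (coordPt M n v) = coordPt M n
          (heckeAct M hNS n (CuspForm.heckeAlgebra.T l.1.2 l.2.1
            (fun h => l.2.2 (Finset.mem_coe.mp h))) v) := fun l v =>
        heckeOperatorBar_coordPt M hNS n l.1.2 l.2.1 (fun h => l.2.2 (Finset.mem_coe.mp h)) v
      rw [hTc, hTc, hTc, hTc,
        ← Module.End.mul_apply, ← Module.End.mul_apply, ← map_mul, ← map_mul, mul_comm]
    · intro l c hc
      obtain ⟨y, hy, rfl⟩ := ((hmem' c).mp hc).1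
      obtain ⟨j, hj⟩ := (hecke_thetaPts M hNS θ a hθ n l.1.2 l.2.1
        (fun h => l.2.2 (Finset.mem_coe.mp h)) hy).2
      refine ⟨j, ?_⟩
      clear hc
      induction j generalizing y with
      | zero =>
        rw [Function.iterate_zero_apply] at hj ⊢
        rw [show y = 0 from Subtype.ext hj, map_zero]
      | succ j ih =>
        rw [Function.iterate_succ_apply] at hj ⊢
        obtain ⟨y', hy', e', r'⟩ := hact l y hy
        have := ih (y' - a (l.1 : ℕ) • y) (P.sub_mem hy' (P.zsmul_mem hy _))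
          (by rw [AddSubgroupClass.coe_sub, AddSubgroupClass.coe_zsmul, e']; exact hj)
        rw [map_sub, map_zsmul, r' i] at this
        exact this
    · intro c hc heig
      refine hno c ((hmem' c).mp hc).2 fun ℓ _ _ hℓN hℓS => ?_
      exact heig ⟨⟨ℓ, Fact.out⟩, hℓN, hℓS⟩
  have hbot : ∀ (j : ℕ), ∀ c ∈ H, p ^ j • c = 0 → c = 0 := by
    intro j
    induction j with
    | zero => exact fun c _ h => by simpa using h
    | succ j ih =>
      intro c hc h
      have h1 : p • c = 0 := ih _ (H.nsmul_mem hc p) (by rw [smul_smul, ← pow_succ]; exact h)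
      have : c ∈ H' := (hmem' c).mpr ⟨hc, h1⟩
      rwa [hH', AddSubgroup.mem_bot] at this
  refine hbot n _ ⟨⟨x, hx0⟩, hx, rfl⟩ ?_
  rw [← map_nsmul, show p ^ n • (⟨x, hx0⟩ : T.T0 (p ^ n)) = 0 from
    Subtype.ext (TwoRed.InT0.nsmul_eq_zero hx0), map_zero]

end Fermat.Agent.LevelLowering.MonodromyExact
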