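import Fermat.Agent.LevelLowering.MonodromyExact.LevelUp
import Fermat.Agent.LevelLowering.MonodromyExact.NormCompat
import Fermat.Agent.LevelLowering.MonodromyExact.SlopeHecke
import Fermat.Agent.LevelLowering.MonodromyExact.ThetaRed
import Fermat.Agent.LoweringAtP.HeckeCompat.Eisenstein
import Fermat.Agent.LoweringAtP.PeuRamifie.Repr

/-!
# Classes of the `θ`-part fixed by inertia have slope zero

Over the inertia field all slopes of such a class are proportional to the orders of the unit, with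
a factor killed by `(ℓ + 1 - a_ℓ) ^ j`; irreducibility makes it vanish.
-/

noncomputable section

open ModularCurve AlgebraicCurve Fermat.Agent.Red Fermat.Agent.TwoComponent Fermat.Agent.LoweringAtP

namespace Fermat.Agent.LevelLowering.MonodromyExact

open Attach

local notation "Qb" => AlgebraicClosure ℚ

variable {A : ValuationSubring (AlgebraicClosure ℚ)} {k : Type*} [Field k] {π : A →+* k}
  [IsAlgClosed k]
variable {M L q : ℕ} [hq : Fact q.Prime] [NeZero M] [NeZero L] [NeZero (M * q)] [CharP k q]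
  (hres : ResidueAt A q π)

omit [IsAlgClosed k] [NeZero M] in
theorem jbC_eq_jC : (jbC M : CK M k) = HeckeCompat.jC k M := Subtype.ext Igusa.jv_one_one

omit [IsAlgClosed k] hq [NeZero M] [CharP k q] [NeZero (M * q)] in
theorem xbC_mem_of_ord {y : Place k (CK M k)} (hy : 0 ≤ y.ord (HeckeCompat.jC k M)) :
    (xbC M q : CK M k) ∈ y.toValuationSubring := by
  rw [Model.xbC_mem_iff, jbC_eq_jC]
  exact (FF.mem_iff_ord_nonneg y).mpr hy

omit [IsAlgClosed k] hq [NeZero M] [CharP k q] [NeZero (M * q)] in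
theorem ord_jC_of_mem {y : Place k (CK M k)} (hy : (xbC M q : CK M k) ∈ y.toValuationSubring) :
    0 ≤ y.ord (HeckeCompat.jC k M) := by
  rw [Model.xbC_mem_iff, jbC_eq_jC] at hy
  exact (FF.mem_iff_ord_nonneg y).mp hy

/-- A class of the `θ`-part has slope divisible by `p` if the zero class has: `T_ℓ - a_ℓ` is
nilpotent on it and multiplies slopes by `ℓ + 1 - a_ℓ`, a unit modulo `p` for some good `ℓ`. -/
theorem dvd_slope_of_mem_thetaPts (hqM : ¬ q ∣ M) {p : ℕ} [hp : Fact p.Prime] (hp2 : p ≠ 2)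
    {W : WeierstrassCurve ℤ} (hΔ : W.Δ ≠ 0) (hirr : W.ModRepIsIrreducible p)
    (Tm : TorsionModel (M * q) p) {S : Finset ℕ}
    (hNS : ∀ ℓ, ℓ.Prime → ℓ ∣ M * q → ℓ ∈ (↑S : Set ℕ))
    {kk : Type} [Field kk]
    (θ : CuspForm.heckeAlgebra (M * q) 2 (↑S : Set ℕ) →+* kk)
    (hθ : ∀ (ℓ : ℕ) (hℓ : ℓ.Prime) (hℓN : ¬ ℓ ∣ M * q) (hℓS : ℓ ∉ (↑S : Set ℕ)),
      θ (CuspForm.heckeAlgebra.T hℓ hℓN hℓS) = (W.apOfModel ℓ : kk))
    {x : JZero (M * q)} (hx : x ∈ thetaPts Tm hNS θ 1) {m : ℕ}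
    (hzero : ∀ lam, SlopeIs (redC M q hqM hres false) (Model.unitBarC M q hqM hres) p m 0 lam →
      (p : ℤ) ∣ lam)
    {C : ℤ} (hC : SlopeIs (redC M q hqM hres false) (Model.unitBarC M q hqM hres) p m x C) :
    (p : ℤ) ∣ C := by
  classical
  obtain ⟨ℓ, hℓ, hℓS, -, hne⟩ :=
    HeckeCompat.exists_prime_not_eisenstein hp2 hΔ hirr (S ∪ (M * q).primeFactors)
  have : Fact ℓ.Prime := ⟨hℓ⟩
  have : NeZero ℓ := ⟨hℓ.ne_zero⟩
  rw [Finset.mem_union, not_or] at hℓS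
  have hℓN : ¬ ℓ ∣ M * q := fun h => hℓS.2 (Nat.mem_primeFactors.mpr ⟨hℓ, h, NeZero.ne _⟩)
  have hℓM : ¬ ℓ ∣ M := fun h => hℓN (h.mul_right q)
  have hℓq : ¬ ℓ ∣ q := fun h => hℓN (h.mul_left M)
  have hK : ((M * ℓ : ℕ) : k) ≠ 0 := by
    rw [Nat.cast_mul]
    exact mul_ne_zero (natCast_ne_zero_of_not_dvd M q hqM) fun h =>
      hℓq ((Nat.prime_dvd_prime_iff_eq hℓ hq.out).mpr
        ((Nat.prime_dvd_prime_iff_eq hq.out hℓ).mp ((CharP.cast_eq_zero_iff k q ℓ).mp h)).symm)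
  obtain ⟨-, j, hj⟩ := hecke_thetaPts Tm hNS θ W.apOfModel hθ 1 hℓ hℓN
    (fun h => hℓS.1 (Finset.mem_coe.mp h)) hx
  have key : ∀ (j : ℕ) (y : JZero (M * q)) (lam : ℤ),
      SlopeIs (redC M q hqM hres false) (Model.unitBarC M q hqM hres) p m y lam →
      (fun z => heckeOperatorBar (M * q) ⟨ℓ, hℓ⟩ z - W.apOfModel ℓ • z)^[j] y = 0 →
      (p : ℤ) ∣ lam := by
    intro j
    induction j with
    | zero =>
      intro y lam hy h0
      rw [Function.iterate_zero_apply] at h0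
      rw [h0] at hy
      exact hzero lam hy
    | succ j ih =>
      intro y lam hy h0
      rw [Function.iterate_succ_apply] at h0
      have h1 := (hy.hecke (ℓ := ℓ) (r := q) (normCompat_redC M q hqM hres hℓN false) hℓM hℓq hK
        (Model.coe_unitBarC M q hqM hres)).sub_zsmul hy (W.apOfModel ℓ)
      have h2 := ih (heckeOperatorBar (M * q) ⟨ℓ, hℓ⟩ y - W.apOfModel ℓ • y) _ h1 h0
      rw [show lam * ((ℓ : ℤ) + 1) - W.apOfModel ℓ * lam =
        -(lam * (W.apOfModel ℓ - ((ℓ : ℤ) + 1))) by ring, dvd_neg] at h2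
      exact ((Nat.prime_iff_prime_int.mp hp.out).dvd_or_dvd h2).resolve_right hne
  exact key j x C hC hj

variable (hML : M ∣ L) (hqL : ¬ q ∣ L)
  (hgen : genusFF Qb (modularFunctionFieldBar M) ≤ genusFF k (CK M k))
  (hgenL : genusFF Qb (modularFunctionFieldBar L) ≤ genusFF k (CK L k))
  {c p : ℕ} [hp : Fact p.Prime] (hψ : Igusa.psi L = c * Igusa.psi M) (hpc : ¬ p ∣ c) (h4 : 4 ∣ L)
  (hp12 : ¬ p ∣ 12) (hp2 : p ≠ 2)
  {W : WeierstrassCurve ℤ} (hΔ : W.Δ ≠ 0) (hirr : W.ModRepIsIrreducible p)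
  (Tm : TorsionModel (M * q) p) {S : Finset ℕ}
  (hNS : ∀ ℓ, ℓ.Prime → ℓ ∣ M * q → ℓ ∈ (↑S : Set ℕ))
  {kk : Type} [Field kk] [CharP kk p]
  (θ : CuspForm.heckeAlgebra (M * q) 2 (↑S : Set ℕ) →+* kk)
  (hθ : ∀ (ℓ : ℕ) (hℓ : ℓ.Prime) (hℓN : ¬ ℓ ∣ M * q) (hℓS : ℓ ∉ (↑S : Set ℕ)),
    θ (CuspForm.heckeAlgebra.T hℓ hℓN hℓS) = (W.apOfModel ℓ : kk))

local notation "hqM" => (fun h => hqL (Dvd.dvd.trans h hML) : ¬ q ∣ M)

include hgenL hψ hpc h4 hp12 hp2 hΔ hirr hθ in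
omit [CharP kk p] in
/-- **Fixed by inertia means slope zero.** -/
theorem inT0_of_fixed [Nonempty (Node M q hqM hres hgen)] {x : JZero (M * q)}
    (hx : x ∈ thetaPts Tm hNS θ 1) (hxp : p • x = 0)
    (hfix : ∀ τ ∈ A.inertiaSubgroupIn ℚ, τ • x = x) :
    (modelTwoRed M q hqM hres hgen).InT0 p x := by
  classical
  have hp' : p.Prime := hp.out
  obtain ⟨D, f, hD, -, hf, hdiv, hfc⟩ := PeuRamifie.exists_fixed_rep (A.inertiaSubgroupIn ℚ)
    hxp hfix
  obtain ⟨C, hC⟩ := exists_slope_of_fixed hML hqL hres hgen hgenL hψ hpc h4 hp'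
    (D := D) (f := f) hf hdiv hfc
  -- the slope is zero
  obtain ⟨s⟩ := ‹Nonempty (Node M q hqM hres hgen)›
  have hsn := br_false_mem hqM hres hgen s
  have hu := not_dvd_ord_unitBarC hML hqL hres hgen hgenL hψ hpc h4 hp12 hsn
  set R := redC M q hqM hres false
  set ub := Model.unitBarC M q hqM hres
  have hC0 : (p : ℤ) ∣ C := dvd_slope_of_mem_thetaPts hres hqM hp2 hΔ hirr Tm hNS θ hθ hx
    (m := p) (fun lam h => h.dvd_of_eq_zero hp' (ord_jC_of_mem hsn.1) hu)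
    ⟨D, f, hD, hf, hdiv, fun Q hQ => hC Q (xbC_mem_of_ord hQ)⟩
  have hfalse : ∀ t, (p : ℤ) ∣
      redOrd R f ((modelTwoRed M q hqM hres hgen).br t false) := fun t => by
    have h := hC _ (br_false_mem hqM hres hgen t).1
    refine ((Nat.prime_iff_prime_int.mp hp').dvd_or_dvd
      ((dvd_sub_left (hC0.mul_right _)).mp h)).resolve_left fun h' => hp12 ?_
    exact Int.natCast_dvd_natCast.mp (by rw [Nat.cast_ofNat]; exact h')
  refine ⟨D, f, hD, hf, hdiv, fun t i => ?_⟩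
  cases i
  · exact hfalse t
  · have h := (node_off_dvd hML hqL hres hgen hgenL hψ hpc h4 hp' 1 (D := D) hf
      (by rw [pow_one]; exact hdiv)).1 t
    rw [pow_one] at h
    exact (dvd_add_right (hfalse t)).mp h

end Fermat.Agent.LevelLowering.MonodromyExact
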