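import Mathlib.Algebra.GroupWithZero.Action.Basic
import Mathlib.Data.Finsupp.Order
import Fermat.Prelude.Def_AlgebraicCurve_BaseChangeGalois
import Fermat.Agent.FF.RiemannRoch

/-!
# Finitely many divisor classes fixed by a Frobenius

A semilinear automorphism of a function field fixing a nonconstant function and with finite fixed
sets on constants fixes only finitely many classes of degree zero.
-/

noncomputable section

open AlgebraicCurve Fermat.Agent.FF

namespace Fermat.Agent.LevelLowering.MonodromyExact

variable {K F : Type*} [Field K] [IsAlgClosed K] [Field F] [Algebra K F]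
  [FF.IsFunctionField K F]

omit [IsAlgClosed K] [IsFunctionField K F] in
/-- An automorphism permuting a finite set of places has a positive power fixing a given one. -/
theorem exists_pow_smul_eq (s : SemilinearAut K F) {Φ : Set (Place K F)} (hΦ : Φ.Finite)
    (hst : ∀ P ∈ Φ, s • P ∈ Φ) {P : Place K F} (hP : P ∈ Φ) :
    ∃ e, 0 < e ∧ e ≤ hΦ.toFinset.card ∧ s ^ e • P = P := by
  classical
  have hmem : ∀ i : ℕ, s ^ i • P ∈ Φ := fun i => by
    induction i with
    | zero => simpa
    | succ i ih => rw [pow_succ', mul_smul]; exact hst _ ih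
  obtain ⟨a, ha, b, hb, hne, he⟩ := Finset.exists_ne_map_eq_of_card_lt_of_maps_to
    (s := Finset.range (hΦ.toFinset.card + 1)) (t := hΦ.toFinset)
    (by rw [Finset.card_range]; omega) (f := fun i => s ^ i • P)
    (fun i _ => Finset.mem_coe.mpr (hΦ.mem_toFinset.mpr (hmem i)))
  rw [Finset.mem_range] at ha hb
  have key : ∀ a b : ℕ, a < b → b ≤ hΦ.toFinset.card → s ^ a • P = s ^ b • P →
      ∃ e, 0 < e ∧ e ≤ hΦ.toFinset.card ∧ s ^ e • P = P := fun a b hab hb h => by
    refine ⟨b - a, by omega, by omega, ?_⟩
    have h' : s ^ b = s ^ a * s ^ (b - a) := by rw [← pow_add]; congr 1; omega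
    rw [h', mul_smul] at h
    exact (smul_left_cancel_iff _).mp h.symm
  rcases lt_or_gt_of_ne hne with h | h
  · exact key a b h (by omega) he
  · exact key b a h (by omega) he.symm

/-- Only finitely many places are fixed by a power. -/
theorem finite_fixed_places (s : SemilinearAut K F) {j : F} (hj : Transcendental K j)
    (hs : s • j = j) (hfin : {c : K | SemilinearAut.baseAut s c = c}.Finite) :
    {P : Place K F | s • P = P}.Finite := by
  refine ((finite_ord_ne_zero (K := K) j).union (hfin.biUnion fun c _ =>
    finite_ord_pos (K := K) (j - algebraMap K F c))).subset fun P (hP : s • P = P) => ?_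
  by_cases h0 : P.ord j = 0
  swap
  · exact Or.inl h0
  obtain ⟨c, hc⟩ := exists_const P (f := j) (by omega)
  have hne : ∀ c, j - algebraMap K F c ≠ 0 := fun c h =>
    hj (sub_eq_zero.mp h ▸ isAlgebraic_algebraMap c)
  have hpos : 0 < P.ord (j - algebraMap K F c) := hc.resolve_left (hne c)
  have hpos' : 0 < P.ord (j - algebraMap K F (SemilinearAut.baseAut s c)) := by
    rw [← hP, ← hs, ← SemilinearAut.smul_algebraMap, ← smul_sub, SemilinearAut.ord_smul]
    exact hpos
  have e := const_unique P (Or.inr hpos) (Or.inr hpos')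
  exact Or.inr (Set.mem_biUnion (show SemilinearAut.baseAut s c = c from e.symm) hpos)

theorem pow_smul_eq_self {X : Type*} {G : Type*} [Monoid G] [MulAction G X] (g : G) {x : X}
    (h : g • x = x) (n : ℕ) : g ^ n • x = x := by
  induction n with
  | zero => simp
  | succ n ih => rw [pow_succ, mul_smul, h, ih]

/-- The support of a stable effective divisor of degree at most `g` is fixed by the `g!`th power,
with multiplicities at most `g`. -/
theorem pow_factorial_smul_eq_and_le {t : SemilinearAut K F} {E : Divisor K F} {g r : ℕ}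
    (hrg : r ≤ g) (hEdeg : Divisor.degree E = r) (hE0 : 0 ≤ E) (htE : t • E = E)
    {P : Place K F} (hP : E P ≠ 0) : t ^ g.factorial • P = P ∧ E P ≤ g := by
  classical
  have hEs : E.support.card ≤ g := by
    have h1 : ∑ Q ∈ E.support, (1 : ℤ) ≤ ∑ Q ∈ E.support, E Q :=
      Finset.sum_le_sum fun Q hQ => by
        have h2 : 0 ≤ E Q := hE0 Q
        have := Finsupp.mem_support_iff.mp hQ
        omega
    rw [degree_eq_sum, Finsupp.sum] at hEdeg
    rw [Finset.sum_const, nsmul_eq_mul, mul_one, hEdeg] at h1
    omega
  have hst : ∀ Q ∈ (E.support : Set (Place K F)), t • Q ∈ (E.support : Set (Place K F)) :=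
    fun Q hQ => by
      rw [Finset.mem_coe, Finsupp.mem_support_iff] at hQ ⊢
      rw [← htE, SemilinearAut.divisor_smul_apply, inv_smul_smul]
      exact hQ
  obtain ⟨d, hd, hdle, hdP⟩ := exists_pow_smul_eq t E.support.finite_toSet hst
    (Finset.mem_coe.mpr (Finsupp.mem_support_iff.mpr hP))
  rw [Finset.finite_toSet_toFinset] at hdle
  obtain ⟨m, hm⟩ := Nat.dvd_factorial hd (hdle.trans hEs)
  refine ⟨by rw [hm, pow_mul]; exact pow_smul_eq_self _ hdP m, ?_⟩
  have h1 : Finsupp.single P (E P) ≤ E := fun Q => by
    rw [Finsupp.single_apply]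
    split_ifs with h
    · exact h ▸ le_rfl
    · exact hE0 Q
  have := degree_mono h1
  rw [Divisor.degree_single, place_deg_eq_one, hEdeg] at this
  push_cast at this
  omega

/-- **Finitely many classes of degree zero are fixed.** -/
theorem finite_fixed_pic0 (s : SemilinearAut K F) {j : F} (hj : Transcendental K j)
    (hs : s • j = j)
    (hfin : ∀ e : ℕ, 0 < e → {c : K | SemilinearAut.baseAut (s ^ e) c = c}.Finite) :
    {C : Pic0 K F | s • C = C}.Finite := by
  classical
  obtain ⟨P₁, hP₁⟩ := exists_place_ord_neg (K := K) hj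
  set Poles := {P : Place K F | P.ord j ≠ 0}
  have hpoles : ∀ P ∈ Poles, s • P ∈ Poles := fun P hP => by
    show (s • P).ord j ≠ 0
    rwa [← hs, SemilinearAut.ord_smul]
  obtain ⟨e, he, -, hP₁e⟩ := exists_pow_smul_eq s (finite_ord_ne_zero (K := K) j) hpoles
    (show P₁ ∈ Poles from (ne_of_lt hP₁))
  set t := s ^ e with ht
  have htj : t • j = j := pow_smul_eq_self s hs e
  set g := genusFF K F
  set N := g.factorial
  have hN : 0 < N := Nat.factorial_pos g
  have hΦ : {P : Place K F | t ^ N • P = P}.Finite :=
    finite_fixed_places (t ^ N) (j := j) hj (pow_smul_eq_self t htj N)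
      (by rw [ht, ← pow_mul]; exact hfin _ (Nat.mul_pos he hN))
  -- candidate effective divisors
  let Cand : Set (Divisor K F) := Set.Icc 0 (∑ P ∈ hΦ.toFinset, Finsupp.single P (g : ℤ))
  have hCand : Cand.Finite := Set.finite_Icc _ _
  have hkey : ∀ C : Pic0 K F, s • C = C → ∃ E ∈ Cand, ∃ h, Pic0.mk
      ⟨E - Finsupp.single P₁ (Divisor.degree E), h⟩ = C := by
    intro C hC
    have hC' : t • C = C := pow_smul_eq_self s hC e
    obtain ⟨D, rfl⟩ := Pic0.mk_surjective C
    have hD0 : Divisor.degree (D : Divisor K F) = 0 := D.2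
    set T : ℕ → Divisor K F := fun r => Finsupp.single P₁ (r : ℤ) with hT
    have hdegT : ∀ r : ℕ, Divisor.degree (T r) = r := fun r => by
      rw [hT, Divisor.degree_single, place_deg_eq_one]; simp
    have hex : ∃ r, 0 < ell ((D : Divisor K F) + T r) := by
      refine ⟨g, ?_⟩
      have := riemann_inequality ((D : Divisor K F) + T g)
      rw [map_add, hD0, hdegT] at this
      omega
    set r := Nat.find hex with hr
    have hrg : r ≤ g := Nat.find_min' hex (by
      have := riemann_inequality ((D : Divisor K F) + T g)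
      rw [map_add, hD0, hdegT] at this
      omega)
    have hpos : 0 < ell ((D : Divisor K F) + T r) := Nat.find_spec hex
    have hone : ell ((D : Divisor K F) + T r) ≤ 1 := by
      rcases Nat.eq_zero_or_pos r with h0 | h0
      · have := ell_le_of_degree_nonneg (D := (D : Divisor K F) + T r)
          (by rw [map_add, hD0, hdegT, zero_add]; exact Int.natCast_nonneg r)
        rw [map_add, hD0, hdegT, h0] at this
        rw [h0]; omega
      · have hlt := Nat.find_min hex (show r - 1 < r by omega)
        have hs' : (D : Divisor K F) + T r =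
            (D : Divisor K F) + T (r - 1) + Finsupp.single P₁ 1 := by
          rw [add_assoc, hT]
          simp only
          rw [← Finsupp.single_add]
          congr 2
          omega
        rw [hs']
        have := ell_step_le ((D : Divisor K F) + T (r - 1)) P₁
        omega
    obtain ⟨f, hf, hfL⟩ := exists_ne_zero_of_ell_pos hpos
    set E : Divisor K F := (D : Divisor K F) + T r + divOf f with hE
    have hEdeg : Divisor.degree E = r := by
      rw [hE, map_add, map_add, hD0, hdegT, degree_divOf, zero_add, add_zero]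
    have hE0 : 0 ≤ E := neg_divOf_le hf hfL
    have hEone : ∀ h ∈ riemannRochSpace E, ∃ c : K, h = algebraMap K F c := by
      have h1 : ell E ≤ 1 := by rwa [hE, ell_add_divOf hf]
      have hmem : (1 : F) ∈ riemannRochSpace E := by
        rw [mem_rrSpace_of_ord one_ne_zero]
        intro v
        rw [Place.ord_one, Left.neg_nonpos_iff]
        exact hE0 v
      have := finite_rrSpace_of_nonneg hE0
      have hspan : K ∙ (1 : F) = riemannRochSpace E :=
        Submodule.eq_of_le_of_finrank_le ((Submodule.span_singleton_le_iff_mem _ _).mpr hmem)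
          (by rwa [finrank_span_singleton one_ne_zero])
      intro h hh
      rw [← hspan, Submodule.mem_span_singleton] at hh
      obtain ⟨c, rfl⟩ := hh
      exact ⟨c, (Algebra.algebraMap_eq_smul_one c).symm⟩
    -- `E` is stable
    have hcls : E - T r - (D : Divisor K F) = divOf f := by rw [hE]; abel
    have htE : t • E = E := by
      have hp : ((SemilinearAut.degZeroSMulHom t D - D : Divisor.degZero (K := K) (F := F)) :
          Divisor K F) ∈ Divisor.principal (K := K) (F := F) := by
        refine AddSubgroup.mem_addSubgroupOf.mp ((QuotientAddGroup.eq_zero_iff _).mp ?_)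
        refine (map_sub (QuotientAddGroup.mk' ((Divisor.principal (K := K) (F := F)).addSubgroupOf
          (Divisor.degZero (K := K) (F := F)))) _ _).trans (sub_eq_zero.mpr ?_)
        exact (SemilinearAut.pic0_smul_mk t D).symm.trans hC'
      obtain ⟨h, hh0, hh⟩ := hp
      have hT' : t • T r = T r := by
        rw [hT]; simp only [SemilinearAut.smul_single, hP₁e]
      have hf' : ∀ v, (t • divOf (K := K) f) v = v.ord (t • f) := fun v => by
        rw [SemilinearAut.divisor_smul_apply, divOf_apply]
        conv_rhs => rw [← smul_inv_smul t v, SemilinearAut.ord_smul]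
      have htf : t • f ≠ 0 := (smul_ne_zero_iff_ne t).mpr hf
      have hu0 : h * (t • f) * f⁻¹ ≠ 0 := mul_ne_zero (mul_ne_zero hh0 htf) (inv_ne_zero hf)
      have hu : ∀ v, (t • E) v = E v + v.ord (h * (t • f) * f⁻¹) := fun v => by
        have h' : ∀ v, (t • (D : Divisor K F)) v - (D : Divisor K F) v = v.ord h := fun v => hh v
        rw [hE, smul_add, smul_add, hT', v.ord_mul (mul_ne_zero hh0 htf) (inv_ne_zero hf),
          v.ord_mul hh0 htf, Place.ord_inv, ← h' v, ← hf' v]
        simp only [Finsupp.coe_add, Pi.add_apply, divOf_apply]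
        ring
      have hmem : h * (t • f) * f⁻¹ ∈ riemannRochSpace E := by
        rw [mem_rrSpace_of_ord hu0]
        intro v
        have hnn : 0 ≤ (t • E) v := by
          rw [SemilinearAut.divisor_smul_apply]; exact hE0 _
        have := hu v
        omega
      obtain ⟨c, hc⟩ := hEone _ hmem
      have hc0 : c ≠ 0 := fun h0 => hu0 (by rw [hc, h0, map_zero])
      ext v
      rw [hu v, hc, FF.ord_algebraMap v c, add_zero]
    have hsupp : ∀ P, E P ≠ 0 → t ^ N • P = P ∧ E P ≤ g := fun P hP =>
      pow_factorial_smul_eq_and_le hrg hEdeg hE0 htE hP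
    refine ⟨E, ⟨hE0, fun Q => ?_⟩, Divisor.mem_degZero.mpr ?_, ?_⟩
    · rw [Finsupp.finsetSum_apply]
      by_cases hQ : E Q = 0
      · rw [hQ]
        exact Finset.sum_nonneg fun P _ => Finsupp.single_nonneg.mpr (Int.natCast_nonneg g) Q
      · obtain ⟨h1, h2⟩ := hsupp Q hQ
        refine h2.trans ?_
        rw [Finset.sum_eq_single Q (fun P _ hne => Finsupp.single_eq_of_ne hne.symm)
          (fun h => absurd (hΦ.mem_toFinset.mpr h1) h), Finsupp.single_eq_same]
    · rw [map_sub, Divisor.degree_single, place_deg_eq_one]; simp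
    · rw [← sub_eq_zero]
      refine (map_sub (QuotientAddGroup.mk' ((Divisor.principal (K := K) (F := F)).addSubgroupOf
        (Divisor.degZero (K := K) (F := F)))) _ _).symm.trans ((QuotientAddGroup.eq_zero_iff _).mpr
          (AddSubgroup.mem_addSubgroupOf.mpr ⟨f, hf, fun v => ?_⟩))
      have := congrArg (fun X : Divisor K F => X v) hcls
      simp only [hEdeg, AddSubgroupClass.coe_sub, hT, Finsupp.sub_apply, divOf_apply] at this ⊢
      exact this
  refine (hCand.image fun E => Pic0.mk (⟨E - Finsupp.single P₁ (Divisor.degree E),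
    Divisor.mem_degZero.mpr (by rw [map_sub, Divisor.degree_single, place_deg_eq_one]; simp)⟩ :
      Divisor.degZero (K := K) (F := F))).subset fun C hC => ?_
  obtain ⟨E, hE, h, rfl⟩ := hkey C hC
  exact ⟨E, hE, rfl⟩

end Fermat.Agent.LevelLowering.MonodromyExact
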