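import Fermat.Agent.LevelLowering.MonodromyExact.Swap
import Fermat.Agent.TwoComponent.Inject
import Fermat.Agent.TwoComponent.ModelSemi
import Fermat.Agent.TwoComponent.RedClass

/-!
# Frobenius and inertia at `q` on the torsion of `J₀(M q)`

`φ²` fixes all nodes, so it changes torsion by classes of slope zero and is `q²` on toric classes;
`φ` composed with the Atkin–Lehner involution exchanges the components and is `-q` there.
-/

noncomputable section

open ModularCurve AlgebraicCurve Fermat.Agent.Red Fermat.Agent.TwoComponent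

namespace Fermat.Agent.LevelLowering.MonodromyExact

local notation "Qb" => AlgebraicClosure ℚ
local notation "GQ" => (AlgebraicClosure ℚ ≃ₐ[ℚ] AlgebraicClosure ℚ)

variable (M q : ℕ) [hq : Fact q.Prime] [NeZero M] (hqM : ¬ q ∣ M)
variable {A : ValuationSubring (AlgebraicClosure ℚ)} {k : Type*} [Field k] {π : A →+* k}
variable [CharP k q] [IsAlgClosed k]

variable (k) in
/-- Frobenius of the residue field. -/
def frobK : k ≃+* k :=
  haveI : PerfectRing k q := PerfectField.toPerfectRing q
  frobeniusEquiv k q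

theorem frobK_apply (z : k) : frobK q k z = z ^ q := by
  have : PerfectRing k q := PerfectField.toPerfectRing q
  show frobeniusEquiv k q z = _
  rw [coe_frobeniusEquiv, frobenius_def]

omit [NeZero M] in
theorem frobC_eq : (frobC M q (k := k)) = EichlerShimura.coeffSemilinear M (frobK q k) := rfl

omit [IsAlgClosed k] in
/-- Two actions compose. -/
theorem inducesOn_mul {σ τ : GQ} {φ ψ : k ≃+* k} (hσ : EichlerShimura.InducesOn A π σ φ)
    (hτ : EichlerShimura.InducesOn A π τ ψ) : EichlerShimura.InducesOn A π (σ * τ) (ψ.trans φ) :=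
      fun a => by
  obtain ⟨h1, e1⟩ := hτ a
  obtain ⟨h2, e2⟩ := hσ ⟨_, h1⟩
  exact ⟨h2, e2.trans (by rw [e1]; rfl)⟩

omit [NeZero M] [IsAlgClosed k] in
/-- `coeffSemilinear` is multiplicative. -/
theorem coeffSemilinear_trans (φ ψ : k ≃+* k) :
    EichlerShimura.coeffSemilinear M (ψ.trans φ) = EichlerShimura.coeffSemilinear M φ *
      EichlerShimura.coeffSemilinear M ψ := by
  refine Subtype.ext (Prod.ext (RingEquiv.ext fun x => Subtype.ext ?_) rfl)
  show coeffMap ((ψ.trans φ : k ≃+* k) : k →+* k) (x : LaurentSeries k) =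
    coeffMap (φ : k →+* k) (coeffMap (ψ : k →+* k) (x : LaurentSeries k))
  rw [coeffMap_coeffMap]
  rfl

variable (hres : ResidueAt A q π)
  (hgen : genusFF Qb (modularFunctionFieldBar M) ≤ genusFF k (CK M k))

/-- The branches of a node: a place `y` fixed by the square of Frobenius, and its image. -/
theorem br_model (s : Node M q hqM hres hgen) :
    ∃ y : Place k (CK M k), frobC M q (k := k) • frobC M q (k := k) • y = y ∧
      (modelTwoRed M q hqM hres hgen).br s false = y ∧
      (modelTwoRed M q hqM hres hgen).br s true = frobC M q (k := k) • y := by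
  obtain ⟨y, hy, he⟩ := (mem_nodesC M q hqM hres hgen).mp s.2
  exact ⟨y, hy.2.1, (congrArg Prod.fst he).symm, (congrArg Prod.snd he).symm⟩

omit [IsAlgClosed k] in
include hq in
theorem exists_nontrivial_ker : ∃ t : A, t ≠ 0 ∧ π t = 0 :=
  ⟨(q : A), fun h => hq.out.ne_zero (Nat.cast_eq_zero.mp h), by
    rw [map_natCast, CharP.cast_eq_zero]⟩

variable {φ : GQ} (hφ : EichlerShimura.InducesOn A π φ (frobK q k))

include hφ in
/-- The square of Frobenius fixes every node. -/
theorem frobSq_fixesNodes :
    (modelSemiRed M q hqM hres hgen (inducesOn_mul hφ hφ)).FixesNodes := by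
  intro s i
  obtain ⟨y, hyy, h0, h1⟩ := br_model M q hqM hres hgen s
  rw [modelSemiRed_resAut, coeffSemilinear_trans, ← frobC_eq, mul_smul]
  cases i
  · rw [h0, hyy]
  · rw [h1, hyy]

include hφ in
/-- **`φ² - 1` lands in slope zero.** -/
theorem frobSq_sub_mem {m : ℕ} {y : JZero (M * q)} (hy : m • y = 0) :
    (modelTwoRed M q hqM hres hgen).InT0 m (φ • φ • y - y) := by
  have h : (modelTwoRed M q hqM hres hgen).InT0 m ((φ * φ) • y - y) :=
    SemiRed.smul_sub_mem_of_fixesNodes (modelSemiRed M q hqM hres hgen (inducesOn_mul hφ hφ))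
      (frobSq_fixesNodes M q hqM hres hgen hφ) hy
  rwa [mul_smul] at h

include hφ in
/-- **`φ² = q²` on toric classes.** -/
theorem frobSq_of_inT00 {m : ℕ} (hm : 0 < m) (hmk : (m : k) ≠ 0) {y : JZero (M * q)}
    (hy : (modelTwoRed M q hqM hres hgen).InT00 m y) : φ • φ • y = q ^ 2 • y := by
  have h : (φ * φ) • y = q ^ 2 • y :=
    SemiRed.smul_eq_nsmul_of_inT00 (modelSemiRed M q hqM hres hgen (inducesOn_mul hφ hφ))
      (frobSq_fixesNodes M q hqM hres hgen hφ) hm hmk (exists_nontrivial_ker q) (a := q ^ 2)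
      (fun z _ => by
        show frobK q k (frobK q k z) = z ^ q ^ 2
        rw [frobK_apply, frobK_apply, ← pow_mul, sq]) hy
  rwa [mul_smul] at h

variable {σ : GQ} (hσ : EichlerShimura.InducesOn A π σ (RingEquiv.refl k))

include hσ in
/-- **Inertia moves torsion by classes of slope zero.** -/
theorem inertia_sub_mem {m : ℕ} {y : JZero (M * q)} (hy : m • y = 0) :
    (modelTwoRed M q hqM hres hgen).InT0 m (σ • y - y) :=
  SemiRed.smul_sub_mem (modelSemiRed M q hqM hres hgen hσ)
    (modelSemiRed_isInertial M q hqM hres hgen hσ) hy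

include hσ in
/-- **Inertia fixes slope zero.** -/
theorem inertia_fix_of_inT0 {m : ℕ} (hm : 0 < m) (hmk : (m : k) ≠ 0) {y : JZero (M * q)}
    (hy : (modelTwoRed M q hqM hres hgen).InT0 m y) : σ • y = y :=
  SemiRed.smul_eq_of_inT0 (modelSemiRed M q hqM hres hgen hσ)
    (modelSemiRed_isInertial M q hqM hres hgen hσ) hm hmk (exists_nontrivial_ker q) hy

/-! ### The Atkin–Lehner involution -/

theorem semilinearAut_ext {K F : Type*} [Field K] [Field F] [Algebra K F]
    {g h : SemilinearAut K F} (h₁ : ∀ x : F, g • x = h • x)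
    (h₂ : SemilinearAut.baseAut g = SemilinearAut.baseAut h) : g = h :=
  Subtype.ext (Prod.ext (RingEquiv.ext h₁) h₂)

/-- The involution as a semilinear automorphism. -/
def wSemi : SemilinearAut Qb (FN M q) :=
  ⟨((wAL M q hqM).toRingEquiv, RingEquiv.refl _), fun a => (wAL M q hqM).commutes a⟩

theorem wSemi_smul (f : FN M q) : wSemi M q hqM • f = wAL M q hqM f := rfl

theorem wSemi_mul_self : wSemi M q hqM * wSemi M q hqM = 1 := by
  refine semilinearAut_ext (fun x => ?_) rfl
  rw [mul_smul, one_smul, wSemi_smul, wSemi_smul, wAL_wAL]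

theorem wSemi_galFN (σ : GQ) :
    wSemi M q hqM * galFN M q σ = galFN M q σ * wSemi M q hqM := by
  refine semilinearAut_ext (fun x => ?_) (RingEquiv.ext fun a => rfl)
  rw [mul_smul, mul_smul, wSemi_smul, wSemi_smul, wAL_galFN]

/-- The involution on `J₀(M q)`. -/
def omegaJ : JZero (M * q) →+ JZero (M * q) :=
  DistribSMul.toAddMonoidHom (Pic0 Qb (FN M q)) (wSemi M q hqM)

theorem omegaJ_apply (x : JZero (M * q)) :
    omegaJ M q hqM x = wSemi M q hqM • (x : Pic0 Qb (FN M q)) := rfl

theorem omegaJ_omegaJ (x : JZero (M * q)) : omegaJ M q hqM (omegaJ M q hqM x) = x := by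
  rw [omegaJ_apply, omegaJ_apply, smul_smul, wSemi_mul_self, one_smul]

theorem omegaJ_galois (g : GQ) (x : JZero (M * q)) :
    omegaJ M q hqM (g • x) = g • omegaJ M q hqM x := by
  show wSemi M q hqM • galFN M q g • (x : Pic0 Qb (FN M q)) =
    galFN M q g • wSemi M q hqM • (x : Pic0 Qb (FN M q))
  rw [smul_smul, smul_smul, wSemi_galFN]

include hφ in
/-- `φ ∘ w` exchanges the components. -/
def swapModel : SwapRed (modelTwoRed M q hqM hres hgen) where
  aut := galFN M q φ * wSemi M q hqM
  res := frobK q k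
  resF := EichlerShimura.coeffRingAut M (frobK q k)
  resF_algebraMap a := Subtype.ext (coeffMap_algebraMap (frobK q k : k →+* k) a)
  base_mem a ha := (hφ ⟨a, ha⟩).1
  pi_base a := (hφ a).2
  mem i u hu := by
    cases i
    · have hu' : wAL M q hqM u ∈ (redC M q hqM hres true).O := by
        show wAL M q hqM (wAL M q hqM u) ∈ (redC M q hqM hres false).O
        rw [wAL_wAL]; exact hu
      exact (redC_smul M q hqM hres hφ true ⟨_, hu'⟩).1
    · exact (redC_smul M q hqM hres hφ false ⟨wAL M q hqM u, hu⟩).1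
  red_smul i u := by
    cases i
    · have hu' : wAL M q hqM (u : FN M q) ∈ (redC M q hqM hres true).O := by
        show wAL M q hqM (wAL M q hqM (u : FN M q)) ∈ (redC M q hqM hres false).O
        rw [wAL_wAL]; exact u.2
      refine (redC_smul M q hqM hres hφ true ⟨_, hu'⟩).2.trans (congrArg _ ?_)
      exact congrArg (redC M q hqM hres false).red
        (Subtype.ext (wAL_wAL M q hqM (u : FN M q)))
    · exact (redC_smul M q hqM hres hφ false ⟨wAL M q hqM (u : FN M q), u.2⟩).2
  x_fix := by
    show (galFN M q φ * wSemi M q hqM) • xN M q = xN M q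
    rw [mul_smul, wSemi_smul, wAL_xN, galFN_smul_xN]
  branch s i := by
    obtain ⟨y, hyy, h0, h1⟩ := br_model M q hqM hres hgen s
    show frobC M q (k := k) • _ = _
    cases i
    · rw [h0]; exact h1.symm
    · rw [h1, hyy]; exact h0.symm

include hφ in
/-- **`φ = -q w` on toric classes.** -/
theorem swap_of_inT00 {m : ℕ} (hm : 0 < m) (hmk : (m : k) ≠ 0) {y : JZero (M * q)}
    (hy : (modelTwoRed M q hqM hres hgen).InT00 m y) :
    φ • y + q • omegaJ M q hqM y = 0 := by
  have h : (galFN M q φ * wSemi M q hqM) • (y : Pic0 Qb (FN M q)) + q • y = 0 :=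
    SwapRed.smul_add_nsmul_eq_zero (swapModel M q hqM hres hgen hφ) hm hmk
      (exists_nontrivial_ker q) (a := q) (fun z _ => frobK_apply q z) hy
  have h2 := congrArg (omegaJ M q hqM) h
  rw [map_add, map_nsmul, map_zero] at h2
  rw [mul_smul, omegaJ_apply, show galFN M q φ • wSemi M q hqM • (y : Pic0 Qb (FN M q)) =
    wSemi M q hqM • galFN M q φ • (y : Pic0 Qb (FN M q)) by
      rw [smul_smul, smul_smul, wSemi_galFN], smul_smul, wSemi_mul_self, one_smul] at h2
  exact h2

end Fermat.Agent.LevelLowering.MonodromyExact
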