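import Mathlib.Algebra.Group.Subgroup.Finite
import Mathlib.Data.Nat.Prime.Basic
import Mathlib.GroupTheory.Index
import Mathlib.GroupTheory.QuotientGroup.Basic
import Mathlib.SetTheory.Cardinal.Finite
import Mathlib.Tactic.Linarith
import Mathlib.Tactic.Ring

/-!
# Divisibility from counting

A compatible family `W n` of finite `p ^ n`-torsion subgroups with `|W 1| ≤ p ^ d` and
`|W n| ≥ p ^ (n d) / C` is divisible.
-/

namespace Fermat.Agent.LevelLowering.MonodromyExact

variable {J : Type*} [AddCommGroup J]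

/-- A subgroup is bounded by the kernel and the image of multiplication by `e`. -/
theorem natCard_le_ker_mul (H : AddSubgroup J) (e : ℕ) (H₀ H₁ : AddSubgroup J)
    [Finite H₀] [Finite H₁] (h₀ : ∀ x ∈ H, e • x = 0 → x ∈ H₀) (h₁ : ∀ x ∈ H, e • x ∈ H₁) :
    Nat.card H ≤ Nat.card H₀ * Nat.card H₁ := by
  set f : H →+ J := (nsmulAddMonoidHom e).comp H.subtype
  have hf : ∀ x : H, f x = e • (x : J) := fun _ => rfl
  have hk : Nat.card f.ker ≤ Nat.card H₀ :=
    Nat.card_le_card_of_injective
      (fun x : f.ker => (⟨(x : H).1, h₀ _ (x : H).2 (by rw [← hf]; exact x.2)⟩ : H₀))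
      fun a b hab => by
        have := congrArg Subtype.val hab
        exact Subtype.ext (Subtype.ext this)
  have hr : Nat.card f.range ≤ Nat.card H₁ := by
    have hmem : ∀ y : f.range, (y : J) ∈ H₁ := by
      rintro ⟨_, x, rfl⟩
      exact h₁ _ x.2
    exact Nat.card_le_card_of_injective (fun y : f.range => (⟨(y : J), hmem y⟩ : H₁))
      fun a b hab => by
        have := congrArg Subtype.val hab
        exact Subtype.ext this
  calc Nat.card H = f.ker.index * Nat.card f.ker := (AddSubgroup.index_mul_card f.ker).symm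
    _ = Nat.card f.range * Nat.card f.ker := by rw [AddSubgroup.index_ker]
    _ ≤ Nat.card H₁ * Nat.card H₀ := Nat.mul_le_mul hr hk
    _ = _ := mul_comm _ _

variable {p : ℕ} (W : ℕ → AddSubgroup J) [∀ n, Finite (W n)]
  (htor : ∀ n, ∀ x ∈ W n, p ^ n • x = 0)
  (hW : ∀ a b, ∀ x : J, x ∈ W a ↔ x ∈ W (a + b) ∧ p ^ a • x = 0)

include htor hW

omit [∀ (n : ℕ), Finite ↥(W n)] in
theorem nsmul_mem_level (a b : ℕ) {x : J} (hx : x ∈ W (a + b)) : p ^ a • x ∈ W b := by
  refine (hW b a _).mpr ⟨by rw [add_comm]; exact (W (a + b)).nsmul_mem hx _, ?_⟩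
  rw [smul_smul, ← pow_add, add_comm]
  exact htor _ _ hx

theorem natCard_add_le (a b : ℕ) :
    Nat.card (W (a + b)) ≤ Nat.card (W a) * Nat.card (W b) :=
  natCard_le_ker_mul (W (a + b)) (p ^ a) (W a) (W b) (fun _ hx h => (hW a b _).mpr ⟨hx, h⟩)
    fun _ hx => nsmul_mem_level W htor hW a b hx

theorem natCard_mul_le (n : ℕ) : ∀ j, 1 ≤ j → Nat.card (W (n * j)) ≤ Nat.card (W n) ^ j := by
  intro j hj
  induction j, hj using Nat.le_induction with
  | base => simp
  | succ j _ ih =>
    rw [Nat.mul_succ, pow_succ]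
    exact (natCard_add_le W htor hW _ _).trans (Nat.mul_le_mul_right _ ih)

/-- **Divisibility.** -/
theorem exists_nsmul_eq_of_natCard (hp : 1 < p) {d C : ℕ} (h1 : Nat.card (W 1) ≤ p ^ d)
    (hC : ∀ n, p ^ (n * d) ≤ C * Nat.card (W n)) (n : ℕ) {y : J} (hy : y ∈ W 1) :
    ∃ z ∈ W (n + 1), p ^ n • z = y := by
  have hup : ∀ j, 1 ≤ j → Nat.card (W j) ≤ p ^ (j * d) := fun j hj => by
    have := natCard_mul_le W htor hW 1 j hj
    rw [one_mul] at this
    rw [mul_comm j, pow_mul]
    exact this.trans (Nat.pow_le_pow_left h1 j)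
  have hlow : ∀ m, 1 ≤ m → p ^ (m * d) ≤ Nat.card (W m) := by
    intro m hm
    by_contra hlt
    push Not at hlt
    have hC0 : 0 < C := by
      rcases Nat.eq_zero_or_pos C with rfl | h
      · exact absurd (hC 0) (by simp)
      · exact h
    set P := p ^ (m * d) with hP
    have hP0 : 0 < P := pow_pos (by omega) _
    have key : ∀ a j : ℕ, a + 1 ≤ P → a ^ j * (P + j) ≤ P ^ (j + 1) := by
      intro a j ha
      induction j with
      | zero => simp
      | succ j ih =>
        calc a ^ (j + 1) * (P + (j + 1)) = a ^ j * (a * (P + (j + 1))) := by ring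
          _ ≤ a ^ j * (P * (P + j)) := Nat.mul_le_mul_left _ (by nlinarith)
          _ = P * (a ^ j * (P + j)) := by ring
          _ ≤ P * P ^ (j + 1) := Nat.mul_le_mul_left _ ih
          _ = _ := by ring
    set j := C * P + 1 with hj
    have h2 : P ^ j ≤ C * Nat.card (W m) ^ j := by
      rw [hP, ← pow_mul, show m * d * j = m * j * d by ring]
      exact (hC _).trans (Nat.mul_le_mul_left _ (natCard_mul_le W htor hW m j (by omega)))
    have h3 := key (Nat.card (W m)) j (by omega)
    have h4 : P ^ j * (P + j) ≤ P ^ j * (C * P) := by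
      calc P ^ j * (P + j) ≤ C * Nat.card (W m) ^ j * (P + j) := Nat.mul_le_mul_right _ h2
        _ = C * (Nat.card (W m) ^ j * (P + j)) := by ring
        _ ≤ C * P ^ (j + 1) := Nat.mul_le_mul_left _ h3
        _ = _ := by ring
    have h5 := Nat.le_of_mul_le_mul_left h4 (pow_pos hP0 _)
    omega
  set e := p ^ n
  let f : W (n + 1) →+ W 1 :=
    ((nsmulAddMonoidHom e).comp (W (n + 1)).subtype).codRestrict (W 1) fun x =>
      nsmul_mem_level W htor hW n 1 x.2
  have hk : Nat.card f.ker ≤ Nat.card (W n) :=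
    Nat.card_le_card_of_injective
      (fun x : f.ker => (⟨(x : W (n + 1)).1,
        (hW n 1 _).mpr ⟨(x : W (n + 1)).2, congrArg Subtype.val x.2⟩⟩ : W n))
      fun a b hab => by
        have := congrArg Subtype.val hab
        exact Subtype.ext (Subtype.ext this)
  have hrange : Nat.card f.range = Nat.card (W 1) := by
    refine le_antisymm (Nat.card_le_card_of_injective _ f.range.subtype_injective) ?_
    rcases Nat.eq_zero_or_pos n with rfl | hn
    · rw [← AddSubgroup.card_top (G := W 1)]
      refine le_of_eq (congrArg (fun H : AddSubgroup (W 1) => Nat.card H) ?_)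
      symm
      exact eq_top_iff.mpr fun y _ => ⟨y, Subtype.ext (by simp [f, e])⟩
    · have h2 : p ^ ((n + 1) * d) ≤ Nat.card f.range * p ^ (n * d) := by
        calc p ^ ((n + 1) * d) ≤ Nat.card (W (n + 1)) := hlow _ (by omega)
          _ = f.ker.index * Nat.card f.ker := (AddSubgroup.index_mul_card f.ker).symm
          _ = Nat.card f.range * Nat.card f.ker := by rw [AddSubgroup.index_ker]
          _ ≤ Nat.card f.range * p ^ (n * d) := Nat.mul_le_mul_left _ (hk.trans (hup n hn))
      rw [Nat.succ_mul, pow_add, mul_comm (p ^ (n * d))] at h2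
      exact h1.trans (Nat.le_of_mul_le_mul_right h2 (pow_pos (by omega) _))
  have hsurj : f.range = ⊤ := AddSubgroup.eq_top_of_card_eq _ hrange
  obtain ⟨z, hz⟩ := AddMonoidHom.range_eq_top.mp hsurj ⟨y, hy⟩
  exact ⟨z, z.2, congrArg Subtype.val hz⟩

end Fermat.Agent.LevelLowering.MonodromyExact
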