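import Mathlib.Data.Nat.Factors
import Mathlib.GroupTheory.OrderOfElement
import Mathlib.RingTheory.RootsOfUnity.AlgebraicallyClosed
import Mathlib.RingTheory.RootsOfUnity.Basic
import Fermat.Agent.LevelLowering.MonodromyExact.Group
import Fermat.Agent.LoweringAtP.Image
import Fermat.Agent.TwoComponent.Inject
import Fermat.Agent.TwoComponent.RedClass

/-!
# The toric torsion is divisible

On a two-component reduction with a unit measuring the thickness: slopes of `m`-torsion take at
most `m ^ (#S - 1)` values, the toric classes of order `p` at most `p ^ (#S - 1)`. With a bound on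
the abelian part these force the toric `p`-torsion to be divisible inside the toric part.
-/

noncomputable section

open AlgebraicCurve Fermat.Agent.Red Fermat.Agent.TwoComponent Fermat.Agent.LoweringAtP

namespace Fermat.Agent.LevelLowering.MonodromyExact

variable {K k F Fk : Type*} [Field K] [Field F] [Algebra K F] [Field k] [Field Fk] [Algebra k Fk]
variable {A : ValuationSubring K} {π : A →+* k} {S : Type*} [Fintype S]

section toric

variable (T : TwoRed A π F Fk S) {m : ℕ}

theorem inT0_of_inT00 {y : Pic0 K F} (hy : T.InT00 m y) : T.InT0 m y := by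
  obtain ⟨D, d, hD, he⟩ := hy
  refine ⟨D, d.f, hD, d.f_ne, d.div_f, fun s i => ?_⟩
  have hc : d.c i ^ m ≠ 0 := pow_ne_zero _ (d.c_ne i)
  rw [redOrd_eq (T.R i) (c := (d.c i ^ m)⁻¹) d.f_ne (d.e_ne i) (by
    rw [d.e_eq, ← map_pow, ← mul_assoc, ← map_mul, inv_mul_cancel₀ hc, map_one, one_mul]), d.e_br]
  exact dvd_zero _

/-- The toric `m`-torsion classes, as a subgroup. -/
def t00 (m : ℕ) : AddSubgroup (Pic0 K F) where
  carrier := {y | T.InT00 m y}
  zero_mem' := ⟨0, TwoRed.NormalData.one T m, Pic0.mk_zero, fun _ => map_one _⟩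
  add_mem' := by
    rintro y y' ⟨D, d, rfl, he⟩ ⟨D', d', rfl, he'⟩
    exact ⟨D + D', (d.mul d').copy (by rw [AddSubgroup.coe_add]), Pic0.mk_add _ _,
      fun i => by
        show (T.R i).red ((d.mul d').e i) = 1
        rw [TwoRed.NormalData.red_e_mul, he, he', one_mul]⟩
  neg_mem' := by
    rintro y ⟨D, d, rfl, he⟩
    exact ⟨-D, d.inv.copy (by rw [NegMemClass.coe_neg]),
      map_neg (QuotientAddGroup.mk' _) _, fun i => by
        show (T.R i).red (d.inv.e i) = 1
        rw [TwoRed.NormalData.red_e_inv, he, inv_one]⟩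

theorem mem_t00 {y : Pic0 K F} : y ∈ t00 T m ↔ T.InT00 m y := Iff.rfl

theorem nsmul_eq_zero_of_mem {y : Pic0 K F} (hy : y ∈ t00 T m) : m • y = 0 :=
  (inT0_of_inT00 T hy).nsmul_eq_zero

/-- The toric classes of order `m` are the `m`-torsion of those of order `m * m'`. -/
theorem mem_t00_mul_iff [IsAlgClosed K] {m' : ℕ} (hm : 0 < m) (hm' : 0 < m') {y : Pic0 K F} :
    y ∈ t00 T m ↔ y ∈ t00 T (m * m') ∧ m • y = 0 := by
  refine ⟨fun hy => ⟨?_, nsmul_eq_zero_of_mem T hy⟩, ?_⟩
  · obtain ⟨D, d, hD, he⟩ := hy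
    exact ⟨D, {
      f := d.f ^ m'
      f_ne := pow_ne_zero _ d.f_ne
      div_f := fun P => by rw [ord_pow, d.div_f]; push_cast; ring
      degree_D := d.degree_D
      c := d.c
      c_ne := d.c_ne
      e := fun i => d.e i ^ m'
      e_eq := fun i => by rw [SubmonoidClass.coe_pow, d.e_eq, mul_pow, ← pow_mul]
      e_ne := fun i => by rw [map_pow]; exact pow_ne_zero _ (d.e_ne i)
      e_br := fun s i => by rw [map_pow, ord_pow, d.e_br, mul_zero] }, hD,
      fun i => by show (T.R i).red (d.e i ^ m') = 1; rw [map_pow, he, one_pow]⟩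
  rintro ⟨⟨D, d, rfl, he⟩, hz⟩
  have hp : ((m • D : Divisor.degZero (K := K) (F := F)) : Divisor K F) ∈
      Divisor.principal (K := K) (F := F) := by
    have h : Pic0.mk (m • D) = 0 := hz
    exact AddSubgroup.mem_addSubgroupOf.mp ((QuotientAddGroup.eq_zero_iff _).mp h)
  obtain ⟨g, hg0, hg⟩ := hp
  have hdiv : ∀ P : Place K F, P.ord g = (m : ℤ) * (D : Divisor K F) P := fun P => by
    rw [← hg, AddSubgroupClass.coe_nsmul, Finsupp.smul_apply, nsmul_eq_mul]
  obtain ⟨a, ha⟩ := T.rrF.eq_const_of_ord_nonneg (f := d.f / g ^ m') fun P => by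
    rw [ord_div P d.f_ne (pow_ne_zero _ hg0), ord_pow, d.div_f, hdiv]
    push_cast; ring_nf; exact le_rfl
  have hpow0 : g ^ m' ≠ 0 := pow_ne_zero _ hg0
  rw [div_eq_iff hpow0] at ha
  choose C v hv hCv using fun i => (T.R i).scale g hg0
  have hC0 : ∀ i, C i ≠ 0 := fun i h0 => hg0 (by rw [hCv i, h0, map_zero, zero_mul])
  have hcA : ∀ i, ∃ z : A, (d.e i : F) = algebraMap K F (z : K) * ((v i : (T.R i).O) : F) ^ m' := by
    intro i
    have h : (d.e i : F) = algebraMap K F (d.c i ^ (m * m') * a * C i ^ m') *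
        ((v i ^ m' : (T.R i).O) : F) := by
      rw [d.e_eq, ha, hCv i, SubmonoidClass.coe_pow, map_mul, map_mul, map_pow, map_pow, mul_pow]
      ring
    have hz := (T.R i).mem_of_smul_mem (f := d.e i) (u := v i ^ m')
      (by rw [map_pow]; exact pow_ne_zero _ (hv i)) h
    exact ⟨⟨_, hz⟩, by rw [h, SubmonoidClass.coe_pow]⟩
  choose z hz using hcA
  have hred : ∀ i, ∃ b : k, b ≠ 0 ∧ (T.R i).red (v i) = algebraMap k Fk b := by
    intro i
    have h1 : (1 : Fk) = algebraMap k Fk (π (z i)) * (T.R i).red (v i) ^ m' := by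
      rw [← he i, show d.e i = (T.R i).ι (z i) * v i ^ m' from Subtype.ext (by
        rw [hz i, Subring.coe_mul, RedBase.coe_ι, SubmonoidClass.coe_pow]), map_mul,
        RedBase.red_ι, map_pow]
    have hzi : π (z i) ≠ 0 := fun h0 => one_ne_zero (by
      rw [h1, h0, map_zero, zero_mul] : (1 : Fk) = 0)
    obtain ⟨b, hb⟩ := T.rrK.eq_const_of_ord_nonneg (f := (T.R i).red (v i)) fun Q => by
      have := congrArg Q.ord h1
      rw [Place.ord_one, ord_algebraMap_mul _ hzi, ord_pow] at this
      have hm'' : (m' : ℤ) ≠ 0 := by omega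
      have := (mul_eq_zero.mp this.symm).resolve_left hm''
      omega
    exact ⟨b, fun h0 => hv i (by rw [hb, h0, map_zero]), hb⟩
  choose b hb0 hb using hred
  choose β hβ using fun i => (T.R i).surj_pi (b i)⁻¹
  have hβ0 : ∀ i, (β i : K) ≠ 0 := fun i h0 => inv_ne_zero (hb0 i) (by
    rw [← hβ i, show β i = 0 from Subtype.ext h0, map_zero])
  choose r hr using fun i => IsAlgClosed.exists_pow_nat_eq ((β i : K) / C i) hm
  refine ⟨D, {
    f := g
    f_ne := hg0
    div_f := hdiv
    degree_D := d.degree_D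
    c := r
    c_ne := fun i h0 => div_ne_zero (hβ0 i) (hC0 i) (by rw [← hr i, h0, zero_pow hm.ne'])
    e := fun i => (T.R i).ι (β i) * v i
    e_eq := fun i => by
      rw [Subring.coe_mul, RedBase.coe_ι, ← map_pow, hr, hCv i, ← mul_assoc, ← map_mul,
        div_mul_cancel₀ _ (hC0 i)]
    e_ne := fun i => by
      rw [map_mul, RedBase.red_ι, hβ]
      exact mul_ne_zero ((map_ne_zero _).mpr (inv_ne_zero (hb0 i))) (hv i)
    e_br := fun s i => by
      rw [map_mul, RedBase.red_ι, hβ, hb, ← map_mul, inv_mul_cancel₀ (hb0 i), map_one,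
        Place.ord_one] }, rfl, fun i => ?_⟩
  show (T.R i).red ((T.R i).ι (β i) * v i) = 1
  rw [map_mul, RedBase.red_ι, hβ, hb, ← map_mul, inv_mul_cancel₀ (hb0 i), map_one]

/-- `m`-th roots of unity in the residue field lift to `A`, for `m` prime to the characteristic. -/
theorem exists_lift_root [IsAlgClosed K] (hm : 0 < m) (hmk : (m : k) ≠ 0) {ζ : k}
    (hζ : ζ ^ m = 1) : ∃ z : A, (z : K) ^ m = 1 ∧ π z = ζ := by
  classical
  have : NeZero m := ⟨hm.ne'⟩
  have : NeZero (m : K) := ⟨fun h0 => hmk (by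
    have h : (m : A) = 0 := Subtype.ext (by simpa using h0)
    simpa using congrArg π h)⟩
  obtain ⟨z₁, hz₁⟩ := HasEnoughRootsOfUnity.exists_primitiveRoot K m
  have hmem : z₁ ∈ A := by
    rcases A.mem_or_inv_mem z₁ with h | h
    · exact h
    · have hp : z₁ = z₁⁻¹ ^ (m - 1) := by
        rw [inv_pow]
        refine eq_inv_of_mul_eq_one_left ?_
        rw [← pow_succ', Nat.sub_add_cancel hm, hz₁.pow_eq_one]
      rw [hp]; exact pow_mem h _
  set w : A := ⟨z₁, hmem⟩
  have hw : w ^ m = 1 := Subtype.ext (by rw [SubmonoidClass.coe_pow]; exact hz₁.pow_eq_one)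
  have hprim : IsPrimitiveRoot (π w) m := by
    refine IsPrimitiveRoot.iff hm |>.mpr ⟨by rw [← map_pow, hw, map_one], fun l hl hlm h1 => ?_⟩
    have hne : (w : K) ^ l ≠ 1 := hz₁.pow_ne_one_of_pos_of_lt hl.ne' hlm
    have hsum : ∑ j ∈ Finset.range m, ((w ^ l : A) : K) ^ j = 0 := by
      have := geom_sum_mul ((w ^ l : A) : K) m
      rw [← SubmonoidClass.coe_pow, ← pow_mul, mul_comm l, pow_mul, hw, one_pow,
        OneMemClass.coe_one, sub_self, mul_eq_zero] at this
      refine this.resolve_right (sub_ne_zero.mpr ?_)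
      rwa [SubmonoidClass.coe_pow]
    have hA : ∑ j ∈ Finset.range m, (w ^ l) ^ j = (0 : A) := Subtype.ext (by
      rw [AddSubmonoidClass.coe_finsetSum]; simpa using hsum)
    have := congrArg π hA
    rw [map_sum, map_zero] at this
    simp only [map_pow, h1, one_pow, Finset.sum_const, Finset.card_range, nsmul_eq_mul,
      mul_one] at this
    exact hmk this
  obtain ⟨i, -, hi⟩ := hprim.eq_pow_of_pow_eq_one hζ
  exact ⟨w ^ i, by
    rw [← SubmonoidClass.coe_pow, ← pow_mul, mul_comm, pow_mul, hw, one_pow, OneMemClass.coe_one],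
    by rw [map_pow, hi]⟩

variable {T} in
/-- A torsion class with trivial reductions and constant lines is zero. -/
theorem eq_zero_of_lines_const [IsAlgClosed K] (hm : 0 < m) (hmk : (m : k) ≠ 0)
    (hnt : ∃ t : A, t ≠ 0 ∧ π t = 0) {D : Divisor.degZero (K := K) (F := F)}
    (d : T.NormalData m (D : Divisor K F)) (he : ∀ i, (T.R i).red (d.e i) = 1) (ζ : k)
    (hl : ∀ s, d.lines s = ζ) : Pic0.mk D = 0 := by
  classical
  rcases isEmpty_or_nonempty S with hS | hS
  · exact (QuotientAddGroup.eq_zero_iff _).mpr (AddSubgroup.mem_addSubgroupOf.mpr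
      ((TwoRed.NormalData.toTrivial hm d he fun s => isEmptyElim s).principal hm hmk hnt))
  obtain ⟨s₀⟩ := hS
  have hζ : ζ ^ m = 1 := hl s₀ ▸ d.lines_pow hm he s₀
  have hζ0 : ζ ≠ 0 := hl s₀ ▸ TwoRed.NormalData.lines_ne_zero hm d s₀
  obtain ⟨z, hzm, hz⟩ := exists_lift_root (π := π) hm hmk hζ
  have hz0 : (z : K) ≠ 0 := fun h => by simp [h, zero_pow hm.ne'] at hzm
  let d' : T.NormalData m (D : Divisor K F) :=
    { d with
      c := fun i => (bif i then 1 else (z : K)) * d.c i
      c_ne := fun i => mul_ne_zero (by cases i <;> simp [hz0]) (d.c_ne i)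
      e_eq := fun i => by
        rw [d.e_eq, map_mul, mul_pow]
        cases i <;> simp [← map_pow, hzm] }
  set n := d.bigN + d'.bigN with hn
  obtain ⟨w, hw, hv⟩ := d.exists_test hm (show d.bigN ≤ n by omega)
  have hw0 := hw
  rw [d.image_lines hm (by omega)] at hw0
  let w' : Bool → Fk := fun i => (bif i then (1 : k) else ζ⁻¹) • w i
  have hw' : w' ∈ pairImage T.R d'.c (riemannRochSpace ((D : Divisor K F) + n • T.G)) := by
    obtain ⟨u, hu, h⟩ := hw
    refine ⟨u, hu, fun i => ?_⟩
    obtain ⟨v, hv, hvr⟩ := h i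
    cases i
    · have hzi : (z : K)⁻¹ ∈ A := inv_mem_of_pi_ne_zero (T.R false).surj_pi (hz ▸ hζ0)
      refine ⟨(T.R false).ι ⟨_, hzi⟩ * v, ?_, ?_⟩
      · show algebraMap K F ((z : K) * d.c false) * _ = u
        rw [Subring.coe_mul, RedBase.coe_ι, ← hv, map_mul, map_inv₀]
        field_simp [(map_ne_zero (algebraMap K F)).mpr hz0]
      · rw [map_mul, RedBase.red_ι, hvr]
        show algebraMap k Fk (π ⟨_, hzi⟩) * w false = ζ⁻¹ • w false
        rw [Algebra.smul_def]
        refine congrArg (fun t => algebraMap k Fk t * w false) (eq_inv_of_mul_eq_one_left ?_)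
        rw [← hz, ← map_mul]
        exact (congrArg π (Subtype.ext (inv_mul_cancel₀ hz0))).trans (map_one π)
    · refine ⟨v, ?_, ?_⟩
      · show algebraMap K F (1 * d.c true) * _ = u
        rw [one_mul, hv]
      · show (T.R true).red v = (1 : k) • w true
        rw [one_smul, hvr]
  have hl' : ∀ s, d'.lines s = 1 := fun s => by
    have h := d'.lines_eq_of_mem hm (show d'.bigN ≤ n by omega) hw' s
    simp only [w', cond_false, cond_true, one_smul] at h
    rw [ev_smul (T.deg_br s false) _ (hw0.2.1 s _), (hv s).1, (hv s).2, mul_one, hl,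
      inv_mul_cancel₀ hζ0] at h
    exact h.symm
  exact (QuotientAddGroup.eq_zero_iff _).mpr (AddSubgroup.mem_addSubgroupOf.mpr
    ((TwoRed.NormalData.toTrivial hm d' he hl').principal hm hmk hnt))

/-- **The lines bound.** There are at most `m ^ (#S - 1)` toric classes of order `m`. -/
theorem natCard_t00_le [IsAlgClosed K] (hm : 0 < m) (hmk : (m : k) ≠ 0)
    (hnt : ∃ t : A, t ≠ 0 ∧ π t = 0) :
    Finite (t00 T m) ∧ Nat.card (t00 T m) ≤ m ^ (Fintype.card S - 1) := by
  classical
  choose D d hD he using fun y : t00 T m => y.2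
  have : NeZero m := ⟨hm.ne'⟩
  have key : ∀ y y' : t00 T m, (∃ ζ, ∀ s, (d y).lines s = ζ * (d y').lines s) → y = y' := by
    rintro y y' ⟨ζ, h⟩
    refine Subtype.ext ?_
    rw [← hD y, ← hD y', ← sub_eq_zero, show Pic0.mk (D y) - Pic0.mk (D y') =
      Pic0.mk (D y - D y') from (map_sub (QuotientAddGroup.mk'
        ((Divisor.principal (K := K) (F := F)).addSubgroupOf
          (Divisor.degZero (K := K) (F := F)))) _ _).symm]
    refine eq_zero_of_lines_const hm hmk hnt (((d y).mul (d y').inv).copy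
      (by rw [AddSubgroupClass.coe_sub, sub_eq_add_neg])) (fun i => ?_) ζ fun s => ?_
    · show (T.R i).red (((d y).mul (d y').inv).e i) = 1
      rw [TwoRed.NormalData.red_e_mul, TwoRed.NormalData.red_e_inv, he, he, inv_one, mul_one]
    · rw [TwoRed.NormalData.lines_copy, TwoRed.NormalData.lines_mul hm,
        TwoRed.NormalData.lines_inv hm, h s,
        mul_inv_cancel_right₀ (TwoRed.NormalData.lines_ne_zero hm (d y') s)]
  rcases isEmpty_or_nonempty S with hS | hS
  · have : Subsingleton (t00 T m) := ⟨fun y y' => key y y' ⟨1, fun s => isEmptyElim s⟩⟩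
    refine ⟨inferInstance, ?_⟩
    rw [Nat.card_eq_one_iff_unique.mpr ⟨this, ⟨0⟩⟩]
    exact Nat.one_le_pow _ _ hm
  obtain ⟨s₀⟩ := hS
  let φ : t00 T m → ({s // s ≠ s₀} → rootsOfUnity m k) := fun y s =>
    rootsOfUnity.mkOfPowEq ((d y).lines s / (d y).lines s₀) (by
      rw [div_pow, (d y).lines_pow hm (he y), (d y).lines_pow hm (he y), div_one])
  have hφ : Function.Injective φ := fun y y' h => key y y' ⟨(d y).lines s₀ / (d y').lines s₀, by
    intro s
    have hne := TwoRed.NormalData.lines_ne_zero hm (d y')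
    have hne' := TwoRed.NormalData.lines_ne_zero hm (d y)
    by_cases hs : s = s₀
    · rw [hs, div_mul_cancel₀ _ (hne s₀)]
    · have h2 := congrArg (fun t : rootsOfUnity m k => ((t : kˣ) : k)) (congrFun h ⟨s, hs⟩)
      simp only [φ, rootsOfUnity.coe_mkOfPowEq] at h2
      rw [div_eq_div_iff (hne' s₀) (hne s₀)] at h2
      field_simp [hne s₀]
      linear_combination h2⟩
  refine ⟨Finite.of_injective φ hφ, (Nat.card_le_card_of_injective φ hφ).trans ?_⟩
  have : Fintype (rootsOfUnity m k) := Fintype.ofFinite _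
  rw [Nat.card_fun, Nat.card_eq_fintype_card (α := {s // s ≠ s₀}), Fintype.card_subtype_compl,
    Fintype.card_subtype_eq, Nat.card_eq_fintype_card]
  exact Nat.pow_le_pow_left (by
    rw [← Nat.card_eq_fintype_card]; exact card_rootsOfUnity k m) _

end toric

section slopes

variable {T : TwoRed A π F Fk S} (Ud : UnitData T) {m : ℕ}

/-- The degree as a sum over any set containing the support. -/
theorem degree_apply {g : ℕ} (h : RR k Fk g) (E : Divisor k Fk) (s : Finset (Place k Fk))
    (hs : E.support ⊆ s) : Divisor.degree E = ∑ Q ∈ s, E Q := by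
  rw [← Finset.sum_subset hs fun Q _ hQ => Finsupp.notMem_support_iff.mp hQ]
  simp [Divisor.degree, Finsupp.liftAddHom_apply, h.deg_one, Finsupp.sum]

/-- An `m`-torsion class is that of a divisor `D` with `m D` the divisor of a function. -/
theorem exists_div_data {y : Pic0 K F} (hy : m • y = 0) :
    ∃ (D : Divisor.degZero (K := K) (F := F)) (f : F), Pic0.mk D = y ∧ f ≠ 0 ∧
      ∀ P : Place K F, P.ord f = (m : ℤ) * (D : Divisor K F) P := by
  obtain ⟨D, rfl⟩ := Pic0.mk_surjective y
  have hp : ((m • D : Divisor.degZero (K := K) (F := F)) : Divisor K F) ∈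
      Divisor.principal (K := K) (F := F) := by
    have h : Pic0.mk (m • D) = 0 := hy
    exact AddSubgroup.mem_addSubgroupOf.mp ((QuotientAddGroup.eq_zero_iff _).mp h)
  obtain ⟨f, hf0, hf⟩ := hp
  exact ⟨D, f, rfl, hf0, fun P => by
    rw [← hf, AddSubgroupClass.coe_nsmul, Finsupp.smul_apply, nsmul_eq_mul]⟩

include Ud in
/-- Off the nodes the reduced orders of torsion data are divisible; at a node they are opposite. -/
theorem redOrd_node_off_dvd [IsAlgClosed K] (hm : 0 < m) {D : Divisor.degZero (K := K) (F := F)}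
    {f : F} (hf : f ≠ 0) (hdiv : ∀ P : Place K F, P.ord f = (m : ℤ) * (D : Divisor K F) P) :
    (∀ s, (m : ℤ) ∣ redOrd (T.R false) f (T.br s false) + redOrd (T.R true) f (T.br s true)) ∧
      ∀ i Q, (∀ s, T.br s i ≠ Q) → (m : ℤ) ∣ redOrd (T.R i) f Q := by
  classical
  choose γ u hu hfu using fun i => (T.R i).scale f hf
  have hγ : ∀ i, γ i ≠ 0 := fun i h0 => hf (by rw [hfu i, h0, map_zero, zero_mul])
  have hord : ∀ i Q, redOrd (T.R i) f Q = Q.ord ((T.R i).red (u i)) := fun i Q =>
    redOrd_eq (T.R i) hf (hu i) (hfu i) Q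
  have data : ∀ τ : ℤ, ∃ d : WData Ud m (D : Divisor K F) τ,
      ∀ i P, d.a i P = P.ord ((T.R i).red (u i)) := by
    intro τ
    have hw : ∀ i, Ud.wt τ i / γ i ≠ 0 := fun i => div_ne_zero (Ud.wt_ne τ i) (hγ i)
    choose c hc using fun i => IsAlgClosed.exists_pow_nat_eq (Ud.wt τ i / γ i) hm
    exact ⟨{
      f := f, f_ne := hf, div_f := hdiv
      degree_D := Divisor.mem_degZero.mp D.2
      c := c
      c_ne := fun i h0 => hw i (by rw [← hc i, h0, zero_pow hm.ne'])
      e := u
      e_eq := fun i => by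
        rw [← map_pow, hc, hfu i, ← mul_assoc, ← map_mul, div_mul_cancel₀ _ (hγ i)]
      e_ne := hu }, fun i P => rfl⟩
  refine ⟨fun s => ?_, fun i Q hQ => ?_⟩
  · obtain ⟨d, hd⟩ := data (redOrd (T.R false) f (T.br s false))
    have hs : s ∈ d.J := d.mem_J_of_dvd hm (i := false)
      (by rw [hd, ← hord, sgn_false, one_mul, sub_self]; exact dvd_zero _)
    have h := d.mem_J.mp hs true
    rw [hd, ← hord, sgn_true, neg_one_mul, sub_neg_eq_add, add_comm] at h
    exact h
  · obtain ⟨d, hd⟩ := data 0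
    rw [hord, ← hd]
    exact (d.excess_eq_zero hm).1 i Q hQ

/-- Slopes sum to zero over the nodes when the orders elsewhere are divisible. -/
theorem dvd_sum_slopes (T : TwoRed A π F Fk S) {m : ℕ} {f : F} (hf : f ≠ 0)
    (hoff : ∀ Q, (∀ s, T.br s false ≠ Q) → (m : ℤ) ∣ redOrd (T.R false) f Q) :
    (m : ℤ) ∣ ∑ s, redOrd (T.R false) f (T.br s false) := by
  classical
  obtain ⟨c, hu, -⟩ := unitPart_spec (T.R false) hf
  obtain ⟨E, hE, hdeg⟩ := T.rrK.exists_div _ hu
  set s' := Finset.univ.image fun s => T.br s false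
  rw [degree_apply T.rrK _ (E.support ∪ s') Finset.subset_union_left,
    ← Finset.sdiff_union_of_subset (Finset.subset_union_right (s₁ := E.support) (s₂ := s')),
    Finset.sum_union Finset.sdiff_disjoint] at hdeg
  have hE' : ∀ Q, E Q = redOrd (T.R false) f Q := hE
  have hoff' : (m : ℤ) ∣ ∑ Q ∈ (E.support ∪ s') \ s', E Q :=
    Finset.dvd_sum fun Q hQ => by
      rw [hE']
      exact hoff Q fun s hs => (Finset.mem_sdiff.mp hQ).2
        (Finset.mem_image.mpr ⟨s, Finset.mem_univ _, hs⟩)
  have hon : ∑ Q ∈ s', E Q = ∑ s, redOrd (T.R false) f (T.br s false) := by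
    rw [Finset.sum_image fun a _ b _ h => T.br_inj false h]
    exact Finset.sum_congr rfl fun s _ => hE' _
  rw [← hon]
  exact (dvd_add_right hoff').mp (by rw [hdeg]; exact dvd_zero _)

/-- Given the slope relations, the `m`-torsion is at most `m ^ (#S - 1)` times the slope-zero
part. -/
theorem natCard_torsion_le_of [Nonempty S] (T : TwoRed A π F Fk S) {m : ℕ}
    (hm : 0 < m) [Finite (Pic0.torsion K F m)]
    (hrel : ∀ (D : Divisor.degZero (K := K) (F := F)) (f : F), f ≠ 0 →
      (∀ P : Place K F, P.ord f = (m : ℤ) * (D : Divisor K F) P) →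
      (∀ s, (m : ℤ) ∣ redOrd (T.R false) f (T.br s false) + redOrd (T.R true) f (T.br s true)) ∧
        ∀ i Q, (∀ s, T.br s i ≠ Q) → (m : ℤ) ∣ redOrd (T.R i) f Q) :
    Nat.card (Pic0.torsion K F m) ≤ m ^ (Fintype.card S - 1) * Nat.card (T.T0 m) := by
  classical
  have : NeZero m := ⟨hm.ne'⟩
  have hmem : ∀ x : Pic0 K F, x ∈ Pic0.torsion K F m ↔ m • x = 0 := fun x => by
    show x ∈ Submodule.torsionBy ℤ (Pic0 K F) (m : ℤ) ↔ _
    rw [Submodule.mem_torsionBy_iff, natCast_zsmul]
  have : Finite (T.T0 m) := Finite.of_injective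
    (fun x : T.T0 m => (⟨x, (hmem _).mpr x.2.nsmul_eq_zero⟩ : Pic0.torsion K F m))
    fun a b h => by
      have := congrArg Subtype.val h
      exact Subtype.ext this
  choose D f hD hf hdiv using fun y : Pic0.torsion K F m => exists_div_data ((hmem y).mp y.2)
  obtain ⟨s₀⟩ := ‹Nonempty S›
  let σ : Pic0.torsion K F m → ({s // s ≠ s₀} → ZMod m) := fun y s =>
    (redOrd (T.R false) (f y) (T.br s false) : ZMod m)
  have hfib : ∀ y y', σ y = σ y' → (y : Pic0 K F) - y' ∈ T.T0 m := by
    intro y y' h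
    have hall : ∀ s, (m : ℤ) ∣
        redOrd (T.R false) (f y) (T.br s false) - redOrd (T.R false) (f y') (T.br s false) := by
      have hne : ∀ s, s ≠ s₀ → (m : ℤ) ∣
          redOrd (T.R false) (f y) (T.br s false) - redOrd (T.R false) (f y') (T.br s false) :=
        fun s hs => (ZMod.intCast_eq_intCast_iff_dvd_sub _ _ _).mp (congrFun h ⟨s, hs⟩).symm
      intro s
      by_cases hs : s = s₀
      · subst hs
        have h2 := dvd_sub
          (dvd_sum_slopes T (hf y) ((hrel _ _ (hf y) (hdiv y)).2 false))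
          (dvd_sum_slopes T (hf y') ((hrel _ _ (hf y') (hdiv y')).2 false))
        rw [← Finset.sum_sub_distrib, ← Finset.add_sum_erase _ _ (Finset.mem_univ s)] at h2
        exact (dvd_add_left (Finset.dvd_sum fun t ht => hne t (Finset.ne_of_mem_erase ht))).mp h2
      · exact hne s hs
    refine ⟨D y - D y', f y / f y', ?_, div_ne_zero (hf y) (hf y'), fun P => ?_, fun s i => ?_⟩
    · rw [← hD y, ← hD y']; exact map_sub (QuotientAddGroup.mk' _) _ _
    · rw [ord_div P (hf y) (hf y'), hdiv, hdiv, AddSubgroupClass.coe_sub, Finsupp.sub_apply,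
        mul_sub]
    · rw [div_eq_mul_inv, redOrd_mul _ (hf y) (inv_ne_zero (hf y')), redOrd_inv _ (hf y'),
        ← sub_eq_add_neg]
      cases i
      · exact hall s
      · have h1 := dvd_sub (dvd_sub ((hrel _ _ (hf y) (hdiv y)).1 s)
          ((hrel _ _ (hf y') (hdiv y')).1 s)) (hall s)
        rw [add_sub_add_comm, add_sub_cancel_left] at h1
        exact h1
  have : Fintype (Pic0.torsion K F m) := Fintype.ofFinite _
  choose rep hrep using fun v : Set.range σ => v.2
  let Φ : Pic0.torsion K F m → Set.range σ × T.T0 m := fun y =>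
    (⟨σ y, y, rfl⟩, ⟨(y : Pic0 K F) - rep ⟨σ y, y, rfl⟩, hfib _ _ (hrep ⟨σ y, y, rfl⟩).symm⟩)
  have hΦ : Function.Injective Φ := fun y y' h => by
    have h1 := congrArg Prod.fst h
    have h2 : (y : Pic0 K F) - rep ⟨σ y, y, rfl⟩ = y' - rep ⟨σ y', y', rfl⟩ :=
      congrArg (fun t => (t.2 : Pic0 K F)) h
    simp only [Φ] at h1
    rw [show (rep ⟨σ y, y, rfl⟩) = rep ⟨σ y', y', rfl⟩ from congrArg rep h1, sub_left_inj] at h2
    exact Subtype.ext h2
  refine (Nat.card_le_card_of_injective Φ hΦ).trans ?_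
  rw [Nat.card_prod]
  refine Nat.mul_le_mul_right _ ((Nat.card_le_card_of_injective _ Subtype.val_injective).trans ?_)
  rw [Nat.card_fun, Nat.card_zmod, Nat.card_eq_fintype_card, Fintype.card_subtype_compl,
    Fintype.card_subtype_eq]

include Ud in
/-- **The slope bound.** Modulo slope zero there are at most `m ^ (#S - 1)` classes of order `m`. -/
theorem natCard_torsion_le [IsAlgClosed K] [Nonempty S] (hm : 0 < m)
    [Finite (Pic0.torsion K F m)] :
    Nat.card (Pic0.torsion K F m) ≤ m ^ (Fintype.card S - 1) * Nat.card (T.T0 m) :=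
  natCard_torsion_le_of T hm fun _ _ hf hdiv => redOrd_node_off_dvd Ud hm hf hdiv

end slopes

section divisible

/-- Toric divisibility from the bound on the slopes. -/
theorem exists_toric_nsmul_eq_of_slopeBound [IsAlgClosed K] [Nonempty S] {T : TwoRed A π F Fk S}
    {p : ℕ} (hp : p.Prime) (hpk : (p : k) ≠ 0) (hnt : ∃ t : A, t ≠ 0 ∧ π t = 0)
    (htors : ∀ n, Nat.card (Pic0.torsion K F (p ^ n)) = p ^ (2 * T.g * n))
    {B : Type*} [AddCommGroup B] (push : Pic0 K F →+ B)
    (hB : ∀ n, Nat.card {b : B // p ^ n • b = 0} ≤ p ^ (4 * T.gk * n) ∧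
      Finite {b : B // p ^ n • b = 0})
    {c C : ℕ} (hC : ∀ n, Nat.card {x : Pic0 K F // p ^ n • x = 0 ∧ c • x = 0} ≤ C)
    (hsl : ∀ n, Nat.card (Pic0.torsion K F (p ^ n)) ≤
      (p ^ n) ^ (Fintype.card S - 1) * Nat.card (T.T0 (p ^ n)))
    (hker : ∀ n, ∀ x, T.InT0 (p ^ n) x → push x = 0 → T.InT00 (p ^ n) (c • x))
    (n : ℕ) {y : Pic0 K F} (hy : T.InT00 p y) :
    ∃ z, T.InT00 (p ^ (n + 1)) z ∧ p ^ n • z = y := by
  classical
  have : Fact p.Prime := ⟨hp⟩
  have hpos : ∀ n, 0 < p ^ n := fun n => pow_pos hp.pos n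
  have hmk : ∀ n, ((p ^ n : ℕ) : k) ≠ 0 := fun n => by rw [Nat.cast_pow]; exact pow_ne_zero _ hpk
  have hW : ∀ n, Finite (t00 T (p ^ n)) := fun n => (natCard_t00_le T (hpos n) (hmk n) hnt).1
  have htf : ∀ n, Finite (Pic0.torsion K F (p ^ n)) := fun n => by
    refine Nat.finite_of_card_ne_zero ?_
    rw [htors n]
    exact pow_ne_zero _ hp.pos.ne'
  have hmem : ∀ (n : ℕ) (x : Pic0 K F), x ∈ Pic0.torsion K F (p ^ n) ↔ p ^ n • x = 0 :=
    fun n x => by
      show x ∈ Submodule.torsionBy ℤ (Pic0 K F) ((p ^ n : ℕ) : ℤ) ↔ _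
      rw [Submodule.mem_torsionBy_iff, natCast_zsmul]
  have hT0 : ∀ n, Finite (T.T0 (p ^ n)) := fun n => Finite.of_injective
    (fun x : T.T0 (p ^ n) => (⟨x, (hmem n _).mpr x.2.nsmul_eq_zero⟩ : Pic0.torsion K F (p ^ n)))
    fun a b h => by
      have := congrArg Subtype.val h
      exact Subtype.ext this
  set d := Fintype.card S - 1 with hd
  have hlow : ∀ n, p ^ (n * d) ≤ C * Nat.card (t00 T (p ^ n)) := by
    intro n
    set H := T.T0 (p ^ n)
    set f : H →+ B := push.comp H.subtype
    have := (hB n).2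
    have hr : Nat.card f.range ≤ p ^ (4 * T.gk * n) := by
      have hmem' : ∀ b : f.range, p ^ n • (b : B) = 0 := by
        rintro ⟨_, x, rfl⟩
        show p ^ n • push (x : Pic0 K F) = 0
        rw [← map_nsmul, x.2.nsmul_eq_zero, map_zero]
      refine (Nat.card_le_card_of_injective
        (fun b : f.range => (⟨(b : B), hmem' b⟩ : {b : B // p ^ n • b = 0})) ?_).trans (hB n).1
      intro a b h
      have := congrArg Subtype.val h
      exact Subtype.ext this
    have hker' : Nat.card f.ker ≤ C * Nat.card (t00 T (p ^ n)) := by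
      have : Finite {x : Pic0 K F // p ^ n • x = 0 ∧ c • x = 0} := Finite.of_injective
        (fun x : {x : Pic0 K F // p ^ n • x = 0 ∧ c • x = 0} =>
          (⟨x.1, (hmem n _).mpr x.2.1⟩ : Pic0.torsion K F (p ^ n))) fun a b h => by
          have := congrArg Subtype.val h
          exact Subtype.ext this
      let g : f.ker →+ t00 T (p ^ n) :=
        ((nsmulAddMonoidHom c).comp (H.subtype.comp f.ker.subtype)).codRestrict _
          fun x => hker n _ (x : H).2 x.2
      have h1 : Nat.card g.ker ≤ C :=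
        (Nat.card_le_card_of_injective (fun x : g.ker =>
          (⟨((x : f.ker) : H).1, ((x : f.ker) : H).2.nsmul_eq_zero,
            congrArg Subtype.val x.2⟩ : {x : Pic0 K F // p ^ n • x = 0 ∧ c • x = 0}))
          fun a b h => by
            have := congrArg Subtype.val h
            exact Subtype.ext (Subtype.ext (Subtype.ext this))).trans (hC n)
      calc Nat.card f.ker = g.ker.index * Nat.card g.ker :=
            (AddSubgroup.index_mul_card g.ker).symm
        _ = Nat.card g.range * Nat.card g.ker := by rw [AddSubgroup.index_ker]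
        _ ≤ Nat.card (t00 T (p ^ n)) * C := Nat.mul_le_mul
            (Nat.card_le_card_of_injective _ g.range.subtype_injective) h1
        _ = _ := mul_comm _ _
    have hH : Nat.card H ≤ p ^ (4 * T.gk * n) * (C * Nat.card (t00 T (p ^ n))) :=
      calc Nat.card H = f.ker.index * Nat.card f.ker := (AddSubgroup.index_mul_card f.ker).symm
        _ = Nat.card f.range * Nat.card f.ker := by rw [AddSubgroup.index_ker]
        _ ≤ _ := Nat.mul_le_mul hr hker'
    have hs := hsl n
    rw [htors n, ← pow_mul] at hs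
    have htot := hs.trans (Nat.mul_le_mul_left _ hH)
    rw [← mul_assoc, ← pow_add] at htot
    have hg : 2 * T.g * n = n * d + (n * d + 4 * T.gk * n) := by
      have h := T.genus_eq
      have hS : 0 < Fintype.card S := Fintype.card_pos
      have : T.g = 2 * T.gk + d := by omega
      rw [this]; ring
    rw [hg, pow_add, mul_comm (p ^ (n * d)) (p ^ _)] at htot
    exact Nat.le_of_mul_le_mul_left htot (hpos _)
  have hiff : ∀ a b : ℕ, ∀ x, x ∈ t00 T (p ^ a) ↔ x ∈ t00 T (p ^ (a + b)) ∧ p ^ a • x = 0 :=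
    fun a b x => by rw [pow_add]; exact mem_t00_mul_iff T (hpos a) (hpos b)
  obtain ⟨z, hz, hzy⟩ := exists_nsmul_eq_of_natCard (fun n => t00 T (p ^ n))
    (fun n _ hx => nsmul_eq_zero_of_mem T hx) hiff hp.one_lt
    (by
      have h := (natCard_t00_le T (m := p) hp.pos hpk hnt).2
      simpa [pow_one] using h)
    hlow n (y := y) (by simpa [pow_one, mem_t00] using hy)
  exact ⟨z, hz, hzy⟩

end divisible

end Fermat.Agent.LevelLowering.MonodromyExact
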