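import Fermat.Agent.FF.Modular
import Fermat.Agent.Hecke.Curves
import Fermat.Agent.LevelLowering.MonodromyExact.FixedPic
import Fermat.Agent.LevelLowering.MonodromyExact.Frob
import Fermat.Agent.LevelLowering.MonodromyExact.Toric
import Fermat.Agent.Tors.Main
import Fermat.Agent.TwoComponent.ModelDegen
import Fermat.Agent.TwoComponent.Trace

/-!
# The toric classes of `J₀(M q)` at `q` are divisible

A class of slope zero killed by the two pushforwards to level `M` has reduced classes fixed by the
square of Frobenius, hence killed by a fixed integer.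
-/

noncomputable section

open ModularCurve AlgebraicCurve Fermat.Agent.Red Fermat.Agent.TwoComponent

namespace Fermat.Agent.LevelLowering.MonodromyExact

local notation "Qb" => AlgebraicClosure ℚ

section push

variable {K F F' : Type*} [Field K] [IsAlgClosed K] [Field F] [Algebra K F] [Field F']
  [Algebra K F'] [FF.IsFunctionField K F] [FF.IsFunctionField K F']
variable (φ : F →ₐ[K] F') (hint : φ.toRingHom.IsIntegral)

/-- Pushforward of classes along a map of function fields. -/
def pushAlong (hfin : FiniteAlong K φ) (hN : NormFormulaAlong K φ hfin) :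
    Pic0 K F' →+ Pic0 K F :=
  letI := algebraAlong φ
  haveI := isScalarTower_along φ
  haveI := isIntegral_along φ hint
  haveI : Module.Finite F F' := hfin
  Pic0.pushforwardHom K F F' hN

omit [IsAlgClosed K] [FF.IsFunctionField K F] [FF.IsFunctionField K F'] in
/-- A class killed by the pushforward has principal pushed divisor. -/
theorem pushforward_principal_of_pushAlong (hfin : FiniteAlong K φ)
    (hN : NormFormulaAlong K φ hfin) {D : Divisor.degZero (K := K) (F := F')}
    (h : pushAlong φ hint hfin hN (Pic0.mk D) = 0) :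
    Divisor.pushforwardAlong φ hint (D : Divisor K F') ∈ Divisor.principal (K := K) (F := F) := by
  let := algebraAlong φ
  have := isScalarTower_along φ
  have := isIntegral_along φ hint
  have : Module.Finite F F' := hfin
  exact AddSubgroup.mem_addSubgroupOf.mp ((QuotientAddGroup.eq_zero_iff _).mp h)

end push

variable (M q : ℕ) [hq : Fact q.Prime] [NeZero M] (hqM : ¬ q ∣ M)
variable {A : ValuationSubring (AlgebraicClosure ℚ)} {k : Type*} [Field k] {π : A →+* k}
variable [CharP k q] [IsAlgClosed k]
variable (hres : ResidueAt A q π)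
  (hgen : genusFF Qb (modularFunctionFieldBar M) ≤ genusFF k (CK M k))

omit [NeZero M] in
theorem frobC_smul_jbC : frobC M q (k := k) • (jbC M : CK M k) = jbC M := by
  refine Subtype.ext ?_
  rw [frobC_eq, EichlerShimura.coe_coeffSemilinear_smul]
  show coeffMap _ (Igusa.jv (1 : kˣ) 1) = Igusa.jv (1 : kˣ) 1
  rw [Igusa.coeffMap_jv _ _ one_ne_zero, map_one]

omit [NeZero M] in
theorem baseAut_frobC_pow (n : ℕ) (c : k) :
    SemilinearAut.baseAut (frobC M q (k := k) ^ n) c = c ^ q ^ n := by
  induction n with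
  | zero => rw [pow_zero, SemilinearAut.baseAut_one, pow_zero, pow_one]; rfl
  | succ n ih =>
    rw [pow_succ', SemilinearAut.baseAut_mul]
    show frobK q k (SemilinearAut.baseAut (frobC M q (k := k) ^ n) c) = _
    rw [ih, frobK_apply, ← pow_mul, pow_succ]

omit [NeZero M] in
include hqM in
/-- A positive integer killing every class fixed by the square of Frobenius. -/
theorem exists_kill_fixed : ∃ c : ℕ, 0 < c ∧ ∀ C : Pic0 k (CK M k),
    frobC M q (k := k) • frobC M q (k := k) • C = C → c • C = 0 := by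
  have := isFunctionField_CK (k := k) M q hqM
  have hj2 : (frobC M q (k := k) * frobC M q (k := k)) • (jbC M : CK M k) = jbC M := by
    rw [mul_smul, frobC_smul_jbC, frobC_smul_jbC]
  have hfin := finite_fixed_pic0 (frobC M q (k := k) * frobC M q (k := k))
    (transcendental_jbC M) hj2 fun e he => by
      rw [← sq, ← pow_mul]
      simp only [baseAut_frobC_pow]
      have hn : 1 < q ^ (2 * e) := Nat.one_lt_pow (by omega) hq.out.one_lt
      refine (Polynomial.finite_setOfPred_isRoot
        (p := (Polynomial.X ^ q ^ (2 * e) - Polynomial.X : Polynomial k)) ?_).subset fun c hc => by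
          simpa [Polynomial.IsRoot, sub_eq_zero] using hc
      exact FiniteField.X_pow_card_sub_X_ne_zero k hn
  let G : AddSubgroup (Pic0 k (CK M k)) :=
    { carrier := {C | (frobC M q (k := k) * frobC M q (k := k)) • C = C}
      zero_mem' := smul_zero _
      add_mem' := fun {a b} (ha : _ = a) (hb : _ = b) => by
        show _ = a + b
        rw [smul_add, ha, hb]
      neg_mem' := fun {a} (ha : _ = a) => by
        show _ = -a
        rw [smul_neg, ha] }
  have : Finite G := hfin.to_subtype
  refine ⟨Nat.card G, Nat.card_pos, fun C hC => ?_⟩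
  have h := congrArg Subtype.val (card_nsmul_eq_zero' (x := (⟨C, by
    show (_ * _) • C = C
    rw [mul_smul]; exact hC⟩ : G)))
  rwa [AddSubgroup.coe_nsmul] at h

/-- The order of the `m`-torsion of `J₀(M q)`. -/
theorem natCard_torsion_FN {m : ℕ} (hm : 0 < m) :
    Nat.card (Pic0.torsion Qb (FN M q) m) = m ^ (2 * genusFF Qb (FN M q)) :=
  Tors.natCard_torsion Qb (FN M q) hm

/-- **Toric divisibility on the model.** -/
theorem exists_nsmul_eq_model [Nonempty (Node M q hqM hres hgen)] {p : ℕ} (hp : p.Prime)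
    (hpq : p ≠ q)
    (hsl : ∀ n, Nat.card (Pic0.torsion Qb (FN M q) (p ^ n)) ≤
      (p ^ n) ^ (Fintype.card (Node M q hqM hres hgen) - 1) *
        Nat.card ((modelTwoRed M q hqM hres hgen).T0 (p ^ n)))
    (n : ℕ) {y : JZero (M * q)} (hy : (modelTwoRed M q hqM hres hgen).InT00 p y) :
    ∃ z : JZero (M * q), (modelTwoRed M q hqM hres hgen).InT00 (p ^ (n + 1)) z ∧
      p ^ n • z = y := by
  have hpk : (p : k) ≠ 0 := fun h => hpq
    ((Nat.prime_dvd_prime_iff_eq hq.out hp).mp ((CharP.cast_eq_zero_iff k q p).mp h)).symm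
  set T := modelTwoRed M q hqM hres hgen
  set G₀ := degenAlpha M q hqM hres hgen
  set G₁ := degenBeta M q hqM hres hgen
  have hi₀ : G₀.φ.toRingHom.IsIntegral := Hecke.isIntegralAlong _
  have hi₁ : G₁.φ.toRingHom.IsIntegral := Hecke.isIntegralAlong _
  have hf₀ : FiniteAlong Qb G₀.φ := Hecke.finiteAlong _
  have hf₁ : FiniteAlong Qb G₁.φ := Hecke.finiteAlong _
  have hn₀ : NormFormulaAlong Qb G₀.φ hf₀ := Hecke.normFormulaAlong _ _
  have hn₁ : NormFormulaAlong Qb G₁.φ hf₁ := Hecke.normFormulaAlong _ _
  have hconst : ∀ h : modularFunctionFieldBar M,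
      (∀ v : Place Qb (modularFunctionFieldBar M), 0 ≤ v.ord h) →
      ∃ c : Qb, h = algebraMap Qb (modularFunctionFieldBar M) c := fun h hh => by
    obtain ⟨c, hc⟩ := FF.mem_range_of_ord_nonneg hh
    exact ⟨c, hc.symm⟩
  obtain ⟨c, hc0, hc⟩ := exists_kill_fixed (k := k) M q hqM
  let push : Pic0 Qb (FN M q) →+ JZero M × JZero M :=
    (pushAlong G₀.φ hi₀ hf₀ hn₀).prod (pushAlong G₁.φ hi₁ hf₁ hn₁)
  have hgB : genusFF Qb (modularFunctionFieldBar M) ≤ T.gk := hgen
  have hcB : ∀ n, Nat.card {x : JZero M // p ^ n • x = 0} ≤ p ^ (2 * T.gk * n) ∧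
      Finite {x : JZero M // p ^ n • x = 0} := fun n => by
    have h : Nat.card {x : JZero M // p ^ n • x = 0} =
        p ^ (2 * genusFF Qb (modularFunctionFieldBar M) * n) := by
      rw [pow_mul, ← pow_mul, mul_comm, pow_mul,
        ← Tors.natCard_torsion Qb (modularFunctionFieldBar M) (pow_pos hp.pos n)]
      exact Nat.card_congr (Equiv.subtypeEquivRight fun x => by
        show _ ↔ x ∈ Submodule.torsionBy ℤ _ ((p ^ n : ℕ) : ℤ)
        rw [Submodule.mem_torsionBy_iff, natCast_zsmul])
    exact ⟨h ▸ Nat.pow_le_pow_right hp.pos (by gcongr),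
      Nat.finite_of_card_ne_zero (h ▸ pow_ne_zero _ hp.ne_zero)⟩
  have htc : Finite (Pic0.torsion Qb (FN M q) c) :=
    Nat.finite_of_card_ne_zero (by rw [natCard_torsion_FN M q hc0]; exact pow_ne_zero _ hc0.ne')
  refine exists_toric_nsmul_eq_of_slopeBound (T := T) hp hpk (exists_nontrivial_ker q)
    (fun n => (natCard_torsion_FN M q (pow_pos hp.pos n)).trans
      ((pow_mul _ _ _).symm.trans (by rw [mul_comm]; rfl)))
    push (fun n => ?_) (c := c) (C := Nat.card (Pic0.torsion Qb (FN M q) c))
    (fun n => Nat.card_le_card_of_injective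
      (fun x => (⟨x.1, by
        show x.1 ∈ Submodule.torsionBy ℤ _ ((c : ℕ) : ℤ)
        rw [Submodule.mem_torsionBy_iff, natCast_zsmul]; exact x.2.2⟩ :
          Pic0.torsion Qb (FN M q) c))
      fun a b h => Subtype.ext (congrArg (fun z => (z.1 : Pic0 Qb (FN M q))) h))
    hsl (fun n x hx hpx => ?_) n hy
  · let f : {b : JZero M × JZero M // p ^ n • b = 0} →
        {x : JZero M // p ^ n • x = 0} × {x : JZero M // p ^ n • x = 0} :=
      fun b => (⟨b.1.1, congrArg Prod.fst b.2⟩, ⟨b.1.2, congrArg Prod.snd b.2⟩)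
    have hf : Function.Injective f := fun a b h => Subtype.ext
      (Prod.ext (congrArg (fun z => z.1.1) h) (congrArg (fun z => z.2.1) h))
    have := (hcB n).2
    refine ⟨(Nat.card_le_card_of_injective f hf).trans ?_, Finite.of_injective f hf⟩
    rw [Nat.card_prod, show 4 * T.gk * n = 2 * T.gk * n + 2 * T.gk * n by ring, pow_add]
    exact Nat.mul_le_mul (hcB n).1 (hcB n).1
  · have hm : 0 < p ^ n := pow_pos hp.pos n
    obtain ⟨D, d, rfl⟩ := TwoRed.InT0.exists_data hm hx
    have r₀ := G₀.E_rel hconst hi₀ hf₀ hn₀ hm d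
      (pushforward_principal_of_pushAlong _ hi₀ hf₀ hn₀ (congrArg Prod.fst hpx))
    have r₁ := G₁.E_rel hconst hi₁ hf₁ hn₁ hm d
      (pushforward_principal_of_pushAlong _ hi₁ hf₁ hn₁ (congrArg Prod.snd hpx))
    set Cl : Bool → Pic0 k (CK M k) := fun i => d.eClass hm i
    have hrel : ∀ i : Bool, d.E i + Finsupp.mapDomain (MulAction.toPerm (frobC M q (k := k)))
        (d.E (!i)) ∈ Divisor.principal (K := k) (F := CK M k) →
        Cl i + frobC M q (k := k) • Cl (!i) = 0 := fun i h => by
      show Pic0.mk _ + _ • Pic0.mk _ = 0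
      rw [SemilinearAut.pic0_smul_mk, ← Pic0.mk_add]
      refine (QuotientAddGroup.eq_zero_iff _).mpr (AddSubgroup.mem_addSubgroupOf.mpr ?_)
      rwa [AddSubgroup.coe_add, SemilinearAut.coe_degZeroSMulHom, SemilinearAut.divisor_smul_def]
    have e₀ : Cl false + frobC M q (k := k) • Cl true = 0 := hrel false r₀
    have e₁ : Cl true + frobC M q (k := k) • Cl false = 0 := hrel true r₁
    have hfix : ∀ i, frobC M q (k := k) • frobC M q (k := k) • Cl i = Cl i := by
      have a₀ := eq_neg_of_add_eq_zero_left e₀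
      have a₁ := eq_neg_of_add_eq_zero_left e₁
      intro i
      cases i
      · conv_rhs => rw [a₀, a₁, smul_neg, neg_neg]
      · conv_rhs => rw [a₁, a₀, smul_neg, neg_neg]
    let y₀ : T.T0 (p ^ n) := ⟨Pic0.mk D, hx⟩
    have hred : ∀ i, T.redClass hm i (c • y₀) = 0 := fun i => by
      rw [map_nsmul, TwoRed.redClass_eq hm i (y := y₀) d rfl]
      exact hc _ (hfix i)
    exact TwoRed.inT00_of_redClass_eq_zero hm (c • y₀) hred

end Fermat.Agent.LevelLowering.MonodromyExact
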