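import Fermat.Agent.Attach.Levels
import Fermat.Agent.LevelLowering.MazurPrinciple.TameGen
import Fermat.Agent.TwoComponent.Unipotent

/-!
# A class fixed by a tame generator is fixed by inertia

Inertia at a prime exactly dividing the level is unipotent on torsion, so its image in the
permutations of the `p`-torsion is a `p`-group.
-/

noncomputable section

namespace Fermat.Agent.LevelLowering.MonodromyExact

open ModularCurve Attach MazurPrinciple

local notation "Qbar" => AlgebraicClosure ℚ
local notation "GQ" => (AlgebraicClosure ℚ ≃ₐ[ℚ] AlgebraicClosure ℚ)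

theorem pow_smul_eq {G X : Type*} [Monoid G] [AddCommGroup X] [DistribMulAction G X] (g : G)
    {y : X} (h : g • (g • y - y) = g • y - y) (n : ℕ) : g ^ n • y = y + n • (g • y - y) := by
  induction n with
  | zero => rw [pow_zero, one_smul, zero_nsmul, add_zero]
  | succ n ih =>
    have hn : g • (n • (g • y - y)) = n • (g • y - y) := by
      rw [smul_comm, h]
    rw [pow_succ', mul_smul, ih, smul_add, hn, succ_nsmul']
    abel

/-- **Inertia fixes what a tame generator fixes.** -/
theorem smul_eq_of_tameGenerator {N r p : ℕ} [NeZero N] (hp : p.Prime) (hG : TorsionGalois N p)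
    (hfinite : {x : JZero N | p • x = 0}.Finite) (hr : r.Prime) (hrp : r ≠ p) (hrN : r ∣ N)
    (hr2 : ¬ r ^ 2 ∣ N) {A : ValuationSubring (AlgebraicClosure ℚ)} (hA : A.LiesOverPrime r)
    {σ : GQ} (hσ : IsTameGenerator p A σ) {x : JZero N} (hx : p • x = 0) (hσx : σ • x = x) :
    ∀ τ ∈ A.inertiaSubgroupIn ℚ, τ • x = x := by
  classical
  let X := {y : JZero N // p • y = 0}
  have : Finite X := hfinite.to_subtype
  have hst : ∀ (g : GQ) (y : X), p • (g • (y : JZero N)) = 0 := fun g y => by
    rw [smul_comm, y.2]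
    exact map_zero (DistribSMul.toAddMonoidHom (JZero N) g)
  let e : GQ → Equiv.Perm X := fun g =>
    { toFun := fun y => ⟨g • (y : JZero N), hst g y⟩
      invFun := fun y => ⟨g⁻¹ • (y : JZero N), hst g⁻¹ y⟩
      left_inv := fun y => Subtype.ext (inv_smul_smul g _)
      right_inv := fun y => Subtype.ext (smul_inv_smul g _) }
  let π : GQ →* Equiv.Perm X := MonoidHom.mk' e fun g h =>
    Equiv.ext fun y => Subtype.ext (mul_smul g h (y : JZero N))
  choose L hL hLfix using fun y : X => hG.finite_level 1 (y : JZero N) (by rw [pow_one]; exact y.2)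
  have : ∀ y, FiniteDimensional ℚ (L y) := hL
  have hrp' : ¬ r ∣ p := fun h => hrp ((Nat.prime_dvd_prime_iff_eq hr hp).mp h)
  intro τ hτ
  obtain ⟨m, hm⟩ := hσ.2 (Equiv.Perm X) π (⨆ y, L y) inferInstance
    (fun s hs => Equiv.ext fun y => Subtype.ext
      (hLfix y s fun a ha => hs a ((le_iSup L y : L y ≤ _) ha)))
    (fun g hg => ⟨1, by
      rw [pow_one, ← map_pow]
      refine Equiv.ext fun y => Subtype.ext ?_
      show g ^ p • (y : JZero N) = y
      rw [pow_smul_eq g (TwoComponent.inertia_smul_sub N r hr hrN hr2 hA hg hg hrp' y.2) p,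
        nsmul_sub,
        hst g y, y.2, sub_zero, add_zero]⟩) τ hτ
  have hmem : π σ ∈ MulAction.stabilizer (Equiv.Perm X) (⟨x, hx⟩ : X) := Subtype.ext hσx
  have h := Subgroup.zpow_mem _ hmem m
  rw [show π σ ^ m = π τ from hm] at h
  exact congrArg Subtype.val h

end Fermat.Agent.LevelLowering.MonodromyExact
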