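import Fermat.Agent.FF.Modular
import Fermat.Agent.LevelLowering.MonodromyExact.Frob
import Fermat.Agent.LoweringAtP.HeckeCompat.RedHeckeAL

/-!
# The Atkin–Lehner involution commutes with `T_ℓ` on `J₀(M q)`

For `ℓ` prime to the level, the involution at `q` and the correspondence `T_ℓ` commute on
classes.
-/

noncomputable section

open ModularCurve AlgebraicCurve Fermat.Agent.TwoComponent

namespace Fermat.Agent.LevelLowering.MonodromyExact

local notation "Qb" => AlgebraicClosure ℚ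

variable (M q : ℕ) [hq : Fact q.Prime] [NeZero M] (hqM : ¬ q ∣ M)

/-- `T_ℓ` commutes with the Atkin–Lehner involution for `ℓ ∤ M q`. -/
theorem omegaJ_hecke (ℓ : Nat.Primes) (hℓ : ¬ (ℓ : ℕ) ∣ M * q) (x : JZero (M * q)) :
    heckeOperatorBar (M * q) ℓ (omegaJ M q hqM x) =
      omegaJ M q hqM (heckeOperatorBar (M * q) ℓ x) := by
  have : Fact (ℓ : ℕ).Prime := ⟨ℓ.2⟩
  have : NeZero (ℓ : ℕ) := ⟨ℓ.2.ne_zero⟩
  have hℓq : (ℓ : ℕ) ≠ q := fun h => hℓ (h ▸ dvd_mul_left q M)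
  obtain ⟨τ, hα, hβ⟩ := LoweringAtP.HeckeCompat.exists_wAL_intertwine (ℓ := (ℓ : ℕ)) hqM hℓq
  let τ' : SemilinearAut Qb (laurentBaseChange Qb (modularFunctionFieldFull (M * q * ℓ))) :=
    ⟨(τ.toRingEquiv, RingEquiv.refl _), fun a => τ.commutes a⟩
  have h1 : SemilinearAut.IntertwinesAlong (heckeBetaBar Qb (M * q) ℓ).toRingHom
      (wSemi M q hqM) τ' := fun z => hβ z
  have h2 : SemilinearAut.IntertwinesAlong (heckeAlphaBar Qb (M * q) ℓ).toRingHom
      (wSemi M q hqM) τ' := fun z => hα z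
  rw [heckeOperatorBar_apply, heckeOperatorBar_apply, omegaJ_apply, omegaJ_apply,
    Hecke.heckeOperatorAlong_eq_pic0]
  exact Hecke.pic0_correspondence_smul (heckeBetaBar Qb (M * q) ℓ) (Hecke.betaIntegral Qb _ _)
    (heckeAlphaBar Qb (M * q) ℓ) (Hecke.alphaIntegral Qb _ _) (fun _ => FF.place_deg_eq_one _)
    _ _ _ h1 h2 x

end Fermat.Agent.LevelLowering.MonodromyExact
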