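import Fermat.Agent.LevelLowering.MazurPrinciple.Local
import Fermat.Agent.LevelLowering.MonodromyExact.Divisible
import Fermat.Agent.LevelLowering.MonodromyExact.Fixed
import Fermat.Agent.LevelLowering.MonodromyExact.NormCompat
import Fermat.Agent.LevelLowering.MonodromyExact.OmegaHecke
import Fermat.Agent.LevelLowering.MonodromyExact.ThetaRed
import Fermat.Agent.LoweringAtP.HeckeCompat.EigenModL

/-!
# The toric inputs at a prime exactly dividing the level, from their level inputs

The toric classes are the classes of slope zero with trivial reductions on the model of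
`X₀(M r)` at `r`. The level inputs are the slope bound, slope zero of classes fixed by inertia and
the absence of the system on the components.
-/

noncomputable section

open ModularCurve AlgebraicCurve Fermat.Agent.Red Fermat.Agent.TwoComponent Fermat.Agent.LoweringAtP
  WeierstrassCurve.Affine.Point

namespace Fermat.Agent.LevelLowering.MonodromyExact

open Attach MazurPrinciple

local notation "Qb" => AlgebraicClosure ℚ
local notation "GQ" => (AlgebraicClosure ℚ ≃ₐ[ℚ] AlgebraicClosure ℚ)

variable {p : ℕ} [hp : Fact p.Prime] {M r : ℕ} [hr : Fact r.Prime] [NeZero M] [NeZero (M * r)]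

omit [NeZero (M * r)] in
/-- The system of a curve which is not modular of level `M` has no eigenvector on the components. -/
theorem eq_zero_of_not_modular (InsM : JacobianInputs M p) (hrM : ¬ r ∣ M)
    {A : ValuationSubring Qb} (hA : A.LiesOverPrime r)
    [CharP (IsLocalRing.ResidueField A) r] [IsAlgClosed (IsLocalRing.ResidueField A)]
    {W : WeierstrassCurve ℤ} (hΔ : W.Δ ≠ 0) (hnot : ¬ W.IsResiduallyModularOfLevel p M)
    {S : Finset ℕ} (C : JZeroC (IsLocalRing.ResidueField A) M) (hC : p • C = 0)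
    (heig : ∀ (ℓ : ℕ) [NeZero ℓ] [Fact ℓ.Prime], ¬ ℓ ∣ M * r → ℓ ∉ S →
      HeckeCompat.heckeC (IsLocalRing.ResidueField A) M ℓ C = W.apOfModel ℓ • C) : C = 0 := by
  have hr' : r.Prime := hr.out
  by_contra hne
  refine hnot (HeckeCompat.residuallyModular_of_eigen_modL InsM hΔ
    (TwoComponent.residueAt r hA).surj
    (natCast_ne_zero_of_not_dvd M r hrM) (Red.reductionInputsModL A hrM hA) (q := r) (S := S) hne hC
    fun ℓ _ _ hℓM hℓr hℓS => ?_)
  exact heig ℓ (fun h => ((Fact.out : ℓ.Prime).dvd_mul.mp h).elim hℓM fun h' =>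
    hℓr ((Nat.prime_dvd_prime_iff_eq Fact.out hr').mp h')) hℓS

/-- **The local toric structure at `r`** from the slope bound, slope zero of the classes fixed by
inertia, and the absence of an abelian part. -/
theorem localToric_of_inputs (hrM : ¬ r ∣ M) (hrp : r ≠ p) (Ins : JacobianInputs (M * r) p)
    {S : Finset ℕ} (hNS : ∀ q, q.Prime → q ∣ M * r → q ∈ (↑S : Set ℕ)) {kk : Type} [Field kk]
    (θ : CuspForm.heckeAlgebra (M * r) 2 (↑S : Set ℕ) →+* kk) (a : ℕ → ℤ)
    (hθ : ∀ (ℓ : ℕ) (hℓ : ℓ.Prime) (hℓN : ¬ ℓ ∣ M * r) (hℓS : ℓ ∉ (↑S : Set ℕ)),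
      θ (CuspForm.heckeAlgebra.T hℓ hℓN hℓS) = (a ℓ : kk))
    {A : ValuationSubring Qb} (hA : A.LiesOverPrime r) [CharP (IsLocalRing.ResidueField A) r]
    [IsAlgClosed (IsLocalRing.ResidueField A)]
    [Nonempty (Node M r hrM (TwoComponent.residueAt r hA) (Red.genus_le A hrM hA))]
    (hsl : ∀ n, Finite (Pic0.torsion Qb (FN M r) (p ^ n)) →
      Nat.card (Pic0.torsion Qb (FN M r) (p ^ n)) ≤
        (p ^ n) ^ (Fintype.card (Node M r hrM (TwoComponent.residueAt r hA)
          (Red.genus_le A hrM hA)) - 1) *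
          Nat.card ((modelTwoRed M r hrM (TwoComponent.residueAt r hA)
            (Red.genus_le A hrM hA)).T0 (p ^ n)))
    (hfix : ∀ x ∈ thetaPts Ins.model hNS θ 1, p • x = 0 →
      (∀ τ ∈ A.inertiaSubgroupIn ℚ, τ • x = x) →
      (modelTwoRed M r hrM (TwoComponent.residueAt r hA) (Red.genus_le A hrM hA)).InT0 p x)
    (hno : ∀ C : JZeroC (IsLocalRing.ResidueField A) M, p • C = 0 →
      (∀ (ℓ : ℕ) [NeZero ℓ] [Fact ℓ.Prime], ¬ ℓ ∣ M * r → ℓ ∉ S →
        HeckeCompat.heckeC (IsLocalRing.ResidueField A) M ℓ C = a ℓ • C) → C = 0)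
    {φ σ : GQ} (hφ : A.IsFrobeniusAt φ r) (hσ : IsTameGenerator p A σ) :
    Nonempty (LocalToric Ins.model hNS θ r φ σ) := by
  classical
  have hp' : p.Prime := hp.out
  have hr' : r.Prime := hr.out
  have hres := TwoComponent.residueAt r hA
  have hgen := Red.genus_le A hrM hA
  set k := IsLocalRing.ResidueField A
  set T := modelTwoRed M r hrM hres hgen
  have hpk : (p : k) ≠ 0 := fun h => hrp
    ((Nat.prime_dvd_prime_iff_eq hr' hp').mp ((CharP.cast_eq_zero_iff k r p).mp h))
  have hmk : ∀ n : ℕ, ((p ^ n : ℕ) : k) ≠ 0 := fun n => by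
    rw [Nat.cast_pow]; exact pow_ne_zero _ hpk
  have hfK : EichlerShimura.InducesOn A (IsLocalRing.residue A) φ (frobK r k) := by
    have e : EichlerShimura.residueAut A ⟨φ, hφ.mem_decompositionSubgroup⟩ = frobK r k :=
      RingEquiv.ext fun z => (EichlerShimura.residueAut_frobenius hφ z).trans (frobK_apply r z).symm
    exact e ▸ EichlerShimura.inducesOn_residueAut hφ.mem_decompositionSubgroup
  have hσI := EichlerShimura.inducesOn_refl_of_inertia hσ.1
  -- no abelian part
  have hT00 : ∀ (n : ℕ) (x : JZero (M * r)), x ∈ thetaPts Ins.model hNS θ n →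
      x ∈ T.T0 (p ^ n) → T.InT00 (p ^ n) x := fun n x hx hx0 =>
    inT00_of_mem_thetaPts Ins.model hNS θ a (T := T) hθ
      (fun ℓ _ _ hℓ i => normCompat_redC M r hrM hres hℓ i)
      hno
      n hx hx0
  have htors : ∀ (n : ℕ) (x : JZero (M * r)), x ∈ thetaPts Ins.model hNS θ n → p ^ n • x = 0 :=
    fun n x ⟨w, _, hw⟩ => (mem_range_coordPt Ins.model n x).mp ⟨w, hw⟩
  have hstab : ∀ n (g : GQ), ∀ x ∈ thetaPts Ins.model hNS θ n,
      g • x ∈ thetaPts Ins.model hNS θ n := by
    rintro n g _ ⟨w, hw, rfl⟩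
    exact ⟨galAct Ins.model n g w,
      eigenPart_stable Ins.model hNS θ _ (galAct_commute Ins.model hNS Ins.galois n g) hw,
      (smul_coordPt Ins.model n g w).symm⟩
  have hfinJ : ∀ n : ℕ, Finite (Pic0.torsion Qb (FN M r) (p ^ n)) := fun n =>
    Nat.finite_of_card_ne_zero (by
      rw [natCard_torsion_FN M r (pow_pos hp'.pos n)]
      exact pow_ne_zero _ (pow_ne_zero _ hp'.ne_zero))
  refine ⟨{
    toric := fun n => t00 T (p ^ n)
    torsion := fun n x hx => nsmul_eq_zero_of_mem T hx
    frob_sq := fun n x hx => frobSq_of_inT00 M r hrM hres hgen hfK (pow_pos hp'.pos n) (hmk n) hx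
    divisible := fun n y hy => ?_
    slope := fun n x hx => hT00 n _ (sub_mem (hstab n φ _ (hstab n φ x hx)) hx)
      (frobSq_sub_mem M r hrM hres hgen hfK (htors n x hx))
    mono := fun x hx => hT00 1 _ (sub_mem (hstab 1 σ x hx) hx)
      (inertia_sub_mem M r hrM hres hgen hσI (htors 1 x hx))
    fixed_le := fun x hx hσx => ?_
    le_fixed := fun x hx => inertia_fix_of_inT0 M r hrM hres hgen hσI (pow_pos hp'.pos 1) (hmk 1)
      (inT0_of_inT00 T hx)
    omega := omegaJ M r hrM
    omega_omega := omegaJ_omegaJ M r hrM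
    omega_gal := omegaJ_galois M r hrM
    omega_hecke := fun ℓ x hℓ => omegaJ_hecke M r hrM ℓ hℓ x
    swap := fun x hx => swap_of_inT00 M r hrM hres hgen hfK (pow_pos hp'.pos 1) (hmk 1) hx }⟩
  · exact exists_nsmul_eq_model M r hrM hres hgen hp' (Ne.symm hrp) (fun n =>
      hsl n (hfinJ n)) n
      (y := y) (by simpa [pow_one] using (mem_t00 T).mp hy)
  · have hxp : p • x = 0 := by simpa using htors 1 x hx
    have hsmall : ∀ τ ∈ A.inertiaSubgroupIn ℚ, τ • x = x :=
      smul_eq_of_tameGenerator hp' Ins.galois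
        (Set.finite_coe_iff.mp (haveI := hfinJ 1; Finite.of_injective
          (fun y : {y : JZero (M * r) | p • y = 0} => (⟨(y : JZero (M * r)), by
            show (y : JZero (M * r)) ∈ Submodule.torsionBy ℤ _ ((p ^ 1 : ℕ) : ℤ)
            rw [Submodule.mem_torsionBy_iff, natCast_zsmul, pow_one]; exact y.2⟩ :
              Pic0.torsion Qb (FN M r) (p ^ 1)))
          fun a b h => Subtype.ext (congrArg Subtype.val h :)))
        hr' hrp (dvd_mul_left r M) (fun h => hrM (by
          rw [sq] at h; exact Nat.dvd_of_mul_dvd_mul_right hr'.pos h)) hA hσ hxp hσx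
    refine hT00 1 x hx ?_
    have h0 := hfix x hx hxp hsmall
    show T.InT0 (p ^ 1) x
    rwa [pow_one]

end Fermat.Agent.LevelLowering.MonodromyExact
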