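import Fermat.Agent.LevelLowering.MazurPrinciple.Inputs
import Fermat.Agent.LevelLowering.MonodromyExact.FixedLe
import Fermat.Agent.LevelLowering.MonodromyExact.LocalToric
import Fermat.Agent.LoweringAtP.Setup.Base

/-!
# The toric inputs at a prime exactly dividing the level of a Frey system, `p ≥ 5`

The toric classes are the classes of slope zero with trivial reductions on the model of
`X₀(M r)` at `r`; the bound on the slopes comes from an auxiliary level divisible by `4`.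
-/

noncomputable section

open ModularCurve AlgebraicCurve Fermat.Agent.Red Fermat.Agent.TwoComponent Fermat.Agent.LoweringAtP
  WeierstrassCurve.Affine.Point

namespace Fermat.Agent.LevelLowering.MonodromyExact

open Attach MazurPrinciple

local notation "Qb" => AlgebraicClosure ℚ
local notation "GQ" => (AlgebraicClosure ℚ ≃ₐ[ℚ] AlgebraicClosure ℚ)

/-- An auxiliary level divisible by `4`, of degree prime to `p ≥ 5`. -/
theorem exists_level_four (M : ℕ) [NeZero M] {r p : ℕ} (hr : r.Prime) (hr2 : r ≠ 2)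
    (hrM : ¬ r ∣ M) (hp : p.Prime) (hp5 : 5 ≤ p) :
    ∃ L c : ℕ, L ≠ 0 ∧ M ∣ L ∧ 4 ∣ L ∧ ¬ r ∣ L ∧ Igusa.psi L = c * Igusa.psi M ∧ ¬ p ∣ c := by
  have hM := NeZero.ne M
  have hr4 : ¬ r ∣ 4 := fun h => hr2 ((Nat.prime_dvd_prime_iff_eq hr Nat.prime_two).mp
    (hr.dvd_of_dvd_pow (show r ∣ 2 ^ 2 from h)))
  have hsmall : ∀ c : ℕ, 0 < c → c < 5 → ¬ p ∣ c := fun c h0 h5 h => by
    have := Nat.le_of_dvd h0 h; omega
  by_cases h4 : 4 ∣ M
  · exact ⟨M, 1, hM, dvd_rfl, h4, hrM, (one_mul _).symm, hp.not_dvd_one⟩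
  by_cases h2 : 2 ∣ M
  · refine ⟨M * 2, 2, by omega, dvd_mul_right M 2, mul_dvd_mul_right h2 2,
      fun h => (hr.dvd_mul.mp h).elim hrM fun h' => hr2 ((Nat.prime_dvd_prime_iff_eq hr
        Nat.prime_two).mp h'), ?_, hsmall 2 two_pos (by norm_num)⟩
    rw [Igusa.psi_mul_prime hM Nat.prime_two, if_pos h2, mul_comm]
  · refine ⟨M * 4, 6, by omega, dvd_mul_right M 4, dvd_mul_left 4 M,
      fun h => (hr.dvd_mul.mp h).elim hrM hr4, Setup.psi_four hM h2, fun h => ?_⟩
    rcases hp.dvd_mul.mp (show p ∣ 2 * 3 from h) with h | h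
    · exact hsmall 2 two_pos (by norm_num) h
    · exact hsmall 3 (by norm_num) (by norm_num) h

variable {p : ℕ} [hp : Fact p.Prime] {M r : ℕ} [hr : Fact r.Prime] [NeZero M] [NeZero (M * r)]

/-- **The local toric structure at `r`** of the system of an integral model, `p ≥ 5`. -/
theorem localToric_of_model (hp5 : 5 ≤ p) (hrM : ¬ r ∣ M) (hr2 : r ≠ 2) (hrp : r ≠ p)
    (Ins : JacobianInputs (M * r) p) {W : WeierstrassCurve ℤ} (hΔ : W.Δ ≠ 0)
    (hirr : W.ModRepIsIrreducible p) (hnot : ¬ W.IsResiduallyModularOfLevel p M)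
    {S : Finset ℕ} (hNS : ∀ q, q.Prime → q ∣ M * r → q ∈ (↑S : Set ℕ))
    (θ : CuspForm.heckeAlgebra (M * r) 2 (↑S : Set ℕ) →+* ZMod p)
    (hθ : ∀ (ℓ : ℕ) (hℓ : ℓ.Prime) (hℓN : ¬ ℓ ∣ M * r) (hℓS : ℓ ∉ (↑S : Set ℕ)),
      θ (CuspForm.heckeAlgebra.T hℓ hℓN hℓS) = (W.apOfModel ℓ : ZMod p))
    {A : ValuationSubring Qb} (hA : A.LiesOverPrime r) {φ σ : GQ} (hφ : A.IsFrobeniusAt φ r)
    (hσ : IsTameGenerator p A σ) : Nonempty (LocalToric Ins.model hNS θ r φ σ) := by
  classical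
  have hp' : p.Prime := hp.out
  have hr' : r.Prime := hr.out
  obtain ⟨L, c, hL0, hML, h4, hrL, hψ, hpc⟩ := exists_level_four M hr' hr2 hrM hp' hp5
  have : NeZero L := ⟨hL0⟩
  have := Red.isAlgClosed_residueField A
  have := Red.charP_residueField A hA
  have hres := TwoComponent.residueAt r hA
  have hgen := Red.genus_le A hrM hA
  have hgenL := Red.genus_le A hrL hA
  have := nonempty_node_level hML hrL hres hgen hgenL h4
  have hp12 : ¬ p ∣ 12 := fun h => by
    rcases hp'.dvd_mul.mp (show p ∣ 4 * 3 from h) with h | h <;>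
      have := Nat.le_of_dvd (by norm_num) h <;> omega
  obtain ⟨InsM⟩ := nonempty_jacobianInputs M p
  refine localToric_of_inputs hrM hrp Ins hNS θ W.apOfModel hθ hA
    (fun n hfin => natCard_torsion_le_level hML hrL hres hgen hgenL hψ hpc h4 hp' n)
    (fun x hx hxp hfx => inT0_of_fixed hres hML hrL hgen hgenL hψ hpc h4 hp12 (by omega) hΔ hirr
      Ins.model hNS θ hθ hx hxp hfx)
    (fun C hC heig => eq_zero_of_not_modular InsM hrM hA hΔ hnot C hC heig) hφ hσ

/-- **The local toric structures** at the primes of the levels of a Frey package. -/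
theorem hasToricInputs (P : FreyPackage) [Fact P.p.Prime] : HasToricInputs P := by
  intro N r _ hcond hpN hirr Ins hr hr2 hrp hrN hnot W hW S hNS θ hθ A hA φ σ hφ hσ
  obtain ⟨M, rfl⟩ : ∃ M, N = M * r := ⟨N / r, (Nat.div_mul_cancel hrN).symm⟩
  have : Fact r.Prime := ⟨hr⟩
  have : NeZero M := ⟨left_ne_zero_of_mul (NeZero.ne (M * r))⟩
  have hrM : ¬ r ∣ M := fun h => hcond.sq_not_dvd hr (by rw [sq]; exact mul_dvd_mul_right h r)
  rw [Nat.mul_div_cancel _ hr.pos] at hnot
  have hell := HeckeCompat.model_elliptic hW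
  have hΔ := HeckeCompat.model_Δ_ne_zero hell
  have hirr' : W.ModRepIsIrreducible P.p := by
    obtain ⟨C, hC⟩ := hW
    show GaloisRepIsIrreducible (K := Qb) ℚ (W.map (Int.castRingHom ℚ)) P.p
    rw [← hC]; exact (EC.galoisRepIsIrreducible_variableChange C P.freyCurve P.p).mpr hirr
  exact localToric_of_model P.hp5 hrM hr2 hrp Ins hΔ hirr'
    (fun h => hnot (HeckeCompat.modularRepOfLevel_of_residuallyModular hW h)) hNS θ hθ hA hφ hσ

end Fermat.Agent.LevelLowering.MonodromyExact
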