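import Mathlib.NumberTheory.Padics.RingHoms
import Mathlib.RingTheory.LocalRing.Module
import Mathlib.RingTheory.Norm.Transitivity
import Fermat.Agent.LevelLowering.JacobianPoints
import Fermat.Agent.LevelLowering.JacobianStructure

/-!
# Free coordinates on the `θ`-part of `J₀(N)[pⁿ]`

A Hecke element is an idempotent with image the `θ`-part, so that part is free over `ℤ/pⁿ`, of
rank `2 h` independent of `n`, and every Galois element has determinant `cyc ^ h` on it.
-/

noncomputable section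

namespace Fermat.Agent.LevelLowering.MonodromyExact

open Attach ModularCurve

local notation "Qbar" => AlgebraicClosure ℚ
local notation "GQ" => (AlgebraicClosure ℚ ≃ₐ[ℚ] AlgebraicClosure ℚ)

theorem isLocalRing_zmod_pow (p : ℕ) [hp : Fact p.Prime] {n : ℕ} (hn : 1 ≤ n) :
    IsLocalRing (ZMod (p ^ n)) := by
  have : Fact (1 < p ^ n) := ⟨Nat.one_lt_pow (by omega) hp.out.one_lt⟩
  refine IsLocalRing.of_surjective' (PadicInt.toZModPow n) fun a => ⟨(a.val : ℤ_[p]), ?_⟩
  have : NeZero (p ^ n) := ⟨pow_ne_zero _ hp.out.ne_zero⟩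
  rw [map_natCast, ZMod.natCast_zmod_val]

/-- A common exponent making every power in a finite monoid idempotent. -/
theorem exists_idempotent_exponent (X : Type*) [Monoid X] [Finite X] :
    ∃ L, 0 < L ∧ ∀ f : X, IsIdempotentElem (f ^ L) := by
  classical
  have := Fintype.ofFinite X
  refine ⟨(Fintype.card X).factorial, Nat.factorial_pos _, fun f => ?_⟩
  obtain ⟨i, j, hij, hpow⟩ : ∃ i j : Fin (Fintype.card X + 1), (i : ℕ) < j ∧
      f ^ (i : ℕ) = f ^ (j : ℕ) := by
    obtain ⟨i, j, hne, h⟩ := Fintype.exists_ne_map_eq_of_card_lt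
      (fun i : Fin (Fintype.card X + 1) => f ^ (i : ℕ)) (by simp)
    rcases Nat.lt_or_ge (i : ℕ) j with hlt | hge
    · exact ⟨i, j, hlt, h⟩
    · exact ⟨j, i, lt_of_le_of_ne hge fun h' => hne (Fin.ext h'.symm), h.symm⟩
  set d := (j : ℕ) - i with hd
  have hper : ∀ s, (i : ℕ) ≤ s → f ^ (s + d) = f ^ s := fun s hs => by
    obtain ⟨u, rfl⟩ := Nat.exists_eq_add_of_le hs
    rw [show (i : ℕ) + u + d = j + u by omega, pow_add, ← hpow, ← pow_add]
  have hmul : ∀ l s, (i : ℕ) ≤ s → f ^ (s + l * d) = f ^ s := by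
    intro l
    induction l with
    | zero => simp
    | succ l ih =>
      intro s hs
      rw [Nat.succ_mul, ← add_assoc, hper _ (hs.trans (Nat.le_add_right _ _)), ih s hs]
  obtain ⟨l, hl⟩ := Nat.dvd_factorial (show 0 < d by omega) (by omega : d ≤ Fintype.card X)
  show f ^ _ * f ^ _ = f ^ _
  have hi : (i : ℕ) ≤ (Fintype.card X).factorial :=
    le_trans (by omega : (i : ℕ) ≤ Fintype.card X) (Nat.self_le_factorial _)
  rw [← pow_add]
  nth_rw 2 [hl]
  rw [mul_comm d l, hmul l _ hi]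

variable {N : ℕ} [NeZero N] {p : ℕ} [hp : Fact p.Prime] (M : TorsionModel N p)
  {S : Finset ℕ} (hNS : ∀ q, q.Prime → q ∣ N → q ∈ (↑S : Set ℕ))
  {k : Type} [Field k] (θ : CuspForm.heckeAlgebra N 2 (↑S : Set ℕ) →+* k)

/-- **The projector to the `θ`-part is a Hecke operator.** -/
theorem exists_projector (n : ℕ) :
    ∃ b : CuspForm.heckeAlgebra N 2 (↑S : Set ℕ),
      (∀ w, heckeAct M hNS n b w ∈ eigenPart M hNS θ n) ∧
        ∀ w ∈ eigenPart M hNS θ n, heckeAct M hNS n b w = w := by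
  classical
  have : NeZero (p ^ n) := ⟨pow_ne_zero _ hp.out.ne_zero⟩
  set E := Module.End (ZMod (p ^ n)) (Fin M.rk → ZMod (p ^ n))
  have : Finite E := Finite.of_injective (fun f => ⇑f) DFunLike.coe_injective
  obtain ⟨L, hL0, hL⟩ := exists_idempotent_exponent E
  set s : Set E := heckeAct M hNS n '' {a | θ a = 0}
  have hs : s.Finite := Set.toFinite s
  choose a ha hae using fun f : hs.toFinset => (hs.mem_toFinset.mp f.2 : (f : E) ∈ s)
  set b := ∏ f : hs.toFinset, (1 - a f ^ L) with hb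
  refine ⟨b, fun w => (mem_eigenPart M hNS θ).mpr fun c hc => ⟨L, ?_⟩, fun w hw => ?_⟩
  · let f : hs.toFinset := ⟨heckeAct M hNS n c, hs.mem_toFinset.mpr ⟨c, hc, rfl⟩⟩
    rw [← Module.End.mul_apply, hb, ← Finset.mul_prod_erase _ _ (Finset.mem_univ f), map_mul,
      map_sub, map_one, map_pow, hae f, ← mul_assoc, mul_sub, mul_one]
    show ((heckeAct M hNS n c ^ L - heckeAct M hNS n c ^ L * heckeAct M hNS n c ^ L) * _) w = 0
    rw [(hL (heckeAct M hNS n c)).eq, sub_self, zero_mul]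
    rfl
  · have hfix : ∀ f : hs.toFinset, heckeAct M hNS n (1 - a f ^ L) w = w := fun f => by
      obtain ⟨j, hj⟩ := (mem_eigenPart M hNS θ).mp hw (a f) (ha f)
      rw [map_sub, map_one, map_pow, LinearMap.sub_apply, Module.End.one_apply, sub_eq_self]
      have h2 : heckeAct M hNS n (a f) ^ L = heckeAct M hNS n (a f) ^ (L * (j + 1)) := by
        rw [pow_mul, (hL _).pow_succ_eq]
      obtain ⟨d, hd⟩ : ∃ d, L * (j + 1) = d + j := ⟨L * (j + 1) - j, by
        have : j + 1 ≤ L * (j + 1) := Nat.le_mul_of_pos_left _ hL0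
        omega⟩
      rw [h2, hd, pow_add, Module.End.mul_apply, hj, map_zero]
    rw [hb]
    refine Finset.prod_induction _ (fun x => heckeAct M hNS n x w = w) (fun x y hx hy => by
      rw [map_mul, Module.End.mul_apply, hy, hx]) (by rw [map_one]; rfl) fun f _ => hfix f

/-- The `θ`-part of the `pⁿ`-torsion is free over `ℤ/pⁿ`. -/
theorem exists_basis_eigenPart {n : ℕ} (hn : 1 ≤ n) :
    Module.Free (ZMod (p ^ n)) (eigenPart M hNS θ n) := by
  have : NeZero (p ^ n) := ⟨pow_ne_zero _ hp.out.ne_zero⟩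
  have := isLocalRing_zmod_pow p hn
  obtain ⟨b, hb1, hb2⟩ := exists_projector M hNS θ n
  have : Module.Projective (ZMod (p ^ n)) (eigenPart M hNS θ n) :=
    Module.Projective.of_split (eigenPart M hNS θ n).subtype
      ((heckeAct M hNS n b).codRestrict _ hb1)
      (LinearMap.ext fun w => Subtype.ext (hb2 _ w.2))
  exact Module.free_of_flat_of_isLocalRing

/-- Multiplication by `p ^ m`, from coordinates modulo `p` to coordinates modulo `p ^ (m + 1)`. -/
def shiftCoord (m : ℕ) : (Fin M.rk → ZMod (p ^ 1)) → (Fin M.rk → ZMod (p ^ (m + 1))) :=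
  fun w i => ((p ^ m * (w i).val : ℕ) : ZMod (p ^ (m + 1)))

theorem shiftCoord_redVec (m : ℕ) (v : Fin M.rk → ℤ) :
    shiftCoord M m (M.redVec 1 v) = p ^ m • M.redVec (m + 1) v := by
  funext i
  rw [Pi.smul_apply, nsmul_eq_mul]
  show ((p ^ m * ((v i : ZMod (p ^ 1))).val : ℕ) : ZMod (p ^ (m + 1))) =
    _ * (v i : ZMod (p ^ (m + 1)))
  have : NeZero (p ^ 1) := ⟨pow_ne_zero _ hp.out.ne_zero⟩
  rw [Nat.cast_mul, ← Int.cast_natCast (ZMod.val _), ZMod.val_intCast]
  rw [← Int.cast_natCast (p ^ m), ← Int.cast_mul, ← Int.cast_mul,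
    ZMod.intCast_eq_intCast_iff_dvd_sub]
  refine ⟨v i / (p ^ 1 : ℕ), ?_⟩
  rw [Int.emod_def]
  push_cast
  ring

theorem coordPt_shiftCoord (m : ℕ) (w : Fin M.rk → ZMod (p ^ 1)) :
    coordPt M (m + 1) (shiftCoord M m w) = coordPt M 1 w := by
  obtain ⟨v, rfl⟩ := redVec_surjective M 1 w
  rw [shiftCoord_redVec, map_nsmul, coordPt_redVec, coordPt_redVec]
  induction m with
  | zero => rw [pow_zero, one_smul]
  | succ m ih => rw [pow_succ, mul_smul, M.pt_succ, ih]

theorem heckeAct_shiftCoord (m : ℕ) (a : CuspForm.heckeAlgebra N 2 (↑S : Set ℕ))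
    (w : Fin M.rk → ZMod (p ^ 1)) :
    heckeAct M hNS (m + 1) a (shiftCoord M m w) = shiftCoord M m (heckeAct M hNS 1 a w) := by
  obtain ⟨v, rfl⟩ := redVec_surjective M 1 w
  have h : ∀ n, heckeAct M hNS n a (M.redVec n v) =
      M.redVec n ((M.mat (toAnemic hNS a)).mulVec v) := fun n => (M.redVec_mulVec n _ v).symm
  rw [shiftCoord_redVec, map_nsmul, h, h, shiftCoord_redVec]

theorem mem_eigenPart_shiftCoord (m : ℕ) (w : Fin M.rk → ZMod (p ^ 1)) :
    shiftCoord M m w ∈ eigenPart M hNS θ (m + 1) ↔ w ∈ eigenPart M hNS θ 1 := by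
  have hpow : ∀ (a : CuspForm.heckeAlgebra N 2 (↑S : Set ℕ)) j,
      (heckeAct M hNS (m + 1) a ^ j) (shiftCoord M m w) =
        shiftCoord M m ((heckeAct M hNS 1 a ^ j) w) := fun a j => by
    rw [← map_pow, ← map_pow, heckeAct_shiftCoord]
  have h0 : ∀ u, shiftCoord M m u = 0 ↔ u = 0 := fun u => by
    rw [← (coordPt_injective M (m + 1)).eq_iff, map_zero, coordPt_shiftCoord,
      ← map_zero (coordPt M 1), (coordPt_injective M 1).eq_iff]
  simp only [mem_eigenPart, hpow, h0]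

/-- The points of the `θ`-part. -/
def thetaPts (n : ℕ) : AddSubgroup (JZero N) :=
  (eigenPart M hNS θ n).toAddSubgroup.map (coordPt M n)

theorem mem_thetaPts_one_iff (m : ℕ) {x : JZero N} :
    x ∈ thetaPts M hNS θ 1 ↔ x ∈ thetaPts M hNS θ (m + 1) ∧ p • x = 0 := by
  constructor
  · rintro ⟨w, hw, rfl⟩
    refine ⟨⟨shiftCoord M m w, (mem_eigenPart_shiftCoord M hNS θ m w).mpr hw,
      coordPt_shiftCoord M m w⟩, ?_⟩
    have := (mem_range_coordPt M 1 (coordPt M 1 w)).mp ⟨w, rfl⟩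
    exact (congrArg (fun e => e • coordPt M 1 w) (pow_one p)).symm.trans this
  · rintro ⟨⟨w, hw, rfl⟩, hx⟩
    obtain ⟨u, hu⟩ := (mem_range_coordPt M 1 _).mpr
      ((congrArg (fun e => e • coordPt M (m + 1) w) (pow_one p)).trans hx)
    rw [← coordPt_shiftCoord M m, (coordPt_injective M (m + 1)).eq_iff] at hu
    exact ⟨u, (mem_eigenPart_shiftCoord M hNS θ m u).mp (hu ▸ hw), by
      rw [← hu, coordPt_shiftCoord]⟩

/-- A free `ZMod (p ^ n)`-module has `p ^ rank` elements killed by `p`. -/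
theorem natCard_eq_pow_finrank (n : ℕ) (hn : 1 ≤ n) (E : Type*) [AddCommGroup E]
    [Module (ZMod (p ^ n)) E] [Module.Free (ZMod (p ^ n)) E] [Module.Finite (ZMod (p ^ n)) E] :
    Nat.card {x : E // p • x = 0} = p ^ Module.finrank (ZMod (p ^ n)) E := by
  have : NeZero (p ^ n) := ⟨pow_ne_zero _ hp.out.ne_zero⟩
  have := isLocalRing_zmod_pow p hn
  let b := Module.finBasis (ZMod (p ^ n)) E
  have h1 : Nat.card {a : ZMod (p ^ n) // p • a = 0} = p := by
    obtain ⟨m, rfl⟩ : ∃ m, n = m + 1 := ⟨n - 1, by omega⟩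
    have hlt : ∀ i : Fin p, p ^ m * (i : ℕ) < p ^ (m + 1) := fun i => by
      rw [pow_succ]; exact Nat.mul_lt_mul_of_pos_left i.2 (pow_pos hp.out.pos m)
    let f : Fin p → {a : ZMod (p ^ (m + 1)) // p • a = 0} := fun i =>
      ⟨((p ^ m * (i : ℕ) : ℕ) : ZMod (p ^ (m + 1))), by
        rw [nsmul_eq_mul, ← Nat.cast_mul, ZMod.natCast_eq_zero_iff]
        exact ⟨i, by rw [pow_succ]; ring⟩⟩
    refine (Nat.card_eq_of_bijective f ⟨fun i j h => ?_, fun a => ?_⟩).symm.trans (Nat.card_fin p)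
    · have h' := congrArg ZMod.val (congrArg Subtype.val h)
      simp only [f, ZMod.val_natCast_of_lt (hlt _)] at h'
      exact Fin.ext (Nat.eq_of_mul_eq_mul_left (pow_pos hp.out.pos m) h')
    · obtain ⟨a, ha⟩ := a
      rw [nsmul_eq_mul, ← ZMod.natCast_zmod_val a, ← Nat.cast_mul, ZMod.natCast_eq_zero_iff]
        at ha
      obtain ⟨c, hc⟩ := Nat.dvd_of_mul_dvd_mul_left hp.out.pos
        ((dvd_of_eq (pow_succ' p m).symm).trans ha)
      have hc' : c < p := by
        have := ZMod.val_lt a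
        rw [hc, pow_succ] at this
        exact lt_of_mul_lt_mul_left this (Nat.zero_le _)
      exact ⟨⟨c, hc'⟩, Subtype.ext (by
        show ((p ^ m * c : ℕ) : ZMod (p ^ (m + 1))) = a
        rw [← hc, ZMod.natCast_zmod_val])⟩
  let e : {x : E // p • x = 0} ≃
      (Fin (Module.finrank (ZMod (p ^ n)) E) → {a : ZMod (p ^ n) // p • a = 0}) :=
    { toFun := fun x i => ⟨b.equivFun x.1 i, by
        rw [← Pi.smul_apply, ← map_nsmul, x.2, map_zero, Pi.zero_apply]⟩
      invFun := fun f => ⟨b.equivFun.symm fun i => (f i).1, b.equivFun.injective (by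
        rw [map_nsmul, LinearEquiv.apply_symm_apply, map_zero]
        exact funext fun i => (f i).2)⟩
      left_inv := fun x => Subtype.ext (b.equivFun.symm_apply_apply x.1)
      right_inv := fun f => funext fun i =>
        Subtype.ext (congrFun (b.equivFun.apply_symm_apply _) i) }
  rw [Nat.card_congr e, Nat.card_fun, h1, Nat.card_fin]

/-- The rank of the `θ`-part is the same at every level of torsion. -/
theorem finrank_eigenPart (m : ℕ) :
    Module.finrank (ZMod (p ^ (m + 1))) (eigenPart M hNS θ (m + 1)) =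
      Module.finrank (ZMod (p ^ 1)) (eigenPart M hNS θ 1) := by
  have := exists_basis_eigenPart M hNS θ (n := m + 1) (by omega)
  have := exists_basis_eigenPart M hNS θ (n := 1) le_rfl
  have : NeZero (p ^ (m + 1)) := ⟨pow_ne_zero _ hp.out.ne_zero⟩
  have : NeZero (p ^ 1) := ⟨pow_ne_zero _ hp.out.ne_zero⟩
  refine Nat.pow_right_injective hp.out.two_le ?_
  show p ^ _ = p ^ _
  rw [← natCard_eq_pow_finrank (m + 1) (by omega) (eigenPart M hNS θ (m + 1)),
    ← natCard_eq_pow_finrank 1 le_rfl (eigenPart M hNS θ 1)]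
  have key : ∀ j, Nat.card {x : eigenPart M hNS θ (j + 1) // p • x = 0} =
      Nat.card (thetaPts M hNS θ 1) := fun j => Nat.card_eq_of_bijective
    (fun x => ⟨coordPt M (j + 1) x.1.1, (mem_thetaPts_one_iff M hNS θ j).mpr
      ⟨⟨x.1.1, x.1.2, rfl⟩, by
        rw [← map_nsmul, ← Submodule.coe_smul_of_tower, x.2, Submodule.coe_zero, map_zero]⟩⟩)
    ⟨fun a b h => by
      have := coordPt_injective M (j + 1) (congrArg Subtype.val h)
      exact Subtype.ext (Subtype.ext this),
    fun y => by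
      obtain ⟨⟨w, hw, hwy⟩, hy⟩ := (mem_thetaPts_one_iff M hNS θ j).mp y.2
      refine ⟨⟨⟨w, hw⟩, Subtype.ext (coordPt_injective M (j + 1) ?_)⟩, Subtype.ext hwy⟩
      rw [Submodule.coe_smul_of_tower, map_nsmul, hwy, hy, Submodule.coe_zero, map_zero]⟩
  rw [key m, key 0]

/-- Determinant of a block matrix of commuting scalar actions. -/
theorem det_of_matAct {q : ℕ} [IsLocalRing (ZMod q)] {H P : Type} [AddCommGroup H]
    [Module (ZMod q) H] [Module.Free (ZMod q) H] [AddCommGroup P] [Finite P]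
    {A : Type*} [CommRing A] [Module A P] [Module (ZMod q) P] (e : H ≃+ (Fin 2 → P))
    (i : P →+ H) (j : H →+ P) (hij : ∀ x, j (i x) = x) :
    Module.finrank (ZMod q) H = 2 * Module.finrank (ZMod q) P ∧
      ∀ (Mg : Matrix (Fin 2) (Fin 2) A) (s : ℕ) (φ : Module.End (ZMod q) H),
        (∀ v, e (φ v) = matAct Mg (e v)) → Mg.det = (s : A) →
          LinearMap.det φ = (s : ZMod q) ^ Module.finrank (ZMod q) P := by
  classical
  have : Module.Projective (ZMod q) P :=
    Module.Projective.of_split (AddMonoidHom.toZModLinearMap q i) (AddMonoidHom.toZModLinearMap q j)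
      (LinearMap.ext hij)
  have : Module.Finite (ZMod q) P := Module.Finite.of_finite
  have : Module.Free (ZMod q) P := Module.free_of_flat_of_isLocalRing
  let bP := Module.finBasis (ZMod q) P
  let e' : H ≃ₗ[ZMod q] (Fin 2 → P) :=
    { e with map_smul' := fun r x => ZMod.map_smul e.toAddMonoidHom r x }
  refine ⟨?_, fun Mg s φ hφ hMdet => ?_⟩
  · rw [e'.finrank_eq, Module.finrank_pi_fintype, Finset.sum_const, Finset.card_univ,
      Fintype.card_fin, smul_eq_mul]
  let act : A →+* Module.End (ZMod q) P :=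
    { toFun := fun a => AddMonoidHom.toZModLinearMap q (DistribSMul.toAddMonoidHom P a)
      map_one' := LinearMap.ext fun x => one_smul A x
      map_mul' := fun a b => LinearMap.ext fun x => mul_smul a b x
      map_zero' := LinearMap.ext fun x => zero_smul A x
      map_add' := fun a b => LinearMap.ext fun x => add_smul a b x }
  let f := (LinearMap.toMatrixAlgEquiv bP).toRingEquiv.toRingHom.comp act
  have hf : (f Mg.det).det = (s : ZMod q) ^ Module.finrank (ZMod q) P := by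
    rw [hMdet, map_natCast, ← Matrix.diagonal_natCast, Matrix.det_diagonal, Finset.prod_const,
      Finset.card_univ, Fintype.card_fin]
  rw [← hf, Matrix.det_det]
  let bB := (Pi.basis fun _ : Fin 2 => bP).reindex
    (Equiv.sigmaEquivProd (Fin 2) (Fin (Module.finrank (ZMod q) P)))
  have hrepr : ∀ v i a, bB.repr v (i, a) = bP.repr (v i) a := fun v i a => by simp [bB]
  have hbB : ∀ j b', bB (j, b') = Pi.single j (bP b') := fun j b' => by simp [bB]
  rw [← LinearMap.det_conj φ e', ← LinearMap.det_toMatrix bB]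
  congr 1
  ext ⟨a₁, a⟩ ⟨a₂, b'⟩
  rw [LinearMap.toMatrix_apply, hrepr, hbB, Matrix.comp_apply, Matrix.map_apply]
  have hg : ∀ v, (e'.toLinearMap ∘ₗ φ ∘ₗ e'.symm.toLinearMap) v = matAct Mg v := fun v => by
    show e (φ (e.symm v)) = _
    rw [hφ, AddEquiv.apply_symm_apply]
  rw [hg, show matAct Mg (Pi.single a₂ (bP b')) a₁ = Mg a₁ a₂ • bP b' by
    fin_cases a₂ <;> simp [matAct]]
  show _ = LinearMap.toMatrixAlgEquiv bP (act (Mg a₁ a₂)) a b'
  rw [LinearMap.toMatrixAlgEquiv_apply]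
  rfl

/-- A frame computes the determinant of each group element. -/
theorem det_of_frame {q : ℕ} [IsLocalRing (ZMod q)] {H : Type} [AddCommGroup H]
    [Module (ZMod q) H] [Module.Free (ZMod q) H] [Finite H] {A : Type*} [CommRing A] [Nontrivial A]
    [Module A H] {G : Type*} [Group G] {η : A} {τ : G →* Module.End A H} {χ : G →* A} {t : G → A}
    {c g₀ h₀ : G} (hq : OddQuad η τ χ t c) (hu : IsUnit (crossP η t c g₀ h₀))
    (hv : IsUnit (crossM η t c h₀ g₀)) (hA : ∀ r : A, (∀ v : H, r • v = 0) → r = 0)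
    (χ' : G → ℕ) (hχ : ∀ g, χ g = (χ' g : A)) :
    ∃ h, Module.finrank (ZMod q) H = 2 * h ∧ ∀ (g : G) (φ : Module.End (ZMod q) H),
      (∀ v, φ v = τ g v) → LinearMap.det φ = (χ' g : ZMod q) ^ h := by
  have htor' : ∀ x : LinearMap.range (OddQuad.projP η τ c), q • x = 0 := fun x => Subtype.ext (by
    rw [Submodule.coe_smul_of_tower, ← Nat.cast_smul_eq_nsmul (ZMod q), ZMod.natCast_self,
      zero_smul]; rfl)
  let : Module (ZMod q) (LinearMap.range (OddQuad.projP η τ c)) :=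
    AddCommGroup.zmodModule htor'
  obtain ⟨h1, h2⟩ := det_of_matAct (q := q) (P := LinearMap.range (OddQuad.projP η τ c)) (A := A)
    (hq.frameEquiv hu hv).toAddEquiv
    (LinearMap.range (OddQuad.projP η τ c)).subtype.toAddMonoidHom
    (OddQuad.projP η τ c).rangeRestrict.toAddMonoidHom fun x => by
      obtain ⟨_, w, rfl⟩ := x
      exact Subtype.ext (LinearMap.congr_fun hq.projP_idem w)
  exact ⟨_, h1, fun g φ hφ => h2 (frameMatrix η t c g₀ h₀ g) (χ' g) φ
    (fun v => by rw [hφ]; exact hq.frameEquiv_smul hu hv g v)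
    (by rw [hq.frameMatrix_det hu hv hA, hχ])⟩

/-- **The determinant of Galois on the `θ`-part.** -/
theorem det_galAct [Finite k] [CharP k p] (hp2 : p ≠ 2) (hG : TorsionGalois N p) (hpS : p ∈ S)
    {n : ℕ} (hn : 1 ≤ n) [Nontrivial (eigenPart M hNS θ n)] {V : Type} [AddCommGroup V]
    [Module k V] (hV : Module.finrank k V = 2) (ρ : GQ →* Module.End k V)
    (hfin : ∃ L : IntermediateField ℚ Qbar, FiniteDimensional ℚ L ∧
      ∀ σ : GQ, (∀ x ∈ L, σ x = x) → ρ σ = 1)
    (hirr : ∀ W : Submodule k V, (∀ g, ∀ x ∈ W, ρ g x ∈ W) → W = ⊥ ∨ W = ⊤)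
    (hfrob : ∀ (ℓ : ℕ) (hℓ : ℓ.Prime) (hℓN : ¬ ℓ ∣ N) (hℓS : ℓ ∉ (↑S : Set ℕ)),
      ∀ A : ValuationSubring Qbar, A.LiesOverPrime ℓ → ∀ σ : GQ, A.IsFrobeniusAt σ ℓ →
        LinearMap.trace k V (ρ σ) = θ (CuspForm.heckeAlgebra.T hℓ hℓN hℓS) ∧
          LinearMap.det (ρ σ) = (ℓ : k)) :
    ∃ h, Module.finrank (ZMod (p ^ n)) (eigenPart M hNS θ n) = 2 * h ∧
      ∀ g, LinearMap.det ((galAct M n g).restrict fun _ hw =>
        eigenPart_stable M hNS θ _ (galAct_commute M hNS hG n g) hw :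
          Module.End (ZMod (p ^ n)) (eigenPart M hNS θ n)) = cyc p n g ^ h := by
  let := imageModule (eigenHecke M hNS θ n)
  have : NeZero (p ^ n) := ⟨pow_ne_zero _ hp.out.ne_zero⟩
  have := isLocalRing_zmod_pow p hn
  have := exists_basis_eigenPart M hNS θ hn
  have : Nontrivial (CuspForm.heckeAlgebra N 2 (↑S : Set ℕ) ⧸
      RingHom.ker (eigenHecke M hNS θ n)) := by
    refine ⟨⟨1, 0, fun h10 => ?_⟩⟩
    obtain ⟨v, hv0⟩ := exists_ne (0 : eigenPart M hNS θ n)
    exact hv0 (by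
      rw [← one_smul (CuspForm.heckeAlgebra N 2 (↑S : Set ℕ) ⧸
        RingHom.ker (eigenHecke M hNS θ n)) v, h10, zero_smul])
  obtain ⟨η, hcomm, χ, t, g₀, h₀, hq, hu, hv, hχ, -, -⟩ :=
    exists_jacobianFrame M hNS θ hp2 hG hpS n hn hV ρ hfin hirr hfrob
  obtain ⟨h, hh, hdet⟩ := det_of_frame (q := p ^ n) hq hu hv
    (image_faithful (eigenHecke M hNS θ n)) (fun g => (cyc p n g).val) hχ
  refine ⟨h, hh, fun g => ?_⟩
  rw [hdet g _ fun v => rfl, ZMod.natCast_zmod_val]

end Fermat.Agent.LevelLowering.MonodromyExact
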