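import Fermat.Agent.FF.Modular
import Fermat.Agent.LevelLowering.MonodromyExact.Toric
import Fermat.Agent.LoweringAtP.HeckeCompat.Mazur
import Fermat.Agent.LoweringAtP.Model.RatData
import Fermat.Agent.LoweringAtP.Model.Unit

/-!
# Nodes and slopes at level `M q` from those at a level `L q`, `4 ∣ L`

The nodes are the zeros of the reduced unit where `j` is finite, so those of level `L q` lie over
those of level `M q` and all slope relations descend when the degree is prime to the torsion.
-/

noncomputable section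

open ModularCurve AlgebraicCurve Fermat.Agent.Red Fermat.Agent.TwoComponent Fermat.Agent.LoweringAtP

namespace Fermat.Agent.LevelLowering.MonodromyExact

local notation "Qb" => AlgebraicClosure ℚ

variable {A : ValuationSubring (AlgebraicClosure ℚ)} {k : Type*} [Field k] {π : A →+* k}
  [IsAlgClosed k]

section single

variable {M q : ℕ} [hq : Fact q.Prime] [NeZero M] (hqM : ¬ q ∣ M) [CharP k q]
  (hres : ResidueAt A q π) (hgen : genusFF Qb (modularFunctionFieldBar M) ≤ genusFF k (CK M k))

/-- The unit reduces to zero on the component indexed by `true`. -/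
theorem red_true_unit_eq_zero :
    (redC M q hqM hres true).red
      ⟨Model.unitFN M q, Model.unitFN_mem_O M q hqM hres true⟩ = 0 := by
  have h : (⟨Model.unitFN M q, Model.unitFN_mem_O M q hqM hres true⟩ :
      (redC M q hqM hres true).O) = (redC M q hqM hres true).ι ((q : A) ^ 12) *
        Model.unitScaled M q hqM hres true := by
    refine Subtype.ext ?_
    rw [Subring.coe_mul, RedBase.coe_ι]
    show Model.unitFN M q = algebraMap Qb (FN M q) (((q : A) ^ 12 : A) : Qb) *
      (algebraMap Qb (FN M q) ((q : Qb) ^ 12)⁻¹ * Model.unitFN M q)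
    rw [SubmonoidClass.coe_pow, show ((q : A) : Qb) = (q : Qb) from map_natCast A.subtype q,
      ← mul_assoc, ← map_mul,
      mul_inv_cancel₀ (pow_ne_zero _ (Nat.cast_ne_zero.mpr hq.out.ne_zero)), map_one, one_mul]
  rw [h, map_mul, RedBase.red_ι, map_pow, map_natCast, CharP.cast_eq_zero,
    zero_pow (by norm_num), map_zero, zero_mul]

/-- The nodes are the zeros of the reduced unit at finite `j`. -/
theorem mem_nodeSet_iff {y : Place k (CK M k)} :
    y ∈ (graphAlg M q hqM hres hgen).nodeSet ↔
      (xbC M q : CK M k) ∈ y.toValuationSubring ∧ 0 < y.ord (Model.unitBarC M q hqM hres) := by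
  constructor
  · intro hy
    refine ⟨hy.1, ?_⟩
    obtain ⟨n, hn⟩ := Model.exists_unitFN_mem_space M q
    have himg : (Model.unitBarC M q hqM hres, (0 : CK M k)) ∈ imgC M q hqM hres :=
      (mem_imgC M q hqM hres).mpr ⟨n, Model.unitFN M q, Model.unitFN_mem_O M q hqM hres, hn,
        Prod.ext rfl (red_true_unit_eq_zero hqM hres).symm⟩
    have hv := hy.2.2 _ himg
    rw [val_zero] at hv
    have hreg : 0 ≤ y.ord (Model.unitBarC M q hqM hres) := Model.unitBarC_reg M q hqM hres hy.1
    rcases (FF.mem_poleLe _).mp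
      ((val_eq_zero_iff y ((FF.mem_iff_ord_nonneg y).mpr hreg)).mp hv) with h | h
    · exact absurd h (Model.unitBarC_ne_zero M q hqM hres)
    · push_cast at h; omega
  · rintro ⟨h1, h2⟩
    by_contra h
    rw [Model.ord_unitBarC_of_not_node M q hqM hres hgen h1 h] at h2
    omega

omit [NeZero M] in
theorem frobC_smul_xbC : frobC M q (k := k) • (xbC M q : CK M k) = xbC M q := by
  rw [xbC, smul_pow']
  congr 1
  refine Subtype.ext ?_
  rw [frobC, EichlerShimura.coe_coeffSemilinear_smul]
  show coeffMap _ (Igusa.jv (1 : kˣ) 1) = Igusa.jv (1 : kˣ) 1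
  rw [Igusa.coeffMap_jv _ _ one_ne_zero, map_one]

theorem frobC_mem_nodeSet {y : Place k (CK M k)}
    (hy : y ∈ (graphAlg M q hqM hres hgen).nodeSet) :
    frobC M q (k := k) • y ∈ (graphAlg M q hqM hres hgen).nodeSet := by
  rw [mem_nodeSet_iff] at hy ⊢
  constructor
  · rw [FF.mem_iff_ord_nonneg] at hy ⊢
    rw [← frobC_smul_xbC (M := M) (q := q), SemilinearAut.ord_smul]
    exact hy.1
  · rw [← Model.frobC_smul_unitBarC M q hqM hres, SemilinearAut.ord_smul]
    exact hy.2

theorem br_false_mem (s : Node M q hqM hres hgen) :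
    (modelTwoRed M q hqM hres hgen).br s false ∈ (graphAlg M q hqM hres hgen).nodeSet :=
  (Model.node_mem M q hqM hres hgen s).1

theorem br_true_eq (s : Node M q hqM hres hgen) :
    (modelTwoRed M q hqM hres hgen).br s true =
      frobC M q (k := k) • (modelTwoRed M q hqM hres hgen).br s false :=
  (Model.node_mem M q hqM hres hgen s).2

theorem exists_br_false {y : Place k (CK M k)}
    (hy : y ∈ (graphAlg M q hqM hres hgen).nodeSet) :
    ∃ s, (modelTwoRed M q hqM hres hgen).br s false = y :=
  ⟨⟨_, (mem_nodesC M q hqM hres hgen).mpr ⟨y, hy, rfl⟩⟩, rfl⟩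

/-- On either component the branches of the nodes form the node set. -/
theorem exists_br_iff {y : Place k (CK M k)} (i : Bool) :
    (∃ s, (modelTwoRed M q hqM hres hgen).br s i = y) ↔
      y ∈ (graphAlg M q hqM hres hgen).nodeSet := by
  constructor
  · rintro ⟨s, rfl⟩
    cases i
    · exact br_false_mem hqM hres hgen s
    · rw [br_true_eq]
      exact frobC_mem_nodeSet hqM hres hgen (br_false_mem hqM hres hgen s)
  · intro hy
    cases i
    · exact exists_br_false hqM hres hgen hy
    · obtain ⟨s, hs⟩ := exists_br_false hqM hres hgen (frobC_mem_nodeSet hqM hres hgen hy)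
      exact ⟨s, by rw [br_true_eq, hs]; exact hy.2.1⟩

theorem forall_br_ne_iff {y : Place k (CK M k)} (i : Bool) :
    (∀ s, (modelTwoRed M q hqM hres hgen).br s i ≠ y) ↔
      y ∉ (graphAlg M q hqM hres hgen).nodeSet := by
  rw [← exists_br_iff hqM hres hgen i, not_exists]

end single

variable {M L q : ℕ} [hq : Fact q.Prime] [NeZero M] [NeZero L] (hML : M ∣ L) (hqL : ¬ q ∣ L)
variable [CharP k q] (hres : ResidueAt A q π)

local notation "inc" => HeckeCompat.inclC k hML
local notation "hqM" => (fun h => hqL (Dvd.dvd.trans h hML) : ¬ q ∣ M)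

omit hq [NeZero M] [NeZero L] in
include hqL in
theorem integral_inclC : (HeckeCompat.inclC k hML).toRingHom.IsIntegral := by
  have := isFunctionField_CK M q hqM (k := k)
  have := isFunctionField_CK L q hqL (k := k)
  exact Hecke.isIntegralAlong _

/-- The place below. -/
abbrev belowPl (Q : Place k (CK L k)) : Place k (CK M k) :=
  Q.restrictAlong (HeckeCompat.inclC k hML) (integral_inclC (q := q) hML hqL)

/-- The ramification index over level `M`. -/
abbrev ramPl (Q : Place k (CK L k)) : ℕ := Q.ramificationIndexAlong (HeckeCompat.inclC k hML)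

omit hq [NeZero M] [NeZero L] in
/-- Orders after pullback to level `L` get multiplied by the ramification index. -/
theorem ord_inclC (Q : Place k (CK L k)) (a : CK M k) :
    Q.ord (inc a) = (ramPl hML Q : ℤ) * (belowPl hML hqL Q).ord a :=
  Place.ord_restrictAlong _ (integral_inclC (q := q) hML hqL) Q a

omit hq [NeZero M] [NeZero L] in
include hqL in
theorem ramPl_pos (Q : Place k (CK L k)) : 0 < ramPl hML Q := by
  have := isFunctionField_CK M q hqM (k := k)
  have := isFunctionField_CK L q hqL (k := k)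
  let := algebraAlong (HeckeCompat.inclC k hML)
  have := isScalarTower_along (HeckeCompat.inclC k hML)
  have := isIntegral_along (HeckeCompat.inclC k hML) (integral_inclC (q := q) hML hqL)
  exact Q.ramificationIndex_pos (F := CK M k)

omit [NeZero M] [NeZero L] [IsAlgClosed k] hq [CharP k q] in
theorem inclC_xbC : inc (xbC M q : CK M k) = xbC L q := by
  rw [xbC, xbC, map_pow]
  congr 1

theorem inclC_unitBarC :
    inc (Model.unitBarC M q hqM hres) = Model.unitBarC L q hqL hres :=
  Subtype.ext (by rw [HeckeCompat.coe_inclC, Model.coe_unitBarC, Model.coe_unitBarC])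

/-- Reduced orders after pullback to level `L q` get multiplied by the ramification index. -/
theorem redOrd_inclFN (i : Bool) {f : FN M q} (hf : f ≠ 0) (Q : Place k (CK L k)) :
    redOrd (redC L q hqL hres i) (HeckeCompat.inclFN hML f) Q =
      (ramPl hML Q : ℤ) * redOrd (redC M q hqM hres i) f (belowPl hML hqL Q) := by
  obtain ⟨c, hu, he⟩ := unitPart_spec (redC M q hqM hres i) hf
  obtain ⟨hm, hr⟩ := HeckeCompat.red_inclFN hML hqL hres i (unitPart (redC M q hqM hres i) f)
  rw [redOrd_eq (redC L q hqL hres i) ((map_ne_zero _).mpr hf) (c := c) (u := ⟨_, hm⟩)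
    (by rw [hr]; exact (map_ne_zero _).mpr hu)
    (by conv_lhs => rw [he]
        rw [map_mul, (HeckeCompat.inclFN hML).commutes]) Q, hr, ord_inclC hML hqL]
  rfl

variable (hgen : genusFF Qb (modularFunctionFieldBar M) ≤ genusFF k (CK M k))
  (hgenL : genusFF Qb (modularFunctionFieldBar L) ≤ genusFF k (CK L k))

/-- The nodes of level `L q` are those lying over nodes of level `M q`. -/
theorem mem_nodeSet_level (Q : Place k (CK L k)) :
    Q ∈ (graphAlg L q hqL hres hgenL).nodeSet ↔
      belowPl hML hqL Q ∈ (graphAlg M q hqM hres hgen).nodeSet := by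
  have he : (0 : ℤ) < ramPl hML Q := Int.natCast_pos.mpr (ramPl_pos hML hqL Q)
  rw [mem_nodeSet_iff, mem_nodeSet_iff, FF.mem_iff_ord_nonneg, FF.mem_iff_ord_nonneg,
    ← inclC_xbC hML, ← inclC_unitBarC hML hqL hres, ord_inclC hML hqL, ord_inclC hML hqL]
  exact ⟨fun h => ⟨nonneg_of_mul_nonneg_right h.1 he, pos_of_mul_pos_right h.2 he.le⟩,
    fun h => ⟨mul_nonneg he.le h.1, mul_pos he h.2⟩⟩

omit [NeZero M] [NeZero L] in
/-- Frobenius commutes with the inclusion of the reduced function fields. -/
theorem intertwines_frobC :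
    SemilinearAut.IntertwinesAlong (HeckeCompat.inclC k hML).toRingHom (frobC M q (k := k))
      (frobC L q (k := k)) := fun x => Subtype.ext (by
  show ((frobC L q (k := k) • inc x : CK L k) : LaurentSeries k) =
    (inc (frobC M q (k := k) • x) : LaurentSeries k)
  rw [frobC, EichlerShimura.coe_coeffSemilinear_smul, HeckeCompat.coe_inclC,
    HeckeCompat.coe_inclC, frobC,
    EichlerShimura.coe_coeffSemilinear_smul])

variable {c p : ℕ} (hψ : Igusa.psi L = c * Igusa.psi M) (hpc : ¬ p ∣ c)

omit hq [NeZero M] [NeZero L] in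
include hψ hqL in
/-- The degree of the reduced covering is the ratio of the indices. -/
theorem finrank_inclC : finrankAlong k (HeckeCompat.inclC k hML) = c := by
  have := isFunctionField_CK M q hqM (k := k)
  have := isFunctionField_CK L q hqL (k := k)
  have h := Hecke.finrank_adjoin_apply (HeckeCompat.inclC k hML) (HeckeCompat.jC k M)
  rw [show HeckeCompat.inclC k hML (HeckeCompat.jC k M) = HeckeCompat.jC k L from Subtype.ext
    (HeckeCompat.coe_inclC hML _),
    Red.finrank_adjoin_eq_relfinrank, Red.finrank_adjoin_eq_relfinrank,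
    show ((HeckeCompat.jC k L : CK L k) : LaurentSeries k) = Igusa.jv 1 1 from
      Igusa.jv_one_one.symm,
    show ((HeckeCompat.jC k M : CK M k) : LaurentSeries k) = Igusa.jv 1 1 from
      Igusa.jv_one_one.symm,
    Igusa.relfinrank_full L (natCast_ne_zero_of_not_dvd L q hqL),
    Igusa.relfinrank_full M (natCast_ne_zero_of_not_dvd M q hqM), hψ, mul_comm c] at h
  exact (Nat.eq_of_mul_eq_mul_left (Igusa.psi_pos _) h).symm

omit hq [NeZero M] [NeZero L] in
include hψ hpc in
/-- Over every place lies one with ramification prime to `p`. -/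
theorem exists_over (y : Place k (CK M k)) :
    ∃ Q : Place k (CK L k), belowPl hML hqL Q = y ∧ ¬ p ∣ ramPl hML Q := by
  have := isFunctionField_CK M q hqM (k := k)
  have := isFunctionField_CK L q hqL (k := k)
  have hint := integral_inclC (k := k) (q := q) hML hqL
  have hc := finrank_inclC (k := k) hML hqL hψ
  let := algebraAlong (HeckeCompat.inclC k hML)
  have := isScalarTower_along (HeckeCompat.inclC k hML)
  have := isIntegral_along (HeckeCompat.inclC k hML) hint
  have h : FundamentalIdentity k (CK M k) (CK L k) := Hecke.fundamentalIdentityAlong _ hint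
  have hs := h.sum_ramificationIndex_mul_deg y
  simp only [FF.place_deg_eq_one, Nat.cast_one, mul_one] at hs
  by_contra hne
  push Not at hne
  refine hpc (Int.natCast_dvd_natCast.mp ?_)
  rw [← hc]
  show (p : ℤ) ∣ ((Module.finrank (CK M k) (CK L k) : ℕ) : ℤ)
  rw [← hs]
  exact Finset.dvd_sum fun w hw => Int.natCast_dvd_natCast.mpr (hne w (Place.mem_fiber.mp hw))

variable (h4 : 4 ∣ L)

include hψ hpc h4 hgenL in
/-- The relations between the slopes of torsion of order `p ^ n` at level `M q`. -/
theorem node_off_dvd (hp : p.Prime) (n : ℕ) {D : Divisor.degZero (K := Qb) (F := FN M q)}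
    {f : FN M q} (hf : f ≠ 0)
    (hdiv : ∀ P : Place Qb (FN M q), P.ord f = ((p ^ n : ℕ) : ℤ) * (D : Divisor Qb (FN M q)) P) :
    (∀ s, ((p ^ n : ℕ) : ℤ) ∣
        redOrd (redC M q hqM hres false) f ((modelTwoRed M q hqM hres hgen).br s false) +
          redOrd (redC M q hqM hres true) f ((modelTwoRed M q hqM hres hgen).br s true)) ∧
      ∀ i Q, (∀ s, (modelTwoRed M q hqM hres hgen).br s i ≠ Q) →
        ((p ^ n : ℕ) : ℤ) ∣ redOrd (redC M q hqM hres i) f Q := by
  obtain ⟨hnode, hoff⟩ :=
    redOrd_node_off_dvd (Model.modelUnitData L q hqL hres hgenL (Model.noEll_of_four h4))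
    (m := p ^ n) (pow_pos hp.pos n)
    (D := ⟨Divisor.pullbackAlong (HeckeCompat.inclFN hML) (Setup.integral_along _) D.1,
      Divisor.mem_degZero.mpr (Setup.degree_pullback _ (Divisor.mem_degZero.mp D.2))⟩)
    ((map_ne_zero (HeckeCompat.inclFN hML)).mpr hf) (Setup.ord_pullback _ hdiv)
  have hco : ∀ Q : Place k (CK L k), ¬ p ∣ ramPl hML Q →
      IsCoprime ((p ^ n : ℕ) : ℤ) (ramPl hML Q : ℤ) := fun Q hQ =>
    Nat.isCoprime_iff_coprime.mpr ((hp.coprime_iff_not_dvd.mpr hQ).pow_left n)
  constructor
  · intro s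
    obtain ⟨Q, hQ, hpe⟩ := exists_over (k := k) hML hqL hψ hpc
      ((modelTwoRed M q hqM hres hgen).br s false)
    obtain ⟨s', hs'⟩ := exists_br_false hqL hres hgenL
      ((mem_nodeSet_level hML hqL hres hgen hgenL Q).mpr (hQ ▸ br_false_mem _ hres hgen s))
    have h := hnode s'
    rw [br_true_eq, hs'] at h
    change ((p ^ n : ℕ) : ℤ) ∣ redOrd (redC L q hqL hres false) (HeckeCompat.inclFN hML f) Q +
      redOrd (redC L q hqL hres true) (HeckeCompat.inclFN hML f) (frobC L q (k := k) • Q) at h
    rw [redOrd_inclFN hML hqL hres _ hf, redOrd_inclFN hML hqL hres _ hf, belowPl, belowPl,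
      Hecke.restrictAlong_smul _ _ (intertwines_frobC hML), ramPl, ramPl,
      Hecke.ramificationIndexAlong_smul _ (intertwines_frobC hML) (integral_inclC (q := q) hML hqL),
      ← mul_add] at h
    rw [br_true_eq, ← hQ]
    exact (hco Q hpe).dvd_of_dvd_mul_left h
  · intro i y hy
    obtain ⟨Q, hQ, hpe⟩ := exists_over (k := k) hML hqL hψ hpc y
    rw [forall_br_ne_iff] at hy
    have hQn : Q ∉ (graphAlg L q hqL hres hgenL).nodeSet := fun h =>
      hy (hQ ▸ (mem_nodeSet_level hML hqL hres hgen hgenL Q).mp h)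
    have h := hoff i Q ((forall_br_ne_iff hqL hres hgenL i).mpr hQn)
    change ((p ^ n : ℕ) : ℤ) ∣ redOrd (redC L q hqL hres i) (HeckeCompat.inclFN hML f) Q at h
    rw [redOrd_inclFN hML hqL hres _ hf, hQ] at h
    exact (hco Q hpe).dvd_of_dvd_mul_left h

include hψ hpc h4 hgenL in
/-- The slope bound at level `M q`. -/
theorem natCard_torsion_le_level [Nonempty (Node M q hqM hres hgen)] (hp : p.Prime) (n : ℕ)
    [Finite (Pic0.torsion Qb (FN M q) (p ^ n))] :
    Nat.card (Pic0.torsion Qb (FN M q) (p ^ n)) ≤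
      (p ^ n) ^ (Fintype.card (Node M q hqM hres hgen) - 1) *
        Nat.card ((modelTwoRed M q hqM hres hgen).T0 (p ^ n)) :=
  natCard_torsion_le_of _ (pow_pos hp.pos n) fun _ _ hf hdiv =>
    node_off_dvd hML hqL hres hgen hgenL hψ hpc h4 hp n hf hdiv

include hML hgenL h4 in
/-- `X₀(M q)` has a node as soon as the level above it does. -/
theorem nonempty_node_level : Nonempty (Node M q hqM hres hgen) := by
  obtain ⟨s⟩ := Model.nonempty_node L q hqL hres hgenL (Model.noEll_of_four h4)
  obtain ⟨t, -⟩ := exists_br_false _ hres hgen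
    ((mem_nodeSet_level hML hqL hres hgen hgenL _).mp (br_false_mem hqL hres hgenL s))
  exact ⟨t⟩

include hψ hpc h4 hgenL in
/-- The order of the reduced unit at a node is prime to `p`. -/
theorem not_dvd_ord_unitBarC (hp5 : ¬ p ∣ 12) {y : Place k (CK M k)}
    (hy : y ∈ (graphAlg M q hqM hres hgen).nodeSet) :
    ¬ (p : ℤ) ∣ y.ord (Model.unitBarC M q hqM hres) := by
  obtain ⟨Q, hQ, -⟩ := exists_over (k := k) hML hqL hψ hpc y
  have h12 := Model.ord_unitBarC_node L q hqL hres hgenL (Model.noEll_of_four h4)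
    ((mem_nodeSet_level hML hqL hres hgen hgenL Q).mpr (hQ ▸ hy))
  rw [← inclC_unitBarC hML hqL hres, ord_inclC hML hqL, hQ] at h12
  exact fun h => hp5 (Int.natCast_dvd_natCast.mp (by
    rw [Nat.cast_ofNat, ← h12]
    exact h.mul_left _))

include hψ hpc h4 hgen hgenL in
/-- Over the inertia field the slopes at level `M q` are proportional to the orders of the unit. -/
theorem exists_slope_of_fixed (hp : p.Prime) {D : Divisor.degZero (K := Qb) (F := FN M q)}
    {f : FN M q} (hf : f ≠ 0)
    (hdiv : ∀ P : Place Qb (FN M q), P.ord f = (p : ℤ) * (D : Divisor Qb (FN M q)) P)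
    (hfix : ∀ (n : ℤ), ∀ σ ∈ A.inertiaSubgroupIn ℚ,
      σ ((f : LaurentSeries Qb).coeff n) = (f : LaurentSeries Qb).coeff n) :
    ∃ C : ℤ, ∀ y : Place k (CK M k), (xbC M q : CK M k) ∈ y.toValuationSubring →
      (p : ℤ) ∣ 12 * redOrd (redC M q hqM hres false) f y -
        C * y.ord (Model.unitBarC M q hqM hres) := by
  set Ud := Model.modelUnitData L q hqL hres hgenL (Model.noEll_of_four h4)
  have hη := Model.modelUnitData_η L q hqL hres hgenL (Model.noEll_of_four h4)
  set φ := HeckeCompat.inclFN (p := q) hML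
  have hf' : φ f ≠ 0 := (map_ne_zero φ).mpr hf
  have hfix' : Setup.CoeffFixed (N := L * q) (A.inertiaSubgroupIn ℚ) (φ f) := fun σ hσ n => by
    rw [HeckeCompat.coe_inclFN]; exact hfix n σ hσ
  have hdiv' := Setup.ord_pullback φ hdiv
  have hspans : (Model.modelRatData Ud hη).Spans
      (Divisor.pullbackAlong φ (Setup.integral_along φ) D.1) :=
    Setup.spans_of_fixed (fun _ h => (Model.mem_F₀_iff Ud hη).mpr h) (Model.coeffFixed_x _)
      (Int.natCast_ne_zero.mpr hp.ne_zero) hfix' hdiv'
  obtain ⟨s₀⟩ := Model.nonempty_node L q hqL hres hgenL (Model.noEll_of_four h4)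
  refine ⟨redOrd (redC L q hqL hres false) (φ f) ((modelTwoRed L q hqL hres hgenL).br s₀ false),
    fun y hy => ?_⟩
  by_cases hn : y ∈ (graphAlg M q hqM hres hgen).nodeSet
  · obtain ⟨Q, hQ, hpe⟩ := exists_over (k := k) hML hqL hψ hpc y
    have hQn := (mem_nodeSet_level hML hqL hres hgen hgenL Q).mpr (hQ ▸ hn)
    obtain ⟨s, hs⟩ := exists_br_false hqL hres hgenL hQn
    have h := (Model.modelRatData Ud hη).slopes_congr rfl hp.pos hspans
      (Setup.degree_pullback φ (Divisor.mem_degZero.mp D.2))
      ((Model.mem_F₀_iff Ud hη).mpr hfix') hf' hdiv' s s₀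
    rw [hs] at h
    change (p : ℤ) ∣ redOrd (redC L q hqL hres false) (φ f) Q -
      redOrd (redC L q hqL hres false) (φ f) ((modelTwoRed L q hqL hres hgenL).br s₀ false) at h
    have h12 := Model.ord_unitBarC_node L q hqL hres hgenL (Model.noEll_of_four h4) hQn
    rw [← inclC_unitBarC hML hqL hres, ord_inclC hML hqL, hQ] at h12
    rw [redOrd_inclFN hML hqL hres _ hf, hQ] at h
    set e : ℤ := (ramPl hML Q : ℤ)
    refine ((Nat.prime_iff_prime_int.mp hp).dvd_or_dvd (a := e) ?_).resolve_left
      fun h' => hpe (Int.natCast_dvd_natCast.mp h')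
    refine (congrArg ((p : ℤ) ∣ ·) ?_).mp (h.mul_left 12)
    linear_combination (redOrd (redC L q hqL hres false) (φ f)
      ((modelTwoRed L q hqL hres hgenL).br s₀ false)) * h12
  · rw [Model.ord_unitBarC_of_not_node M q hqM hres hgen hy hn, mul_zero, sub_zero]
    refine Dvd.dvd.mul_left ?_ _
    have := (node_off_dvd hML hqL hres hgen hgenL hψ hpc h4 hp 1 (D := D) hf
      (by rw [pow_one]; exact hdiv)).2 false y ((forall_br_ne_iff _ hres hgen false).mpr hn)
    rwa [pow_one] at this

end Fermat.Agent.LevelLowering.MonodromyExact
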