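import Fermat.Agent.TwoComponent.RedClass

/-!
# Automorphisms swapping the branches at every node act as `-a` on toric classes

At a prime `r` the composite of Frobenius and the Atkin–Lehner involution is such an automorphism
of the two-component reduction, with `a = r`; so `φ = -r w` on the toric classes.
-/

noncomputable section

open AlgebraicCurve Fermat.Agent.Red Fermat.Agent.TwoComponent

namespace Fermat.Agent.LevelLowering.MonodromyExact

variable {K k F Fk : Type*} [Field K] [Field F] [Algebra K F] [Field k] [Field Fk] [Algebra k Fk]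
variable {A : ValuationSubring K} {π : A →+* k} {S : Type*} [Fintype S]

/-- A compatible automorphism exchanging the components and the two branches at every node. -/
structure SwapRed (T : TwoRed A π F Fk S) where
  /-- The automorphism. -/
  aut : SemilinearAut K F
  /-- Its residual action on constants. -/
  res : k ≃+* k
  /-- Its residual action from each component to the other. -/
  resF : Fk ≃+* Fk
  resF_algebraMap : ∀ a : k, resF (algebraMap k Fk a) = algebraMap k Fk (res a)
  base_mem : ∀ a : K, a ∈ A → SemilinearAut.baseAut aut a ∈ A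
  pi_base : ∀ a : A, π ⟨SemilinearAut.baseAut aut a, base_mem a a.2⟩ = res (π a)
  mem : ∀ (i : Bool) (u : F), u ∈ (T.R i).O → aut • u ∈ (T.R (!i)).O
  red_smul : ∀ (i : Bool) (u : (T.R i).O),
    (T.R (!i)).red ⟨aut • (u : F), mem i u u.2⟩ = resF ((T.R i).red u)
  x_fix : aut • T.x = T.x
  branch : ∀ s i, (⟨(resF, res), resF_algebraMap⟩ : SemilinearAut k Fk) • T.br s i = T.br s (!i)

namespace SwapRed

variable {T : TwoRed A π F Fk S} (τ : SwapRed T)

/-- The residual automorphism. -/
def resAut : SemilinearAut k Fk := ⟨(τ.resF, τ.res), τ.resF_algebraMap⟩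

theorem ord_resF (Q : Place k Fk) (w : Fk) : Q.ord (τ.resF w) = (τ.resAut⁻¹ • Q).ord w := by
  have h := SemilinearAut.ord_smul τ.resAut (τ.resAut⁻¹ • Q) w
  rwa [smul_inv_smul] at h

theorem inv_branch (s : S) (i : Bool) : τ.resAut⁻¹ • T.br s i = T.br s (!i) := by
  rw [inv_smul_eq_iff]
  have h := τ.branch s (!i)
  rw [Bool.not_not] at h
  exact h.symm

theorem baseAut_ne_zero {a : K} (ha : a ≠ 0) : SemilinearAut.baseAut τ.aut a ≠ 0 :=
  fun h => ha (by simpa using congrArg (SemilinearAut.baseAut τ.aut).symm h)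

theorem ord_smul' (P : Place K F) (f : F) : P.ord (τ.aut • f) = (τ.aut⁻¹ • P).ord f := by
  have h := SemilinearAut.ord_smul τ.aut (τ.aut⁻¹ • P) f
  rwa [smul_inv_smul] at h

theorem smul_G : τ.aut • T.G = T.G := by
  ext P
  rw [SemilinearAut.divisor_smul_apply, T.G_spec, T.G_spec, ← τ.ord_smul', τ.x_fix]

theorem smul_mem_space {D : Divisor K F} {u : F} (hu : u ∈ riemannRochSpace D) :
    τ.aut • u ∈ riemannRochSpace (τ.aut • D) := by
  refine mem_riemannRochSpace_iff.mpr fun P => ?_
  rw [SemilinearAut.divisor_smul_apply, τ.ord_smul']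
  exact ((mem_riemannRochSpace_iff.mp hu) (τ.aut⁻¹ • P)).imp (fun h => by rw [h, smul_zero]) id

/-- The image on the other side. -/
def mapO (i : Bool) (u : (T.R (!i)).O) : (T.R i).O :=
  ⟨τ.aut • (u : F), by simpa only [Bool.not_not] using τ.mem (!i) u u.2⟩

theorem red_mapO (i : Bool) (u : (T.R (!i)).O) :
    (T.R i).red (τ.mapO i u) = τ.resF ((T.R (!i)).red u) := by
  cases i
  · exact τ.red_smul true u
  · exact τ.red_smul false u

/-- Transported data. -/
def mapNormal {m : ℕ} {D : Divisor K F} (d : T.NormalData m D) : T.NormalData m (τ.aut • D) where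
  f := τ.aut • d.f
  f_ne := fun h => d.f_ne (by simpa [smul_smul] using congrArg (fun z => τ.aut⁻¹ • z) h)
  div_f P := by rw [τ.ord_smul', d.div_f, SemilinearAut.divisor_smul_apply]
  degree_D := by rw [SemilinearAut.degree_smul, d.degree_D]
  c i := SemilinearAut.baseAut τ.aut (d.c (!i))
  c_ne i := τ.baseAut_ne_zero (d.c_ne (!i))
  e i := τ.mapO i (d.e (!i))
  e_eq i := by
    show τ.aut • ((d.e (!i) : (T.R (!i)).O) : F) = _
    rw [d.e_eq, smul_mul', smul_pow', SemilinearAut.smul_algebraMap]
  e_ne i := by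
    rw [τ.red_mapO]
    simpa using d.e_ne (!i)
  e_br s i := by
    rw [τ.red_mapO, τ.ord_resF, τ.inv_branch]
    exact d.e_br s (!i)

theorem ev_resF {P : Place k Fk} (hP : P.deg = 1) {w : Fk}
    (hw : w ∈ (τ.resAut⁻¹ • P).toValuationSubring) :
    ev P (τ.resF w) = τ.res (ev (τ.resAut⁻¹ • P) w) := by
  have hP' : (τ.resAut⁻¹ • P).deg = 1 := by rw [SemilinearAut.deg_smul, hP]
  set c := ev (τ.resAut⁻¹ • P) w with hc
  have hwc : w - algebraMap k Fk c ∈ (τ.resAut⁻¹ • P).toValuationSubring :=
    sub_mem hw ((τ.resAut⁻¹ • P).algebraMap_mem' c)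
  have h0 : ev (τ.resAut⁻¹ • P) (w - algebraMap k Fk c) = 0 := by
    have := ev_add hP' hwc ((τ.resAut⁻¹ • P).algebraMap_mem' c)
    rw [sub_add_cancel, ev_algebraMap hP', ← hc] at this
    linear_combination -this
  have h1 := (ev_eq_zero_iff hP' hwc).mp h0
  have hmem : τ.resF (w - algebraMap k Fk c) ∈ P.toValuationSubring := by
    rw [mem_place_iff, τ.ord_resF]
    exact (mem_place_iff _).mp hwc
  have h2 : ev P (τ.resF (w - algebraMap k Fk c)) = 0 := by
    rw [ev_eq_zero_iff hP hmem, τ.ord_resF]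
    exact h1.imp (fun h => by rw [h, map_zero]) id
  have hsplit : τ.resF w = τ.resF (w - algebraMap k Fk c) + algebraMap k Fk (τ.res c) := by
    rw [map_sub, τ.resF_algebraMap, sub_add_cancel]
  rw [hsplit, ev_add hP hmem (P.algebraMap_mem' _), h2, zero_add, ev_algebraMap hP]

/-- The lines of the transported normal form are the inverses of the transported lines. -/
theorem lines_mapNormal {m : ℕ} (hm : 0 < m) {D : Divisor K F} (d : T.NormalData m D) (s : S) :
    (τ.mapNormal d).lines s = (τ.res (d.lines s))⁻¹ := by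
  set d₁ := τ.mapNormal d with hd₁
  set N := d.bigN + d₁.bigN with hN
  obtain ⟨w, hw, hv⟩ := d.exists_test hm (show d.bigN ≤ N by omega)
  have hmem : (fun i => τ.resF (w (!i))) ∈
      pairImage T.R d₁.c (riemannRochSpace (τ.aut • D + N • T.G)) := by
    obtain ⟨u, hu, h⟩ := hw
    refine ⟨τ.aut • u, ?_, fun i => ?_⟩
    · have := τ.smul_mem_space hu
      rwa [smul_add, smul_comm τ.aut N T.G, τ.smul_G] at this
    · obtain ⟨v, hv', hr⟩ := h (!i)
      exact ⟨τ.mapO i v, by
        show _ * (τ.aut • (v : F)) = _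
        rw [← hv', smul_mul', SemilinearAut.smul_algebraMap]
        rfl, by rw [τ.red_mapO, hr]⟩
  have h := d₁.lines_eq_of_mem hm (show d₁.bigN ≤ N by omega) hmem s
  rw [d.image_lines hm (by omega)] at hw
  have hreg : ∀ i, w (!i) ∈ (τ.resAut⁻¹ • T.br s i).toValuationSubring := fun i => by
    rw [τ.inv_branch s i]; exact hw.2.1 s (!i)
  rw [τ.ev_resF (T.deg_br s false) (hreg false), τ.ev_resF (T.deg_br s true) (hreg true),
    τ.inv_branch s false, τ.inv_branch s true] at h
  simp only [Bool.not_false, Bool.not_true] at h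
  rw [(hv s).1, (hv s).2, map_one] at h
  exact eq_inv_of_mul_eq_one_left h.symm

/-- **`τ = -a` on the toric classes.** -/
theorem smul_add_nsmul_eq_zero [IsAlgClosed K] {m : ℕ} (hm : 0 < m) (hmk : (m : k) ≠ 0)
    (hnt : ∃ t : A, t ≠ 0 ∧ π t = 0) {a : ℕ} (hres : ∀ z : k, z ^ m = 1 → τ.res z = z ^ a)
    {y : Pic0 K F} (hy : T.InT00 m y) : τ.aut • y + a • y = 0 := by
  obtain ⟨D, d, rfl, he⟩ := hy
  set d' := (τ.mapNormal d).mul (d.npow a) with hd'
  have he' : ∀ i, (T.R i).red (d'.e i) = 1 := fun i => by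
    rw [hd', TwoRed.NormalData.red_e_mul, TwoRed.NormalData.red_e_npow, he, one_pow, mul_one]
    show (T.R i).red (τ.mapO i (d.e (!i))) = 1
    rw [τ.red_mapO, he, map_one]
  have hl : ∀ s, d'.lines s = 1 := fun s => by
    rw [hd', TwoRed.NormalData.lines_mul hm, TwoRed.NormalData.lines_npow hm, τ.lines_mapNormal hm,
      hres _ (TwoRed.NormalData.lines_pow hm d he s)]
    exact inv_mul_cancel₀ (pow_ne_zero _ (TwoRed.NormalData.lines_ne_zero hm d s))
  have hp := (TwoRed.NormalData.toTrivial hm d' he' hl).principal hm hmk hnt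
  rw [SemilinearAut.pic0_smul_mk,
    show a • Pic0.mk D = Pic0.mk (a • D) from
      (map_nsmul (QuotientAddGroup.mk' ((Divisor.principal (K := K) (F := F)).addSubgroupOf
        (Divisor.degZero (K := K) (F := F)))) a D).symm, ← Pic0.mk_add]
  refine (QuotientAddGroup.eq_zero_iff _).mpr (AddSubgroup.mem_addSubgroupOf.mpr ?_)
  rwa [AddSubgroup.coe_add, SemilinearAut.coe_degZeroSMulHom, AddSubgroupClass.coe_nsmul]

end SwapRed

end Fermat.Agent.LevelLowering.MonodromyExact
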